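/-
S27 / block (Z) "zeta in characteristic p", design GEOMETRIC FROBENIUS (helper7 #4332, helper29).
Prefix `s27z_`.  File 1: definitions + the action of constant-preserving ring automorphisms.

`k` a field, `E / k` a field extension.  `s27z_stab k E` is the group of ring automorphisms of `E`
mapping (the image of) `k` onto itself (SEMILINEAR automorphisms: the `q`-Frobenius of the
constants extended to `E`).  It acts on `Place k E`, `Divisor k E`, `Pic0 k E`, exactly as the
`k`-algebra automorphisms do in the Prelude.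
-/
import Mathlib
import Fermat.Agent.JT3.Riemann.Main

set_option autoImplicit false
set_option linter.unusedSectionVars false

noncomputable section

namespace Fermat.Agent.S27

open AlgebraicCurve Fermat.Agent.JT3
open scoped Pointwise

universe u v
variable {k : Type u} {E : Type v} [Field k] [Field E] [Algebra k E]

variable (k E) in
/-- ring automorphisms of `E` mapping the constants `k` onto themselves -/
def s27z_stab : Subgroup (RingAut E) where
  carrier := {σ | ∀ c : k, (∃ c' : k, σ (algebraMap k E c) = algebraMap k E c') ∧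
    ∃ c' : k, σ⁻¹ (algebraMap k E c) = algebraMap k E c'}
  mul_mem' := by
    intro σ τ hσ hτ c
    refine ⟨?_, ?_⟩
    · obtain ⟨c₁, h₁⟩ := (hτ c).1
      obtain ⟨c₂, h₂⟩ := (hσ c₁).1
      exact ⟨c₂, by rw [RingAut.mul_apply, h₁, h₂]⟩
    · obtain ⟨c₁, h₁⟩ := (hσ c).2
      obtain ⟨c₂, h₂⟩ := (hτ c₁).2
      exact ⟨c₂, by rw [mul_inv_rev, RingAut.mul_apply, h₁, h₂]⟩
  one_mem' := fun c => ⟨⟨c, rfl⟩, ⟨c, by rw [inv_one]; rfl⟩⟩
  inv_mem' := by
    intro σ hσ c
    exact ⟨(hσ c).2, by rw [inv_inv]; exact (hσ c).1⟩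

theorem s27z_mem_stab {σ : RingAut E} :
    σ ∈ s27z_stab k E ↔ ∀ c : k, (∃ c' : k, σ (algebraMap k E c) = algebraMap k E c') ∧
      ∃ c' : k, σ⁻¹ (algebraMap k E c) = algebraMap k E c' := Iff.rfl

/-- the action of `σ` on an element is `σ f` -/
theorem s27z_smul_def (σ : s27z_stab k E) (f : E) : σ • f = (σ : RingAut E) f := rfl

theorem s27z_coe_pow (σ : s27z_stab k E) (n : ℕ) :
    ((σ ^ n : s27z_stab k E) : RingAut E) = (σ : RingAut E) ^ n := rfl

theorem s27z_map_const (σ : s27z_stab k E) (c : k) :
    ∃ c' : k, (σ : RingAut E) (algebraMap k E c) = algebraMap k E c' := (σ.2 c).1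

theorem s27z_inv_map_const (σ : s27z_stab k E) (c : k) :
    ∃ c' : k, (σ : RingAut E)⁻¹ (algebraMap k E c) = algebraMap k E c' := (σ.2 c).2

/-! ### The action on places -/

/-- `σ` restricted to a valuation subring -/
def s27z_vsEquiv (σ : s27z_stab k E) (A : ValuationSubring E) :
    A ≃+* (σ • A : ValuationSubring E) where
  toFun x := ⟨(σ : RingAut E) x, ValuationSubring.smul_mem_pointwise_smul σ (x : E) A x.2⟩
  invFun y := ⟨(σ : RingAut E)⁻¹ y, by
    have := (ValuationSubring.mem_pointwise_smul_iff_inv_smul_mem (g := σ)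
      (S := A) (x := (y : E))).mp y.2
    exact this⟩
  left_inv x := by
    ext
    show (σ : RingAut E)⁻¹ ((σ : RingAut E) (x : E)) = x
    rw [← RingAut.mul_apply, inv_mul_cancel, RingAut.one_apply]
  right_inv y := by
    ext
    show (σ : RingAut E) ((σ : RingAut E)⁻¹ (y : E)) = y
    rw [← RingAut.mul_apply, mul_inv_cancel, RingAut.one_apply]
  map_mul' x y := by ext; exact map_mul (σ : RingAut E) _ _
  map_add' x y := by ext; exact map_add (σ : RingAut E) _ _

@[simp]
theorem s27z_coe_vsEquiv (σ : s27z_stab k E) (A : ValuationSubring E) (x : A) :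
    ((s27z_vsEquiv σ A x : (σ • A : ValuationSubring E)) : E) = (σ : RingAut E) x := rfl

theorem s27z_smul_top (σ : s27z_stab k E) : σ • (⊤ : ValuationSubring E) = ⊤ := by
  ext x
  simp only [ValuationSubring.mem_pointwise_smul_iff_inv_smul_mem]
  exact ⟨fun _ => ValuationSubring.mem_top x, fun _ => ValuationSubring.mem_top _⟩

instance s27z_instSMulPlace : SMul (s27z_stab k E) (Place k E) where
  smul σ v :=
    { toValuationSubring := σ • v.toValuationSubring
      algebraMap_mem' := fun a => by
        obtain ⟨c', hc'⟩ := s27z_inv_map_const σ a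
        rw [ValuationSubring.mem_pointwise_smul_iff_inv_smul_mem]
        show (σ : RingAut E)⁻¹ (algebraMap k E a) ∈ v.toValuationSubring
        rw [hc']
        exact v.algebraMap_mem' c'
      ne_top' := fun h => v.ne_top' <| by
        have := congrArg (σ⁻¹ • ·) h
        simp only [s27z_smul_top] at this
        rw [← this]
        exact (inv_smul_smul σ v.toValuationSubring).symm
      isPrincipalIdealRing' :=
        IsPrincipalIdealRing.of_surjective
          (s27z_vsEquiv σ v.toValuationSubring : _ ≃+* _)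
          (s27z_vsEquiv σ v.toValuationSubring).surjective }

@[simp]
theorem s27z_smul_toValuationSubring (σ : s27z_stab k E) (v : Place k E) :
    (σ • v).toValuationSubring = σ • v.toValuationSubring := rfl

instance s27z_instMulActionPlace : MulAction (s27z_stab k E) (Place k E) where
  one_smul v := by
    ext1
    rw [s27z_smul_toValuationSubring]
    exact one_smul _ _
  mul_smul σ τ v := by
    ext1
    simp only [s27z_smul_toValuationSubring]
    exact mul_smul σ τ _

theorem s27z_mem_smul_iff (σ : s27z_stab k E) (v : Place k E) (f : E) :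
    (σ : RingAut E) f ∈ (σ • v).toValuationSubring ↔ f ∈ v.toValuationSubring := by
  rw [s27z_smul_toValuationSubring, ValuationSubring.mem_pointwise_smul_iff_inv_smul_mem]
  show (σ : RingAut E)⁻¹ ((σ : RingAut E) f) ∈ _ ↔ _
  rw [← RingAut.mul_apply, inv_mul_cancel, RingAut.one_apply]

/-- `ord_{σ v} (σ f) = ord_v f` -/
theorem s27z_ord_smul (σ : s27z_stab k E) (v : Place k E) (f : E) :
    (σ • v).ord ((σ : RingAut E) f) = v.ord f := by
  rcases eq_or_ne f 0 with rfl | hf
  · simp
  obtain ⟨π, hπ⟩ := IsDiscreteValuationRing.exists_irreducible v.toValuationSubring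
  obtain ⟨w, hw⟩ := v.exists_unit_mul_zpow hf hπ
  set n := v.ord f with hn
  set e := s27z_vsEquiv σ v.toValuationSubring with he
  have hπ' : Irreducible (e π) := (MulEquiv.irreducible_iff e).mpr hπ
  have hu' : IsUnit (e (w : v.toValuationSubring)) := w.isUnit.map e
  have hcoeu : ((hu'.unit : (σ • v).toValuationSubring) : E)
      = (σ : RingAut E) ((w : v.toValuationSubring) : E) := by
    rw [IsUnit.unit_spec]
    rfl
  have hcoeπ : ((e π : (σ • v).toValuationSubring) : E) = (σ : RingAut E) (π : E) := rfl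
  have key : (σ : RingAut E) f = ((hu'.unit : (σ • v).toValuationSubring) : E)
      * (((e π : (σ • v).toValuationSubring) : E) ^ n) := by
    rw [hcoeu, hcoeπ, hw, map_mul, map_zpow₀]
  rw [key, (σ • v).ord_unit_smul_zpow hu'.unit hπ' n]

theorem s27z_ord_smul' (σ : s27z_stab k E) (w : Place k E) (f : E) :
    w.ord ((σ : RingAut E) f) = (σ⁻¹ • w).ord f := by
  have h := s27z_ord_smul σ (σ⁻¹ • w) f
  rwa [smul_inv_smul] at h

/-! ### The action on divisors -/

instance s27z_instDivisor : DistribMulAction (s27z_stab k E) (Divisor k E) :=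
  Finsupp.comapDistribMulAction

theorem s27z_divisor_smul_def (σ : s27z_stab k E) (D : Divisor k E) :
    σ • D = Finsupp.mapDomain (σ • ·) D := rfl

@[simp]
theorem s27z_smul_single (σ : s27z_stab k E) (v : Place k E) (n : ℤ) :
    σ • (Finsupp.single v n : Divisor k E) = Finsupp.single (σ • v) n := by
  rw [s27z_divisor_smul_def, Finsupp.mapDomain_single]

theorem s27z_smul_apply_smul (σ : s27z_stab k E) (D : Divisor k E) (v : Place k E) :
    (σ • D) (σ • v) = D v := by
  rw [s27z_divisor_smul_def]
  exact Finsupp.mapDomain_apply (MulAction.injective σ) D v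

theorem s27z_smul_apply (σ : s27z_stab k E) (D : Divisor k E) (w : Place k E) :
    (σ • D) w = D (σ⁻¹ • w) := by
  have : (σ • D) (σ • (σ⁻¹ • w)) = D (σ⁻¹ • w) := s27z_smul_apply_smul σ D (σ⁻¹ • w)
  rwa [smul_inv_smul] at this

theorem s27z_smul_nonneg (σ : s27z_stab k E) {D : Divisor k E} (hD : 0 ≤ D) : 0 ≤ σ • D := by
  rw [Finsupp.le_def] at hD ⊢
  intro w
  rw [s27z_smul_apply]
  exact hD _

theorem s27z_smul_le_smul_iff (σ : s27z_stab k E) {D D' : Divisor k E} :
    σ • D ≤ σ • D' ↔ D ≤ D' := by
  rw [Finsupp.le_def, Finsupp.le_def]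
  constructor
  · intro h v
    have := h (σ • v)
    rwa [s27z_smul_apply_smul, s27z_smul_apply_smul] at this
  · intro h w
    rw [s27z_smul_apply, s27z_smul_apply]
    exact h _

theorem s27z_smul_mem_principal (σ : s27z_stab k E) {D : Divisor k E}
    (hD : D ∈ Divisor.principal (K := k) (F := E)) :
    σ • D ∈ Divisor.principal (K := k) (F := E) := by
  obtain ⟨f, hf, hD⟩ := hD
  refine ⟨(σ : RingAut E) f, by simpa using hf, fun w => ?_⟩
  rw [s27z_smul_apply, hD (σ⁻¹ • w), s27z_ord_smul']

/-- `f ∈ L(D) ↔ σ f ∈ L(σ D)` -/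
theorem s27z_mem_L_smul_iff (σ : s27z_stab k E) (D : Divisor k E) (f : E) :
    (σ : RingAut E) f ∈ riemannRochSpace (σ • D) ↔ f ∈ riemannRochSpace D := by
  rw [mem_riemannRochSpace_iff, mem_riemannRochSpace_iff]
  constructor
  · intro h v
    rcases h (σ • v) with h0 | h1
    · left
      exact (map_eq_zero_iff _ (σ : RingAut E).injective).mp h0
    · right
      rwa [s27z_smul_apply_smul, s27z_ord_smul] at h1
  · intro h w
    rcases h (σ⁻¹ • w) with h0 | h1
    · left
      rw [h0, map_zero]
    · right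
      rwa [s27z_smul_apply, s27z_ord_smul']

section closed

variable [IsAlgClosed k] {x : E} (hx : rt_IsSepGen k x)

include hx

theorem s27z_degree_smul (σ : s27z_stab k E) (D : Divisor k E) :
    Divisor.degree (σ • D) = Divisor.degree D := by
  induction D using Finsupp.induction with
  | zero => simp
  | single_add v n D _ _ ih =>
      rw [smul_add, map_add, map_add, ih, s27z_smul_single, rt_degree_single hx,
        rt_degree_single hx]

/-- `σ (div f) = div (σ f)` -/
theorem s27z_smul_div (σ : s27z_stab k E) (f : E) :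
    σ • rt_div hx f = rt_div hx ((σ : RingAut E) f) := by
  ext w
  rw [s27z_smul_apply, rt_div_apply, rt_div_apply, s27z_ord_smul']

theorem s27z_smul_mem_degZero (σ : s27z_stab k E) {D : Divisor k E}
    (hD : D ∈ Divisor.degZero (K := k) (F := E)) : σ • D ∈ Divisor.degZero (K := k) (F := E) := by
  rwa [Divisor.mem_degZero, s27z_degree_smul hx]

/-! ### The action on `Pic0` -/

/-- `σ` on divisors of degree zero -/
def s27z_degZeroHom (σ : s27z_stab k E) :
    Divisor.degZero (K := k) (F := E) →+ Divisor.degZero (K := k) (F := E) :=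
  ((DistribSMul.toAddMonoidHom (Divisor k E) σ).domRestrict
    (Divisor.degZero (K := k) (F := E))).codRestrict _
    (fun D => s27z_smul_mem_degZero hx σ D.2)

@[simp]
theorem s27z_coe_degZeroHom (σ : s27z_stab k E) (D : Divisor.degZero (K := k) (F := E)) :
    (s27z_degZeroHom hx σ D : Divisor k E) = σ • (D : Divisor k E) := rfl

/-- `σ` on `Pic0` as an additive endomorphism -/
def s27z_picHom (σ : s27z_stab k E) : Pic0 k E →+ Pic0 k E :=
  QuotientAddGroup.map _ _ (s27z_degZeroHom hx σ) (by
    rintro ⟨D, hD0⟩ hD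
    simp only [AddSubgroup.mem_addSubgroupOf] at hD ⊢
    exact s27z_smul_mem_principal σ hD)

theorem s27z_picHom_mk (σ : s27z_stab k E) (D : Divisor.degZero (K := k) (F := E)) :
    s27z_picHom hx σ (Pic0.mk D) = Pic0.mk (s27z_degZeroHom hx σ D) := rfl

theorem s27z_picHom_one (c : Pic0 k E) : s27z_picHom hx (1 : s27z_stab k E) c = c := by
  obtain ⟨D, rfl⟩ := Pic0.mk_surjective c
  rw [s27z_picHom_mk]
  exact congrArg Pic0.mk (Subtype.ext (by rw [s27z_coe_degZeroHom, one_smul]))

theorem s27z_picHom_mul (σ τ : s27z_stab k E) (c : Pic0 k E) :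
    s27z_picHom hx (σ * τ) c = s27z_picHom hx σ (s27z_picHom hx τ c) := by
  obtain ⟨D, rfl⟩ := Pic0.mk_surjective c
  rw [s27z_picHom_mk, s27z_picHom_mk, s27z_picHom_mk]
  exact congrArg Pic0.mk (Subtype.ext (by simp only [s27z_coe_degZeroHom]; rw [mul_smul]))

/-- **the automorphism of `Pic0` induced by `σ`** (this is the `phi` of `s27g_main`) -/
def s27z_picMap (σ : s27z_stab k E) : Pic0 k E ≃+ Pic0 k E where
  toFun := s27z_picHom hx σ
  invFun := s27z_picHom hx σ⁻¹
  left_inv := fun c => by rw [← s27z_picHom_mul, inv_mul_cancel, s27z_picHom_one]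
  right_inv := fun c => by rw [← s27z_picHom_mul, mul_inv_cancel, s27z_picHom_one]
  map_add' := map_add _

theorem s27z_picMap_mk (σ : s27z_stab k E) (D : Divisor.degZero (K := k) (F := E)) :
    s27z_picMap hx σ (Pic0.mk D) = Pic0.mk (s27z_degZeroHom hx σ D) := rfl

theorem s27z_picMap_one (c : Pic0 k E) : s27z_picMap hx (1 : s27z_stab k E) c = c :=
  s27z_picHom_one hx c

theorem s27z_picMap_mul (σ τ : s27z_stab k E) (c : Pic0 k E) :
    s27z_picMap hx (σ * τ) c = s27z_picMap hx σ (s27z_picMap hx τ c) :=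
  s27z_picHom_mul hx σ τ c

/-- powers of `σ` act by iteration -/
theorem s27z_picMap_pow (σ : s27z_stab k E) (m : ℕ) (c : Pic0 k E) :
    s27z_picMap hx (σ ^ m) c = (s27z_picMap hx σ)^[m] c := by
  induction m generalizing c with
  | zero => rw [pow_zero, s27z_picMap_one, Function.iterate_zero, id]
  | succ m ih => rw [pow_succ, s27z_picMap_mul, ih, Function.iterate_succ_apply]

end closed

/-! ### Frobenius elements -/

/-- `σ` is a **`q`-Frobenius**: it is `c ↦ c ^ q` on the constants and every element of `E` has a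
finite orbit (the "arithmetic Frobenius" `Frob_q ⊗ id` of `E = k ⊗_{F_q} E₀`). -/
structure s27z_IsFrob (q : ℕ) (σ : s27z_stab k E) : Prop where
  /-- `σ c = c ^ q` on constants -/
  map_const : ∀ c : k, (σ : RingAut E) (algebraMap k E c) = algebraMap k E (c ^ q)
  /-- every element is fixed by a power of `σ` -/
  periodic : ∀ f : E, ∃ N : ℕ, 0 < N ∧ ((σ : RingAut E) ^ N) f = f

theorem s27z_IsFrob.pow_map_const {q : ℕ} {σ : s27z_stab k E} (h : s27z_IsFrob q σ) (m : ℕ)
    (c : k) : ((σ : RingAut E) ^ m) (algebraMap k E c) = algebraMap k E (c ^ (q ^ m)) := by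
  induction m generalizing c with
  | zero => simp
  | succ m ih =>
      rw [pow_succ, RingAut.mul_apply, h.map_const, ih, ← pow_mul, pow_succ, mul_comm]

theorem s27z_pow_pow_apply_of_fixed {τ : RingAut E} {f : E} (h : τ f = f) (j : ℕ) :
    (τ ^ j) f = f := by
  induction j with
  | zero => simp
  | succ j ih => rw [pow_succ, RingAut.mul_apply, h, ih]

/-- powers of a Frobenius are Frobenius -/
theorem s27z_IsFrob.pow {q : ℕ} {σ : s27z_stab k E} (h : s27z_IsFrob q σ) (m : ℕ) :
    s27z_IsFrob (q ^ m) (σ ^ m) where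
  map_const := h.pow_map_const m
  periodic := fun f => by
    obtain ⟨N, hN, hf⟩ := h.periodic f
    refine ⟨N, hN, ?_⟩
    rw [s27z_coe_pow, ← pow_mul, mul_comm, pow_mul]
    exact s27z_pow_pow_apply_of_fixed hf m

/-- a ring automorphism which is `c ↦ c ^ q` on an algebraically closed constant field preserves
the constants -/
theorem s27z_mem_stab_of_map_const [IsAlgClosed k] {q : ℕ} (hq : 0 < q) (φ : RingAut E)
    (hφ : ∀ c : k, φ (algebraMap k E c) = algebraMap k E (c ^ q)) : φ ∈ s27z_stab k E := by
  intro c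
  refine ⟨⟨c ^ q, hφ c⟩, ?_⟩
  obtain ⟨c', hc'⟩ := IsAlgClosed.exists_pow_nat_eq c hq
  refine ⟨c', ?_⟩
  rw [← hc', ← hφ, ← RingAut.mul_apply, inv_mul_cancel, RingAut.one_apply]

/-- a common period for finitely many elements -/
theorem s27z_IsFrob.periodic_finset {q : ℕ} {σ : s27z_stab k E} (h : s27z_IsFrob q σ)
    (S : Finset E) : ∃ N : ℕ, 0 < N ∧ ∀ f ∈ S, ((σ : RingAut E) ^ N) f = f := by
  classical
  induction S using Finset.induction_on with
  | empty => exact ⟨1, one_pos, fun f hf => absurd hf (Finset.notMem_empty f)⟩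
  | insert a S _ ih =>
      obtain ⟨N, hN, hS⟩ := ih
      obtain ⟨N', hN', ha⟩ := h.periodic a
      refine ⟨N * N', Nat.mul_pos hN hN', fun f hf => ?_⟩
      rcases Finset.mem_insert.mp hf with rfl | hf
      · rw [mul_comm, pow_mul]
        exact s27z_pow_pow_apply_of_fixed ha N
      · rw [pow_mul]
        exact s27z_pow_pow_apply_of_fixed (hS f hf) N'

/-- the permutation of the places induced by `σ` -/
def s27z_placePerm (σ : s27z_stab k E) : Equiv.Perm (Place k E) := MulAction.toPerm σ

@[simp]
theorem s27z_placePerm_apply (σ : s27z_stab k E) (v : Place k E) :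
    s27z_placePerm σ v = σ • v := rfl

theorem s27z_placePerm_pow (σ : s27z_stab k E) (m : ℕ) :
    s27z_placePerm (σ ^ m) = (s27z_placePerm σ) ^ m := by
  unfold s27z_placePerm
  rw [← MulAction.toPermHom_apply, map_pow]
  rfl

/-! ### The counting functions -/

/-- the number of `σ`-invariant effective divisors of degree `n` -/
def s27z_effCount (σ : s27z_stab k E) (n : ℕ) : ℕ :=
  Nat.card {A : Divisor k E // 0 ≤ A ∧ σ • A = A ∧ Divisor.degree A = n}

/-- the zeta function `Z_σ(T) = ∑ₙ #{A ≥ 0, σ A = A, deg A = n} Tⁿ` -/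
def s27z_zeta (σ : s27z_stab k E) : PowerSeries ℤ :=
  PowerSeries.mk fun n => (s27z_effCount σ n : ℤ)

/-- the number of `σ`-invariant classes of degree zero -/
def s27z_fixCount [IsAlgClosed k] {x : E} (hx : rt_IsSepGen k x) (σ : s27z_stab k E) : ℕ :=
  Nat.card {c : Pic0 k E // s27z_picMap hx σ c = c}

/-! ### The abstract (combinatorial) zeta function of a permutation -/

/-- the number of `ψ`-invariant finitely supported `ℕ`-valued functions of total mass `n`
("`ψ`-invariant effective divisors of degree `n`") -/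
def s27z_permCount {P : Type*} (ψ : Equiv.Perm P) (n : ℕ) : ℕ :=
  Nat.card {A : P →₀ ℕ // Finsupp.mapDomain ψ A = A ∧ (A.sum fun _ m => m) = n}

/-- the zeta function of a permutation, with coefficients in a semiring `R` -/
def s27z_permZeta {P : Type*} (R : Type*) [Semiring R] (ψ : Equiv.Perm P) : PowerSeries R :=
  PowerSeries.mk fun n => (s27z_permCount ψ n : R)

end Fermat.Agent.S27
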