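/-
S27 / (Z), geometric Frobenius design (helper7, finding #4332), leaf (F2) SPEISER:
semilinear descent.  `k` a field, `σ : k →+* k`, `V` a `k`-vector space, `Ψ : V →+ V`
`σ`-semilinear, every vector of finite `Ψ`-orbit, the powers `σ^i` (`i < N`) pairwise distinct on
the fixed field of `σ^N`.  Then the `Ψ`-fixed vectors span `V`, there is a `k`-basis of fixed
vectors, and `#V^Ψ = (#k^σ)^(dim V)`.  Instance: `σ = (· ^ q)` on an algebraically closed field of
characteristic `p`, `q = p ^ a`, `a > 0` (`s27zs_frob_dist`, `s27zs_frob_card`).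
Mathlib only.  Prefix `s27zs_`.
-/
import Mathlib

set_option autoImplicit false

namespace Fermat.Agent.S27

open Module Finset

section Semilinear

universe u v

variable {k : Type u} [Field k] (σ : k →+* k)
variable {V : Type v} [AddCommGroup V] [Module k V] (Ψ : V →+ V)

/-- iterates of a semilinear map are semilinear for the iterates of `σ`. -/
theorem s27zs_iterate_smul (hΨ : ∀ (c : k) (v : V), Ψ (c • v) = σ c • Ψ v) (i : ℕ) (c : k)
    (v : V) : Ψ^[i] (c • v) = (σ^[i] c) • Ψ^[i] v := by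
  induction i with
  | zero => rfl
  | succ i ih =>
    rw [Function.iterate_succ_apply', Function.iterate_succ_apply', Function.iterate_succ_apply',
      ih, hΨ]

/-- the trace of `c • v` over an orbit is `Ψ`-fixed. -/
theorem s27zs_trace_fixed (hΨ : ∀ (c : k) (v : V), Ψ (c • v) = σ c • Ψ v) {N : ℕ} {v : V}
    (hv : Ψ^[N] v = v) {c : k} (hc : σ^[N] c = c) :
    Ψ (∑ i ∈ range N, Ψ^[i] (c • v)) = ∑ i ∈ range N, Ψ^[i] (c • v) := by
  rw [map_sum]
  have h1 : ∀ i ∈ range N, Ψ (Ψ^[i] (c • v)) = Ψ^[i + 1] (c • v) := fun i _ => by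
    rw [Function.iterate_succ_apply']
  rw [sum_congr rfl h1]
  have h2 := sum_range_succ' (fun i => Ψ^[i] (c • v)) N
  have h3 := sum_range_succ (fun i => Ψ^[i] (c • v)) N
  have h4 : Ψ^[N] (c • v) = Ψ^[0] (c • v) := by
    rw [s27zs_iterate_smul σ Ψ hΨ, hv, hc]; rfl
  rw [h3, h4] at h2
  exact add_right_cancel h2.symm

/-- Dedekind independence for the powers of `σ` on the fixed field of `σ^N`. -/
theorem s27zs_coeff_zero {N : ℕ}
    (hdist : ∀ i j, i < N → j < N → i ≠ j → ∃ c, σ^[N] c = c ∧ σ^[i] c ≠ σ^[j] c)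
    (a : ℕ → k) (ha : ∀ c, σ^[N] c = c → ∑ i ∈ range N, σ^[i] c * a i = 0) :
    ∀ i, i < N → a i = 0 := by
  classical
  -- the multiplicative monoid of the fixed field of `σ^N`
  let G : Submonoid k :=
    { carrier := {c | σ^[N] c = c}
      one_mem' := by
        show σ^[N] 1 = 1
        rw [← RingHom.coe_pow, map_one]
      mul_mem' := by
        intro x y hx hy
        show σ^[N] (x * y) = x * y
        have hx' : σ^[N] x = x := hx
        have hy' : σ^[N] y = y := hy
        rw [← RingHom.coe_pow, map_mul, RingHom.coe_pow, hx', hy'] }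
  let χ : Fin N → (G →* k) := fun i => ((σ ^ (i : ℕ) : k →+* k) : k →* k).comp G.subtype
  have hχ : ∀ (i : Fin N) (c : G), χ i c = σ^[(i : ℕ)] (c : k) := fun i c => by
    show (σ ^ (i : ℕ)) (c : k) = _
    rw [RingHom.coe_pow]
  have hinj : Function.Injective χ := by
    intro i j hij
    by_contra hne
    obtain ⟨c, hc, hcne⟩ := hdist i j i.2 j.2 (fun h => hne (Fin.ext h))
    apply hcne
    have := congrArg (fun f : G →* k => f ⟨c, hc⟩) hij
    simpa only [hχ] using this
  have hli : LinearIndependent k (fun i : Fin N => ((χ i : G →* k) : G → k)) :=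
    (linearIndependent_monoidHom G k).comp χ hinj
  have hzero : ∑ i : Fin N, a i • ((χ i : G →* k) : G → k) = 0 := by
    funext c
    rw [Finset.sum_apply]
    simp only [Pi.smul_apply, smul_eq_mul, Pi.zero_apply]
    have h := ha (c : k) c.2
    rw [← Fin.sum_univ_eq_sum_range (fun i => σ^[i] (c : k) * a i) N] at h
    rw [← h]
    exact Finset.sum_congr rfl fun i _ => by rw [hχ, mul_comm]
  intro i hi
  exact Fintype.linearIndependent_iff.1 hli (fun i => a i) hzero ⟨i, hi⟩

/-- **Speiser**: the `Ψ`-fixed vectors span `V`. -/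
theorem s27zs_span_fixed (hΨ : ∀ (c : k) (v : V), Ψ (c • v) = σ c • Ψ v)
    (hfin : ∀ v : V, ∃ N, 0 < N ∧ Ψ^[N] v = v)
    (hdist : ∀ N, 0 < N → ∀ i j, i < N → j < N → i ≠ j →
      ∃ c, σ^[N] c = c ∧ σ^[i] c ≠ σ^[j] c) :
    Submodule.span k {v : V | Ψ v = v} = ⊤ := by
  rw [Submodule.eq_top_iff']
  intro v
  by_contra hv
  obtain ⟨f, hfv, hle⟩ := Submodule.exists_le_ker_of_notMem hv
  obtain ⟨N, hN, hvN⟩ := hfin v
  have ha : ∀ c, σ^[N] c = c → ∑ i ∈ range N, σ^[i] c * f (Ψ^[i] v) = 0 := by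
    intro c hc
    have hfix := s27zs_trace_fixed σ Ψ hΨ hvN hc
    have hmem : (∑ i ∈ range N, Ψ^[i] (c • v)) ∈ Submodule.span k {v : V | Ψ v = v} :=
      Submodule.subset_span hfix
    have h0 : f (∑ i ∈ range N, Ψ^[i] (c • v)) = 0 := hle hmem
    rw [map_sum] at h0
    rw [← h0]
    refine Finset.sum_congr rfl fun i _ => ?_
    rw [s27zs_iterate_smul σ Ψ hΨ, map_smul, smul_eq_mul]
  exact hfv (s27zs_coeff_zero σ (hdist N hN) (fun i => f (Ψ^[i] v)) ha 0 hN)

/-- `Ψ` of a finite linear combination. -/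
theorem s27zs_map_sum_smul (hΨ : ∀ (c : k) (v : V), Ψ (c • v) = σ c • Ψ v) {ι : Type*}
    (s : Finset ι) (c : ι → k) (b : ι → V) :
    Ψ (∑ i ∈ s, c i • b i) = ∑ i ∈ s, σ (c i) • Ψ (b i) := by
  rw [map_sum]
  exact Finset.sum_congr rfl fun i _ => hΨ _ _

/-- **Speiser**, basis form: a `k`-basis of `V` consisting of `Ψ`-fixed vectors. -/
theorem s27zs_exists_basis (hΨ : ∀ (c : k) (v : V), Ψ (c • v) = σ c • Ψ v)
    (hfin : ∀ v : V, ∃ N, 0 < N ∧ Ψ^[N] v = v)
    (hdist : ∀ N, 0 < N → ∀ i j, i < N → j < N → i ≠ j →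
      ∃ c, σ^[N] c = c ∧ σ^[i] c ≠ σ^[j] c) :
    ∃ (ι : Type v) (b : Basis ι k V), ∀ i, Ψ (b i) = b i := by
  obtain ⟨s, hs, hspan, hli⟩ := exists_linearIndependent k {v : V | Ψ v = v}
  rw [s27zs_span_fixed σ Ψ hΨ hfin hdist] at hspan
  refine ⟨{x // x ∈ s}, Basis.mk hli ?_, fun i => ?_⟩
  · rw [Subtype.range_coe_subtype, Set.ofPred_mem_eq, hspan]
  · rw [Basis.mk_apply]
    exact hs i.2

/-- **Speiser**, counting form. -/
theorem s27zs_card_fixed [Module.Finite k V]
    (hΨ : ∀ (c : k) (v : V), Ψ (c • v) = σ c • Ψ v)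
    (hfin : ∀ v : V, ∃ N, 0 < N ∧ Ψ^[N] v = v)
    (hdist : ∀ N, 0 < N → ∀ i j, i < N → j < N → i ≠ j →
      ∃ c, σ^[N] c = c ∧ σ^[i] c ≠ σ^[j] c) :
    Nat.card {v : V // Ψ v = v} = Nat.card {c : k // σ c = c} ^ Module.finrank k V := by
  classical
  obtain ⟨ι, b, hb⟩ := s27zs_exists_basis σ Ψ hΨ hfin hdist
  have : Fintype ι := FiniteDimensional.fintypeBasisIndex b
  have hΨrepr : ∀ v : V, Ψ v = ∑ i, σ (b.repr v i) • b i := by
    intro v
    conv_lhs => rw [← b.sum_repr v]
    rw [s27zs_map_sum_smul σ Ψ hΨ]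
    exact Finset.sum_congr rfl fun i _ => by rw [hb]
  have hiff : ∀ v : V, Ψ v = v ↔ ∀ i, σ (b.repr v i) = b.repr v i := by
    intro v
    constructor
    · intro hv i
      have h1 : b.repr (Ψ v) i = σ (b.repr v i) := by
        rw [hΨrepr v, b.repr_sum_self]
      rw [← h1, hv]
    · intro h
      rw [hΨrepr v]
      conv_rhs => rw [← b.sum_repr v]
      exact Finset.sum_congr rfl fun i _ => by rw [h]
  let e : {v : V // Ψ v = v} ≃ (ι → {c : k // σ c = c}) :=
    { toFun := fun v i => ⟨b.repr v.1 i, (hiff v.1).1 v.2 i⟩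
      invFun := fun c => ⟨∑ i, (c i).1 • b i, by
        rw [hiff]
        intro i
        rw [b.repr_sum_self]
        exact (c i).2⟩
      left_inv := fun v => Subtype.ext (b.sum_repr v.1)
      right_inv := fun c => by
        funext i
        apply Subtype.ext
        show b.repr (∑ i, (c i).1 • b i) i = (c i).1
        rw [b.repr_sum_self] }
  rw [Nat.card_congr e, Nat.card_fun, Module.finrank_eq_card_basis b,
    Nat.card_eq_fintype_card (α := ι)]

end Semilinear

/-! ### The Frobenius instance -/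

section Frobenius

variable {k : Type*} [Field k] [IsAlgClosed k] (p : ℕ) [hp : Fact p.Prime] [CharP k p]

/-- the roots of `X ^ (p ^ n) - X` in an algebraically closed field of characteristic `p`. -/
theorem s27zs_card_roots (n : ℕ) (hn : 0 < n) :
    Nat.card {c : k // c ^ (p ^ n) = c} = p ^ n := by
  classical
  have hp1 : 1 < p := hp.out.one_lt
  have hsep : (Polynomial.X ^ p ^ n - Polynomial.X : Polynomial k).Separable :=
    galois_poly_separable p (p ^ n) (dvd_pow_self p hn.ne')
  have hdeg : (Polynomial.X ^ p ^ n - Polynomial.X : Polynomial k).natDegree = p ^ n :=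
    FiniteField.X_pow_card_pow_sub_X_natDegree_eq k hn.ne' hp1
  have hne : (Polynomial.X ^ p ^ n - Polynomial.X : Polynomial k) ≠ 0 :=
    FiniteField.X_pow_card_pow_sub_X_ne_zero k hn.ne' hp1
  have hcard := Polynomial.card_rootSet_eq_natDegree (K := k) hsep (IsAlgClosed.splits _)
  rw [hdeg] at hcard
  have hcongr : Nat.card {c : k // c ^ (p ^ n) = c} =
      Nat.card ((Polynomial.X ^ p ^ n - Polynomial.X : Polynomial k).rootSet k) := by
    refine Nat.card_congr (Equiv.subtypeEquivRight fun c => ?_)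
    rw [Polynomial.mem_rootSet_of_ne hne]
    simp only [map_sub, map_pow, Polynomial.aeval_X, sub_eq_zero]
  rw [hcongr, Nat.card_eq_fintype_card, hcard]

/-- distinctness of the powers of the `q`-Frobenius on the fixed field of its `N`-th power. -/
theorem s27zs_frob_dist (a : ℕ) (ha : 0 < a) (N : ℕ) (hN : 0 < N) (i j : ℕ) (hi : i < N)
    (hj : j < N) (hij : i ≠ j) :
    ∃ c : k, (iterateFrobenius k p a)^[N] c = c ∧
      (iterateFrobenius k p a)^[i] c ≠ (iterateFrobenius k p a)^[j] c := by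
  classical
  have hiter : ∀ (m : ℕ) (c : k), (iterateFrobenius k p a)^[m] c = c ^ (p ^ (a * m)) := by
    intro m c
    induction m with
    | zero => simp
    | succ m ih =>
      rw [Function.iterate_succ_apply', ih, iterateFrobenius_def, ← pow_mul, ← pow_add,
        Nat.mul_succ]
  by_contra hcon
  push Not at hcon
  -- wlog `i < j`
  wlog hlt : i < j generalizing i j
  · exact this j i hj hi hij.symm (fun c hc => (hcon c hc).symm)
      (lt_of_le_of_ne (not_lt.1 hlt) hij.symm)
  -- every root of `X^(p^(aN)) - X` is a root of `X^(p^(a(j-i))) - X`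
  have hsub : ∀ c : k, c ^ (p ^ (a * N)) = c → c ^ (p ^ (a * (j - i))) = c := by
    intro c hc
    have h1 := hcon c (by rw [hiter]; exact hc)
    rw [hiter, hiter] at h1
    have h2 : (c ^ (p ^ (a * (j - i)))) ^ (p ^ (a * i)) = c ^ (p ^ (a * i)) := by
      rw [← pow_mul, ← pow_add, ← Nat.mul_add, Nat.sub_add_cancel hlt.le]
      exact h1.symm
    have h3 := iterateFrobenius_def (R := k) p (a * i)
    have hinj : Function.Injective (iterateFrobenius k p (a * i)) :=
      (iterateFrobenius k p (a * i)).injective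
    apply hinj
    rw [iterateFrobenius_def, iterateFrobenius_def]
    exact h2
  have hpos1 : 0 < a * N := Nat.mul_pos ha hN
  have hpos2 : 0 < a * (j - i) := Nat.mul_pos ha (Nat.sub_pos_of_lt hlt)
  have hc1 := s27zs_card_roots (k := k) p (a * N) hpos1
  have hc2 := s27zs_card_roots (k := k) p (a * (j - i)) hpos2
  have hfin2 : Finite {c : k // c ^ (p ^ (a * (j - i))) = c} :=
    Nat.finite_of_card_ne_zero (by rw [hc2]; exact (pow_pos hp.out.pos _).ne')
  have hle : Nat.card {c : k // c ^ (p ^ (a * N)) = c} ≤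
      Nat.card {c : k // c ^ (p ^ (a * (j - i))) = c} :=
    Nat.card_le_card_of_injective (fun c => ⟨c.1, hsub c.1 c.2⟩)
      (fun c c' h => by
        have h' := congrArg Subtype.val h
        exact Subtype.ext h')
  rw [hc1, hc2] at hle
  have hlt2 : a * (j - i) < a * N :=
    Nat.mul_lt_mul_of_pos_left (lt_of_le_of_lt (Nat.sub_le j i) hj) ha
  exact absurd hle (not_le.2 (Nat.pow_lt_pow_right hp.out.one_lt hlt2))

/-- the fixed field of the `q`-Frobenius has `q` elements. -/
theorem s27zs_frob_card (a : ℕ) (ha : 0 < a) :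
    Nat.card {c : k // iterateFrobenius k p a c = c} = p ^ a := by
  rw [← s27zs_card_roots (k := k) p a ha]
  exact Nat.card_congr (Equiv.subtypeEquivRight fun c => by rw [iterateFrobenius_def])

/-- **Speiser for Frobenius**: a finite-dimensional space with a `q`-semilinear map all of whose
orbits are finite has exactly `q ^ dim` fixed vectors. -/
theorem s27zs_card_fixed_frob {V : Type*} [AddCommGroup V] [Module k V] [Module.Finite k V]
    (a : ℕ) (ha : 0 < a) (Ψ : V →+ V)
    (hΨ : ∀ (c : k) (v : V), Ψ (c • v) = (c ^ (p ^ a)) • Ψ v)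
    (hfin : ∀ v : V, ∃ N, 0 < N ∧ Ψ^[N] v = v) :
    Nat.card {v : V // Ψ v = v} = (p ^ a) ^ Module.finrank k V := by
  rw [s27zs_card_fixed (iterateFrobenius k p a) Ψ
    (fun c v => by rw [hΨ, iterateFrobenius_def]) hfin
    (fun N hN i j hi hj hij => s27zs_frob_dist p a ha N hN i j hi hj hij),
    s27zs_frob_card p a ha]

end Frobenius

end Fermat.Agent.S27
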