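/-
S27 / block (Z), cells ZI LANG + ZD COUNT (helper21), part 1: twisted norms and Hilbert 90.
Prefix `s27zi_`, namespace `Fermat.Agent.S27`.

`σ` a `Q`-Frobenius of `E / k` (`Q = p ^ r`), `D` a divisor with `σ D - D = div f₀`.
* `s27zi_nm τ N f = ∏_{i<N} τ^i f` (the norm of the cyclic group generated by `τ`, level `N`);
* `div (nm σ N f₀) = σ^N D - D`; so if `σ^N D = D` the norm is a constant, and after rescaling
  `f₀` by a constant, `nm σ N f₀ = 1` (`s27zi_exists_normalised`);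
* elementary Hilbert 90 via Speiser (helper7's `s27zs_span_fixed` on `V = E`): if
  `nm σ N f₁ = 1` there is `u ≠ 0` with `f₁ * σ u = u` (`s27zi_exists_fixed`).
-/
import Mathlib
import Fermat.Agent.S27.Zeta.Defs
import Fermat.Agent.S27.Zeta.Speiser

set_option autoImplicit false
set_option linter.unusedSectionVars false
set_option linter.unusedVariables false
set_option linter.style.haveILetI false

namespace Fermat.Agent.S27

open AlgebraicCurve Fermat.Agent.JT3 Fermat.Agent.S24 Finset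

universe u v
variable {k : Type u} {E : Type v} [Field k] [Field E] [Algebra k E]

/-! ### twisted norms -/

/-- `∏_{i<N} τ^i f`. -/
noncomputable def s27zi_nm (τ : RingAut E) (N : ℕ) (f : E) : E := ∏ i ∈ range N, (τ ^ i) f

theorem s27zi_nm_zero (τ : RingAut E) (f : E) : s27zi_nm τ 0 f = 1 := by
  unfold s27zi_nm
  simp

theorem s27zi_nm_succ (τ : RingAut E) (N : ℕ) (f : E) :
    s27zi_nm τ (N + 1) f = s27zi_nm τ N f * (τ ^ N) f := by
  unfold s27zi_nm
  rw [prod_range_succ]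

theorem s27zi_nm_add (τ : RingAut E) (a b : ℕ) (f : E) :
    s27zi_nm τ (a + b) f = s27zi_nm τ a f * (τ ^ a) (s27zi_nm τ b f) := by
  unfold s27zi_nm
  rw [prod_range_add, map_prod]
  congr 1
  refine prod_congr rfl fun i _ => ?_
  rw [pow_add, RingAut.mul_apply]

theorem s27zi_nm_ne_zero (τ : RingAut E) (N : ℕ) {f : E} (hf : f ≠ 0) : s27zi_nm τ N f ≠ 0 := by
  unfold s27zi_nm
  refine prod_ne_zero_iff.mpr fun i _ => ?_
  exact (map_ne_zero_iff _ (τ ^ i).injective).mpr hf

theorem s27zi_nm_mul (τ : RingAut E) (N : ℕ) (f g : E) :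
    s27zi_nm τ N (f * g) = s27zi_nm τ N f * s27zi_nm τ N g := by
  unfold s27zi_nm
  rw [← prod_mul_distrib]
  refine prod_congr rfl fun i _ => ?_
  rw [map_mul]

theorem s27zi_nm_mul_of_one (τ : RingAut E) {N : ℕ} {f : E} (h : s27zi_nm τ N f = 1) (m : ℕ) :
    s27zi_nm τ (N * m) f = 1 := by
  induction m with
  | zero => rw [Nat.mul_zero, s27zi_nm_zero]
  | succ m ih => rw [Nat.mul_succ, s27zi_nm_add, ih, h, map_one, mul_one]

/-- iterates of `g ↦ f * τ g`. -/
theorem s27zi_iterate (τ : RingAut E) (f : E) (N : ℕ) (g : E) :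
    (fun g : E => f * τ g)^[N] g = s27zi_nm τ N f * (τ ^ N) g := by
  induction N generalizing g with
  | zero => rw [Function.iterate_zero, id, s27zi_nm_zero, pow_zero, RingAut.one_apply, one_mul]
  | succ N ih =>
    rw [Function.iterate_succ_apply, ih, s27zi_nm_succ, map_mul, pow_succ, RingAut.mul_apply]
    ring

section frob

variable [IsAlgClosed k] {p : ℕ} [Fact p.Prime] [CharP k p] {x : E} (hx : rt_IsSepGen k x)
  {r : ℕ} (hr : 0 < r) {σ : s27z_stab k E} (hσ : s27z_IsFrob (p ^ r) σ)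

include hσ in
/-- the norm of a constant. -/
theorem s27zi_nm_const (N : ℕ) (b : k) :
    s27zi_nm (σ : RingAut E) N (algebraMap k E b) =
      algebraMap k E (b ^ ∑ i ∈ range N, (p ^ r) ^ i) := by
  unfold s27zi_nm
  rw [← prod_pow_eq_pow_sum, map_prod]
  refine prod_congr rfl fun i _ => ?_
  rw [hσ.pow_map_const]

include hx in
/-- `div (nm σ N f₀) = σ^N D - D` when `σ D - D = div f₀`. -/
theorem s27zi_div_nm {D : Divisor k E} {f₀ : E} (hf₀ : f₀ ≠ 0)
    (hD : σ • D - D = rt_div hx f₀) (N : ℕ) :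
    rt_div hx (s27zi_nm (σ : RingAut E) N f₀) = σ ^ N • D - D := by
  induction N with
  | zero =>
    rw [s27zi_nm_zero, pow_zero, one_smul, sub_self]
    ext v
    rw [rt_div_apply, Place.ord_one, Finsupp.zero_apply]
  | succ N ih =>
    have hne : ((σ : RingAut E) ^ N) f₀ ≠ 0 :=
      (map_ne_zero_iff _ ((σ : RingAut E) ^ N).injective).mpr hf₀
    rw [s27zi_nm_succ, rt_div_mul hx (s27zi_nm_ne_zero _ N hf₀) hne, ih]
    have h1 : rt_div hx (((σ : RingAut E) ^ N) f₀) = σ ^ N • rt_div hx f₀ := by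
      rw [s27z_smul_div hx (σ ^ N) f₀, s27z_coe_pow]
    rw [h1, ← hD, smul_sub, pow_succ, mul_smul]
    abel

include hx hσ in
/-- **normalisation**: if `σ D - D = div f₀` and `σ^N D = D`, a constant multiple `f₁` of `f₀`
has `nm σ N f₁ = 1` (and still `σ D - D = div f₁`). -/
theorem s27zi_exists_normalised {D : Divisor k E} {f₀ : E} (hf₀ : f₀ ≠ 0)
    (hD : σ • D - D = rt_div hx f₀) {N : ℕ} (hN : 0 < N) (hND : σ ^ N • D = D) :
    ∃ f₁ : E, f₁ ≠ 0 ∧ σ • D - D = rt_div hx f₁ ∧ s27zi_nm (σ : RingAut E) N f₁ = 1 := by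
  have hdiv := s27zi_div_nm hx hf₀ hD N
  rw [hND, sub_self] at hdiv
  have hnm0 := s27zi_nm_ne_zero (σ : RingAut E) N hf₀
  have hall : ∀ v : Place k E, s27zi_nm (σ : RingAut E) N f₀ ∈ v.toValuationSubring := by
    intro v
    rw [hw_mem_iff_ord_nonneg v hnm0]
    have := congrArg (fun D : Divisor k E => D v) hdiv
    simp only [rt_div_apply, Finsupp.zero_apply] at this
    omega
  obtain ⟨a, ha⟩ := rt_const_of_forall_mem hx _ hall
  have ha0 : a ≠ 0 := by
    rintro rfl
    rw [map_zero] at ha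
    exact hnm0 ha
  have hq : 0 < p ^ r := pow_pos (Fact.out : p.Prime).pos r
  have hM : 0 < ∑ i ∈ range N, (p ^ r) ^ i := by
    refine sum_pos (fun i _ => pow_pos hq i) ?_
    exact ⟨0, mem_range.mpr hN⟩
  obtain ⟨b, hb⟩ := IsAlgClosed.exists_pow_nat_eq a⁻¹ hM
  have hb0 : b ≠ 0 := by
    rintro rfl
    rw [zero_pow hM.ne'] at hb
    exact inv_ne_zero ha0 hb.symm
  have hbE : algebraMap k E b ≠ 0 := by
    rwa [Ne, map_eq_zero]
  refine ⟨algebraMap k E b * f₀, mul_ne_zero hbE hf₀, ?_, ?_⟩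
  · rw [rt_div_mul hx hbE hf₀, rt_div_algebraMap, zero_add, hD]
  · rw [s27zi_nm_mul, s27zi_nm_const hσ, hb, ha, ← map_mul, inv_mul_cancel₀ ha0, map_one]

include hr hσ in
/-- **Hilbert 90** (via Speiser): if `nm σ N f₁ = 1` there is `u ≠ 0` with `f₁ * σ u = u`. -/
theorem s27zi_exists_fixed {f₁ : E} {N : ℕ} (hN : 0 < N)
    (hnm : s27zi_nm (σ : RingAut E) N f₁ = 1) :
    ∃ u : E, u ≠ 0 ∧ f₁ * (σ : RingAut E) u = u := by
  let Ψ : E →+ E :=
    { toFun := fun g => f₁ * (σ : RingAut E) g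
      map_zero' := by rw [map_zero, mul_zero]
      map_add' := fun g h => by rw [map_add, mul_add] }
  have hΨ : ∀ (c : k) (v : E), Ψ (c • v) = (iterateFrobenius k p r c) • Ψ v := by
    intro c v
    show f₁ * (σ : RingAut E) (c • v) = (iterateFrobenius k p r c) • (f₁ * (σ : RingAut E) v)
    rw [Algebra.smul_def, Algebra.smul_def, map_mul, hσ.map_const, iterateFrobenius_def]
    ring
  have hiter : ∀ (n : ℕ) (g : E), Ψ^[n] g = s27zi_nm (σ : RingAut E) n f₁ * ((σ : RingAut E) ^ n) g :=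
    fun n g => s27zi_iterate (σ : RingAut E) f₁ n g
  have hfin : ∀ v : E, ∃ n, 0 < n ∧ Ψ^[n] v = v := by
    intro g
    obtain ⟨N₁, hN₁, hg⟩ := hσ.periodic g
    refine ⟨N * N₁, Nat.mul_pos hN hN₁, ?_⟩
    rw [hiter, s27zi_nm_mul_of_one _ hnm, one_mul, mul_comm, pow_mul]
    exact s27z_pow_pow_apply_of_fixed hg N
  have hspan := s27zs_span_fixed (iterateFrobenius k p r) Ψ hΨ hfin
    (fun n hn i j hi hj hij => s27zs_frob_dist p r hr n hn i j hi hj hij)
  by_contra hcon
  push Not at hcon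
  have hbot : Submodule.span k {v : E | Ψ v = v} = ⊥ := by
    rw [Submodule.span_eq_bot]
    intro u hu
    by_contra hu0
    exact hcon u hu0 hu
  rw [hbot] at hspan
  exact bot_ne_top hspan

end frob

end Fermat.Agent.S27
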