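/-
S27 / (Z) geometric Frobenius, cell [ZB PER] (helper29): every place, divisor and class of degree
zero has a finite orbit under a Frobenius element.  Prefix `s27z_`.
-/
import Mathlib
import Fermat.Agent.S27.Zeta.Defs

set_option autoImplicit false
set_option linter.unusedSectionVars false

noncomputable section

namespace Fermat.Agent.S27

open AlgebraicCurve Fermat.Agent.JT3
open scoped Pointwise

universe u v
variable {k : Type u} {E : Type v} [Field k] [Field E] [Algebra k E]

/-- a fixed point of `τ` is a fixed point of its powers -/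
theorem s27z_pow_smul_of_fixed {G X : Type*} [Group G] [MulAction G X] {τ : G} {w : X}
    (h : τ • w = w) (j : ℕ) : τ ^ j • w = w := by
  induction j with
  | zero => rw [pow_zero, one_smul]
  | succ j ih => rw [pow_succ, mul_smul, h, ih]

/-- in a finite stable set every point is periodic -/
theorem s27z_exists_pow_smul_eq {G X : Type*} [Group G] [MulAction G X] (τ : G) {S : Set X}
    (hS : S.Finite) (hτ : ∀ w ∈ S, τ • w ∈ S) {w : X} (hw : w ∈ S) :
    ∃ M : ℕ, 0 < M ∧ τ ^ M • w = w := by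
  have hmem : ∀ i : ℕ, τ ^ i • w ∈ S := by
    intro i
    induction i with
    | zero => rwa [pow_zero, one_smul]
    | succ i ih =>
        rw [pow_succ', mul_smul]
        exact hτ _ ih
  obtain ⟨i, j, hij, h⟩ := hS.exists_lt_map_eq_of_forall_mem (f := fun i : ℕ => τ ^ i • w) hmem
  refine ⟨j - i, Nat.sub_pos_of_lt hij, ?_⟩
  have h' : τ ^ i • w = τ ^ i • (τ ^ (j - i) • w) := by
    rw [← mul_smul, ← pow_add, Nat.add_sub_cancel' hij.le]
    exact h
  exact (MulAction.injective (τ ^ i) h').symm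

section main

variable [IsAlgClosed k] {x : E} (hx : rt_IsSepGen k x) {q : ℕ} {σ : s27z_stab k E}
  (hσ : s27z_IsFrob q σ)

include hx hσ

/-- **[ZB]** every place has a finite `σ`-orbit -/
theorem s27z_per_place (w : Place k E) : ∃ N : ℕ, 0 < N ∧ σ ^ N • w = w := by
  obtain ⟨t, -, ht⟩ := rt_exists_ord_eq_one w
  obtain ⟨N, hN, hNt⟩ := hσ.periodic t
  have hfin := rt_finite_support hx t
  have hstab : ∀ v ∈ {v : Place k E | v.ord t ≠ 0}, σ ^ N • v ∈ {v : Place k E | v.ord t ≠ 0} := by
    intro v hv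
    have h1 := s27z_ord_smul (σ ^ N) v t
    rw [s27z_coe_pow, hNt] at h1
    show (σ ^ N • v).ord t ≠ 0
    rw [h1]
    exact hv
  have hw : w ∈ {v : Place k E | v.ord t ≠ 0} := by
    show w.ord t ≠ 0
    rw [ht]
    exact one_ne_zero
  obtain ⟨M, hM, h⟩ := s27z_exists_pow_smul_eq (σ ^ N) hfin hstab hw
  exact ⟨N * M, Nat.mul_pos hN hM, by rw [pow_mul]; exact h⟩

/-- **[ZB]** every divisor has a finite `σ`-orbit -/
theorem s27z_per_divisor (D : Divisor k E) : ∃ N : ℕ, 0 < N ∧ σ ^ N • D = D := by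
  induction D using Finsupp.induction with
  | zero => exact ⟨1, one_pos, smul_zero _⟩
  | single_add v n D _ _ ih =>
      obtain ⟨N₁, hN₁, h₁⟩ := s27z_per_place hx hσ v
      obtain ⟨N₂, hN₂, h₂⟩ := ih
      refine ⟨N₁ * N₂, Nat.mul_pos hN₁ hN₂, ?_⟩
      rw [smul_add, s27z_smul_single]
      congr 1
      · rw [pow_mul, s27z_pow_smul_of_fixed h₁ N₂]
      · rw [mul_comm, pow_mul]
        exact s27z_pow_smul_of_fixed h₂ N₁

/-- a common period of finitely many divisors and functions -/
theorem s27z_per_common (S : Finset (Divisor k E)) (T : Finset E) :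
    ∃ N : ℕ, 0 < N ∧ (∀ D ∈ S, σ ^ N • D = D) ∧ ∀ f ∈ T, ((σ : RingAut E) ^ N) f = f := by
  classical
  obtain ⟨N₀, hN₀, hT⟩ := hσ.periodic_finset T
  induction S using Finset.induction_on with
  | empty =>
      exact ⟨N₀, hN₀, fun D hD => absurd hD (Finset.notMem_empty D), hT⟩
  | insert A S _ ih =>
      obtain ⟨N, hN, hS, hT'⟩ := ih
      obtain ⟨N', hN', hA⟩ := s27z_per_divisor hx hσ A
      refine ⟨N * N', Nat.mul_pos hN hN', fun D hD => ?_, fun f hf => ?_⟩
      · rcases Finset.mem_insert.mp hD with rfl | hD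
        · rw [mul_comm, pow_mul]
          exact s27z_pow_smul_of_fixed hA N
        · rw [pow_mul]
          exact s27z_pow_smul_of_fixed (hS D hD) N'
      · rw [pow_mul]
        exact s27z_pow_pow_apply_of_fixed (hT' f hf) N'

/-- **[ZB]** every class of degree zero has a finite `σ`-orbit -/
theorem s27z_per_pic (c : Pic0 k E) : ∃ N : ℕ, 0 < N ∧ s27z_picMap hx (σ ^ N) c = c := by
  obtain ⟨D, rfl⟩ := Pic0.mk_surjective c
  obtain ⟨N, hN, h⟩ := s27z_per_divisor hx hσ (D : Divisor k E)
  refine ⟨N, hN, ?_⟩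
  rw [s27z_picMap_mk]
  exact congrArg Pic0.mk (Subtype.ext (by rw [s27z_coe_degZeroHom, h]))

/-- the form consumed by `s27gw_main`: iterates of the additive endomorphism -/
theorem s27z_per_pic_iterate (c : Pic0 k E) :
    ∃ N : ℕ, 0 < N ∧ (s27z_picMap hx σ)^[N] c = c := by
  obtain ⟨N, hN, h⟩ := s27z_per_pic hx hσ c
  exact ⟨N, hN, by rw [← s27z_picMap_pow]; exact h⟩

end main

end Fermat.Agent.S27
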