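/-
S27 / block (Z), cell ZI LANG (helper21).  Prefix `s27zi_`, namespace `Fermat.Agent.S27`.

`σ` a `Q`-Frobenius of `E / k`.  **Lang's theorem for divisor classes**: a divisor `D` whose class
is `σ`-invariant (`σ D - D` principal) is linearly equivalent to a `σ`-invariant divisor.
-/
import Mathlib
import Fermat.Agent.S27.Zeta.LangNorm
import Fermat.Agent.S27.Zeta.Per

set_option autoImplicit false
set_option linter.unusedSectionVars false
set_option linter.unusedVariables false
set_option linter.style.haveILetI false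

namespace Fermat.Agent.S27

open AlgebraicCurve Fermat.Agent.JT3 Fermat.Agent.S24 Finset

universe u v
variable {k : Type u} {E : Type v} [Field k] [Field E] [Algebra k E]

variable [IsAlgClosed k] {p : ℕ} [Fact p.Prime] [CharP k p] {x : E} (hx : rt_IsSepGen k x)
  {r : ℕ} (hr : 0 < r) {σ : s27z_stab k E} (hσ : s27z_IsFrob (p ^ r) σ)

include hx hr hσ

/-- Lang's theorem for a class all of whose representatives are periodic. -/
theorem s27zi_lang_of_per (D : Divisor k E) (hD : Divisor.IsPrincipal (σ • D - D))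
    (hper : ∃ N, 0 < N ∧ σ ^ N • D = D) :
    ∃ u : E, u ≠ 0 ∧ σ • (D + rt_div hx u) = D + rt_div hx u := by
  obtain ⟨f₀, hf₀, hf⟩ := hD
  have hD' : σ • D - D = rt_div hx f₀ := rt_eq_div_of_forall hx hf
  obtain ⟨N, hN, hND⟩ := hper
  obtain ⟨f₁, hf₁, hD₁, hnm⟩ := s27zi_exists_normalised hx hσ hf₀ hD' hN hND
  obtain ⟨u, hu, hfix⟩ := s27zi_exists_fixed hr hσ hN hnm
  refine ⟨u, hu, ?_⟩
  have hσu : (σ : RingAut E) u ≠ 0 := (map_ne_zero_iff _ (σ : RingAut E).injective).mpr hu
  have h1 : σ • D = D + rt_div hx f₁ := by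
    rw [← hD₁]
    abel
  rw [smul_add, s27z_smul_div hx σ u, h1, add_assoc, ← rt_div_mul hx hf₁ hσu, hfix]

/-- Lang's theorem, with the function: `D + div u` is `σ`-invariant for some `u ≠ 0`. -/
theorem s27zi_lang (D : Divisor k E) (hD : Divisor.IsPrincipal (σ • D - D)) :
    ∃ u : E, u ≠ 0 ∧ σ • (D + rt_div hx u) = D + rt_div hx u :=
  s27zi_lang_of_per hx hr hσ D hD (s27z_per_divisor hx hσ D)

/-- **(Z) / ZI LANG**: a divisor whose class is `σ`-invariant is linearly equivalent to a
`σ`-invariant divisor. -/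
theorem s27z_lang (D : Divisor k E) (hD : Divisor.IsPrincipal (σ • D - D)) :
    ∃ D' : Divisor k E, σ • D' = D' ∧ Divisor.IsPrincipal (D' - D) := by
  obtain ⟨u, hu, hfix⟩ := s27zi_lang hx hr hσ D hD
  refine ⟨D + rt_div hx u, hfix, ?_⟩
  rw [add_sub_cancel_left]
  exact rt_div_isPrincipal hx hu

end Fermat.Agent.S27
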