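/-
S27 / block (Z), cell ZD COUNT (helper21).  Prefix `s27zd_`, namespace `Fermat.Agent.S27`.

`σ` a `Q`-Frobenius of `E / k` (`Q = p ^ r`), `D` a divisor whose class is `σ`-invariant.  Then
the number `a` of `σ`-invariant effective divisors linearly equivalent to `D` satisfies
`(Q - 1) a + 1 = Q ^ l(D)`.

Proof: by Lang (`s27zi_lang`) we may assume `σ D = D`; then `σ` is a `Q`-semilinear bijection of
`L(D)` with finite orbits, so it has `Q ^ l(D)` fixed vectors (Speiser, helper7); the nonzero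
fixed vectors map onto the invariant effective divisors `D + div g`, with fibres the
`F_Q^×`-orbits.
-/
import Mathlib
import Fermat.Agent.S27.Zeta.Lang

set_option autoImplicit false
set_option linter.unusedSectionVars false
set_option linter.unusedVariables false
set_option linter.style.haveILetI false

namespace Fermat.Agent.S27

open AlgebraicCurve Fermat.Agent.JT3 Fermat.Agent.S24 Finset

universe u v
variable {k : Type u} {E : Type v} [Field k] [Field E] [Algebra k E]

section closed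

variable [IsAlgClosed k] {x : E} (hx : rt_IsSepGen k x)

include hx

/-- two functions with the same divisor differ by a nonzero constant. -/
theorem s27zd_const_of_div_eq {g₁ g₂ : E} (h₁ : g₁ ≠ 0) (h₂ : g₂ ≠ 0)
    (h : rt_div hx g₁ = rt_div hx g₂) : ∃ c : k, c ≠ 0 ∧ g₁ = algebraMap k E c * g₂ := by
  have hq : g₁ / g₂ ≠ 0 := div_ne_zero h₁ h₂
  have hall : ∀ v : Place k E, g₁ / g₂ ∈ v.toValuationSubring := by
    intro v
    rw [hw_mem_iff_ord_nonneg v hq, div_eq_mul_inv, v.ord_mul h₁ (inv_ne_zero h₂), v.ord_inv]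
    have := congrArg (fun D : Divisor k E => D v) h
    simp only [rt_div_apply] at this
    omega
  obtain ⟨c, hc⟩ := rt_const_of_forall_mem hx _ hall
  refine ⟨c, ?_, ?_⟩
  · rintro rfl
    rw [map_zero] at hc
    exact hq hc
  · rw [← hc]
    field_simp

/-- the divisor of a constant multiple. -/
theorem s27zd_div_const_mul {c : k} (hc : c ≠ 0) {g : E} (hg : g ≠ 0) :
    rt_div hx (algebraMap k E c * g) = rt_div hx g := by
  have hcE : algebraMap k E c ≠ 0 := by rwa [Ne, map_eq_zero]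
  rw [rt_div_mul hx hcE hg, rt_div_algebraMap, zero_add]

/-- `g ∈ L(D)`, `g ≠ 0` ⟹ `D + div g ≥ 0`. -/
theorem s27zd_nonneg_of_mem {D : Divisor k E} {g : E} (hg : g ≠ 0)
    (hmem : g ∈ riemannRochSpace D) : 0 ≤ D + rt_div hx g := by
  rw [Finsupp.le_def]
  intro v
  have := (rt_mem_L_iff hg).mp hmem v
  rw [Finsupp.zero_apply, Finsupp.add_apply, rt_div_apply]
  omega

/-- `D + div g ≥ 0`, `g ≠ 0` ⟹ `g ∈ L(D)`. -/
theorem s27zd_mem_of_nonneg {D : Divisor k E} {g : E} (hg : g ≠ 0)
    (h : 0 ≤ D + rt_div hx g) : g ∈ riemannRochSpace D := by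
  rw [rt_mem_L_iff hg]
  intro v
  have := Finsupp.le_def.mp h v
  rw [Finsupp.zero_apply, Finsupp.add_apply, rt_div_apply] at this
  omega

end closed

section frob

variable [IsAlgClosed k] {p : ℕ} [Fact p.Prime] [CharP k p] {x : E} (hx : rt_IsSepGen k x)
  {r : ℕ} (hr : 0 < r) {σ : s27z_stab k E} (hσ : s27z_IsFrob (p ^ r) σ)

include hr hσ in
/-- the number of `σ`-fixed vectors of `L(D)` for a `σ`-invariant divisor `D` (Speiser). -/
theorem s27zd_ncard_fixed (hx : rt_IsSepGen k x) {D : Divisor k E} (hD : σ • D = D) :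
    {g : E | g ∈ riemannRochSpace D ∧ (σ : RingAut E) g = g}.ncard =
      (p ^ r) ^ Module.finrank k ↥(riemannRochSpace D) := by
  haveI : Module.Finite k ↥(riemannRochSpace D) := rt_L_finite hx D
  have hmem : ∀ g : E, g ∈ riemannRochSpace D → (σ : RingAut E) g ∈ riemannRochSpace D := by
    intro g hg
    have := (s27z_mem_L_smul_iff σ D g).mpr hg
    rwa [hD] at this
  let Ψ : ↥(riemannRochSpace D) →+ ↥(riemannRochSpace D) :=
    { toFun := fun g => ⟨(σ : RingAut E) g, hmem g g.2⟩
      map_zero' := Subtype.ext (by simp)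
      map_add' := fun g h => Subtype.ext (by simp) }
  have hΨ : ∀ (c : k) (v : ↥(riemannRochSpace D)), Ψ (c • v) = (c ^ (p ^ r)) • Ψ v := by
    intro c v
    apply Subtype.ext
    show (σ : RingAut E) ((c • v : ↥(riemannRochSpace D)) : E) = _
    rw [Submodule.coe_smul, Submodule.coe_smul, Algebra.smul_def, Algebra.smul_def, map_mul,
      hσ.map_const]
    rfl
  have hiter : ∀ (n : ℕ) (v : ↥(riemannRochSpace D)),
      ((Ψ^[n] v : ↥(riemannRochSpace D)) : E) = ((σ : RingAut E) ^ n) (v : E) := by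
    intro n
    induction n with
    | zero => intro v; simp
    | succ n ih =>
      intro v
      rw [Function.iterate_succ_apply', pow_succ', RingAut.mul_apply, ← ih]
      rfl
  have hfin : ∀ v : ↥(riemannRochSpace D), ∃ n, 0 < n ∧ Ψ^[n] v = v := by
    intro v
    obtain ⟨n, hn, hv⟩ := hσ.periodic (v : E)
    exact ⟨n, hn, Subtype.ext (by rw [hiter, hv])⟩
  have hcard := s27zs_card_fixed_frob p r hr Ψ hΨ hfin
  rw [← hcard, ← Nat.card_coe_set_eq]
  refine Nat.card_congr ?_
  exact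
    { toFun := fun g => ⟨⟨g.1, g.2.1⟩, Subtype.ext g.2.2⟩
      invFun := fun v => ⟨v.1.1, v.1.2, congrArg Subtype.val v.2⟩
      left_inv := fun g => rfl
      right_inv := fun v => rfl }

include hr in
/-- the number of nonzero elements of `F_Q`. -/
theorem s27zd_ncard_units :
    {c : k | c ^ (p ^ r) = c ∧ c ≠ 0}.ncard = p ^ r - 1 := by
  have h1 : {c : k | c ^ (p ^ r) = c}.ncard = p ^ r := by
    rw [← Nat.card_coe_set_eq]
    exact s27zs_card_roots (k := k) p r hr
  have hfin : {c : k | c ^ (p ^ r) = c}.Finite := by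
    apply Set.finite_of_ncard_ne_zero
    rw [h1]
    exact (pow_pos (Fact.out : p.Prime).pos r).ne'
  have h0 : (0 : k) ∈ {c : k | c ^ (p ^ r) = c} := by
    show (0 : k) ^ (p ^ r) = 0
    exact zero_pow (pow_pos (Fact.out : p.Prime).pos r).ne'
  have h2 := Set.ncard_sdiff_singleton_add_one h0 hfin
  have h3 : {c : k | c ^ (p ^ r) = c} \ {0} = {c : k | c ^ (p ^ r) = c ∧ c ≠ 0} := by
    ext c
    simp
  rw [h3, h1] at h2
  omega

include hx hr hσ in
/-- **the count for a `σ`-invariant divisor.** -/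
theorem s27zd_count_invariant {D : Divisor k E} (hD : σ • D = D) :
    (p ^ r - 1) * {A : Divisor k E | 0 ≤ A ∧ σ • A = A ∧ Divisor.IsPrincipal (A - D)}.ncard + 1 =
      (p ^ r) ^ Module.finrank k ↥(riemannRochSpace D) := by
  have hQ : 1 < p ^ r := Nat.one_lt_pow hr.ne' (Fact.out : p.Prime).one_lt
  set YS : Set (Divisor k E) :=
    {A : Divisor k E | 0 ≤ A ∧ σ • A = A ∧ Divisor.IsPrincipal (A - D)} with hYS
  set TS : Set k := {c : k | c ^ (p ^ r) = c ∧ c ≠ 0} with hTS
  set S : Set E := {g : E | g ∈ riemannRochSpace D ∧ (σ : RingAut E) g = g} with hS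
  have hScard := s27zd_ncard_fixed hr hσ hx hD
  have hSfin : S.Finite := by
    apply Set.finite_of_ncard_ne_zero
    rw [hScard]
    exact (pow_pos (by omega) _).ne'
  have h0S : (0 : E) ∈ S := ⟨zero_mem _, map_zero _⟩
  have hdiff := Set.ncard_sdiff_singleton_add_one h0S hSfin
  -- a section of `g ↦ D + div g`
  have hsec : ∀ A : Divisor k E, A ∈ YS → ∃ g : E, (g ∈ S ∧ g ≠ 0) ∧ D + rt_div hx g = A := by
    rintro A ⟨hA0, hAσ, h, hh0, hh⟩
    have hAD : A - D = rt_div hx h := rt_eq_div_of_forall hx hh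
    have hA : D + rt_div hx h = A := by rw [← hAD]; abel
    have hσh0 : (σ : RingAut E) h ≠ 0 := (map_ne_zero_iff _ (σ : RingAut E).injective).mpr hh0
    have hdivσ : rt_div hx ((σ : RingAut E) h) = rt_div hx h := by
      rw [← s27z_smul_div hx σ h, ← hAD, smul_sub, hAσ, hD]
    obtain ⟨c, hc0, hc⟩ := s27zd_const_of_div_eq hx hσh0 hh0 hdivσ
    have hQ1 : 0 < p ^ r - 1 := by omega
    obtain ⟨b, hb⟩ := IsAlgClosed.exists_pow_nat_eq c⁻¹ hQ1
    have hb0 : b ≠ 0 := by
      rintro rfl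
      rw [zero_pow hQ1.ne'] at hb
      exact inv_ne_zero hc0 hb.symm
    have hbE : algebraMap k E b ≠ 0 := by rwa [Ne, map_eq_zero]
    have hbQ : b ^ (p ^ r) * c = b := by
      have : p ^ r = (p ^ r - 1) + 1 := by omega
      rw [this, pow_succ, hb]
      field_simp
    refine ⟨algebraMap k E b * h, ⟨⟨?_, ?_⟩, mul_ne_zero hbE hh0⟩, ?_⟩
    · have hmem : h ∈ riemannRochSpace D := s27zd_mem_of_nonneg hx hh0 (by rw [hA]; exact hA0)
      have := (riemannRochSpace D).smul_mem b hmem
      rwa [Algebra.smul_def] at this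
    · rw [map_mul, hσ.map_const, hc, ← mul_assoc, ← map_mul, hbQ]
    · rw [s27zd_div_const_mul hx hb0 hh0, hA]
  choose! s hs using hsec
  -- the bijection
  have hbij : (YS ×ˢ TS).ncard = (S \ {0}).ncard := by
    refine Set.ncard_congr (fun a _ => algebraMap k E a.2 * s a.1) ?_ ?_ ?_
    · rintro ⟨A, c⟩ ⟨hA, hc, hc0⟩
      obtain ⟨⟨⟨hsL, hsσ⟩, hs0⟩, hsA⟩ := hs A hA
      have hcE : algebraMap k E c ≠ 0 := by rwa [Ne, map_eq_zero]
      refine ⟨⟨?_, ?_⟩, ?_⟩
      · have := (riemannRochSpace D).smul_mem c hsL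
        rwa [Algebra.smul_def] at this
      · show (σ : RingAut E) (algebraMap k E c * s A) = algebraMap k E c * s A
        rw [map_mul, hσ.map_const, hsσ, hc]
      · rw [Set.mem_singleton_iff]
        exact mul_ne_zero hcE hs0
    · rintro ⟨A, c⟩ ⟨A', c'⟩ ⟨hA, hc, hc0⟩ ⟨hA', hc', hc0'⟩ heq
      obtain ⟨⟨-, hs0⟩, hsA⟩ := hs A hA
      obtain ⟨⟨-, hs0'⟩, hsA'⟩ := hs A' hA'
      have heq' : algebraMap k E c * s A = algebraMap k E c' * s A' := heq
      have hAA' : A = A' := by
        rw [← hsA, ← hsA', ← s27zd_div_const_mul hx hc0 hs0, ← s27zd_div_const_mul hx hc0' hs0',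
          heq']
      subst hAA'
      have := mul_right_cancel₀ hs0 heq'
      rw [(algebraMap k E).injective this]
    · rintro g ⟨⟨hgL, hgσ⟩, hg0⟩
      rw [Set.mem_singleton_iff] at hg0
      have hAmem : D + rt_div hx g ∈ YS := by
        refine ⟨s27zd_nonneg_of_mem hx hg0 hgL, ?_, ?_⟩
        · rw [smul_add, hD, s27z_smul_div hx σ g, hgσ]
        · rw [add_sub_cancel_left]
          exact rt_div_isPrincipal hx hg0
      obtain ⟨⟨⟨hsL, hsσ⟩, hs0⟩, hsA⟩ := hs _ hAmem
      have hdiv : rt_div hx g = rt_div hx (s (D + rt_div hx g)) := (add_left_cancel hsA).symm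
      obtain ⟨c, hc0, hc⟩ := s27zd_const_of_div_eq hx hg0 hs0 hdiv
      have hcfix : c ^ (p ^ r) = c := by
        have h1 : (σ : RingAut E) g = g := hgσ
        rw [hc, map_mul, hσ.map_const, hsσ] at h1
        exact (algebraMap k E).injective (mul_right_cancel₀ hs0 h1)
      exact ⟨(D + rt_div hx g, c), ⟨hAmem, hcfix, hc0⟩, hc.symm⟩
  rw [Set.ncard_prod, s27zd_ncard_units hr] at hbij
  rw [← hScard, ← hdiff, ← hbij]
  ring

include hx hr hσ in
/-- **(Z) / ZD COUNT**: the number `a` of `σ`-invariant effective divisors in a `σ`-invariant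
class satisfies `(Q - 1) a + 1 = Q ^ l(D)`. -/
theorem s27z_count (D : Divisor k E) (hD : Divisor.IsPrincipal (σ • D - D)) :
    (p ^ r - 1) *
        Nat.card {A : Divisor k E // 0 ≤ A ∧ σ • A = A ∧ Divisor.IsPrincipal (A - D)} + 1 =
      (p ^ r) ^ Module.finrank k ↥(riemannRochSpace D) := by
  obtain ⟨u, hu, hfix⟩ := s27zi_lang hx hr hσ D hD
  have h1 := s27zd_count_invariant hx hr hσ hfix
  rw [rt_finrank_L_add_div hx D hu] at h1
  have hu' : rt_div hx u ∈ Divisor.principal (K := k) (F := E) := rt_div_isPrincipal hx hu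
  have hset : {A : Divisor k E | 0 ≤ A ∧ σ • A = A ∧
        Divisor.IsPrincipal (A - (D + rt_div hx u))} =
      {A : Divisor k E | 0 ≤ A ∧ σ • A = A ∧ Divisor.IsPrincipal (A - D)} := by
    ext A
    show (_ ∧ _ ∧ _) ↔ (_ ∧ _ ∧ _)
    refine and_congr_right fun _ => and_congr_right fun _ => ?_
    constructor
    · intro h
      have h2 : A - (D + rt_div hx u) ∈ Divisor.principal (K := k) (F := E) := h
      have := add_mem h2 hu'
      rwa [show A - (D + rt_div hx u) + rt_div hx u = A - D by abel] at this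
    · intro h
      have h2 : A - D ∈ Divisor.principal (K := k) (F := E) := h
      have := sub_mem h2 hu'
      rwa [show A - D - rt_div hx u = A - (D + rt_div hx u) by abel] at this
  rw [hset, ← Nat.card_coe_set_eq] at h1
  exact h1

/-- in an invariant class with `l(D) ≥ 1` there is an invariant effective divisor. -/
theorem s27zd_exists_invariant_effective (hx : rt_IsSepGen k x) (hr : 0 < r)
    (hσ : s27z_IsFrob (p ^ r) σ) (D : Divisor k E) (hD : Divisor.IsPrincipal (σ • D - D))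
    (hl : 0 < Module.finrank k ↥(riemannRochSpace D)) :
    ∃ A : Divisor k E, 0 ≤ A ∧ σ • A = A ∧ Divisor.IsPrincipal (A - D) := by
  have hQ : 1 < p ^ r := Nat.one_lt_pow hr.ne' (Fact.out : p.Prime).one_lt
  have h1 := s27z_count hx hr hσ D hD
  have h2 : p ^ r ≤ (p ^ r) ^ Module.finrank k ↥(riemannRochSpace D) :=
    le_self_pow₀ hQ.le hl.ne'
  have hpos : 0 < Nat.card {A : Divisor k E // 0 ≤ A ∧ σ • A = A ∧
      Divisor.IsPrincipal (A - D)} := by
    by_contra h0
    have h0' : Nat.card {A : Divisor k E // 0 ≤ A ∧ σ • A = A ∧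
      Divisor.IsPrincipal (A - D)} = 0 := by omega
    rw [h0', Nat.mul_zero] at h1
    omega
  obtain ⟨⟨A, hA⟩⟩ := (Nat.card_pos_iff.mp hpos).1
  exact ⟨A, hA⟩

end frob

end Fermat.Agent.S27
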