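/-
S27 / block (Z), cell ZE "FIN" (helper26).  Prefix `s27ze_` for auxiliaries; exports
`s27z_finite_fixedPlaces`, `s27z_effCount_eq`, `s27z_finite_eff` (statements of helper29's table).

* a `q`-Frobenius `σ` (q > 1) fixes only finitely many places;
* `σ`-invariant effective divisors of degree `n` = `ψ`-invariant `ℕ`-valued finitely supported
  functions of mass `n` on the places (`ψ` = the permutation induced by `σ`);
* there are finitely many of them.
-/
import Mathlib
import Fermat.Agent.S27.Zeta.Defs

set_option autoImplicit false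
set_option linter.unusedSectionVars false

noncomputable section

namespace Fermat.Agent.S27

open AlgebraicCurve Fermat.Agent.JT3 Fermat.Agent.S24 Polynomial
open scoped Pointwise

/-! ### Invariant `ℕ`-valued functions under a permutation -/

section perm

variable {P : Type*} (ψ : Equiv.Perm P)

theorem s27ze_mapDomain_eq_iff {M : Type*} [AddCommMonoid M] (B : P →₀ M) :
    Finsupp.mapDomain ψ B = B ↔ ∀ w, B (ψ w) = B w := by
  constructor
  · intro h w
    conv_lhs => rw [← h]
    exact Finsupp.mapDomain_apply ψ.injective B w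
  · intro h
    ext w
    rw [Finsupp.mapDomain_equiv_apply]
    have := h (ψ.symm w)
    rw [Equiv.apply_symm_apply] at this
    exact this.symm

theorem s27ze_apply_pow {M : Type*} [AddCommMonoid M] {B : P →₀ M}
    (hB : Finsupp.mapDomain ψ B = B) (j : ℕ) (w : P) : B ((ψ ^ j) w) = B w := by
  induction j with
  | zero => simp
  | succ j ih =>
      rw [pow_succ', Equiv.Perm.mul_apply, (s27ze_mapDomain_eq_iff ψ B).1 hB, ih]

theorem s27ze_pow_fixed {w : P} (h : ψ w = w) (m : ℕ) : (ψ ^ m) w = w := by
  induction m with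
  | zero => simp
  | succ m ih => rw [pow_succ', Equiv.Perm.mul_apply, ih, h]

theorem s27ze_card_support_le (A : P →₀ ℕ) : A.support.card ≤ A.sum fun _ m => m := by
  rw [Finsupp.sum, Finset.card_eq_sum_ones]
  exact Finset.sum_le_sum fun v hv =>
    Nat.one_le_iff_ne_zero.2 (Finsupp.mem_support_iff.1 hv)

theorem s27ze_apply_le_sum (A : P →₀ ℕ) (w : P) : A w ≤ A.sum fun _ m => m := by
  by_cases hw : w ∈ A.support
  · rw [Finsupp.sum]
    exact Finset.single_le_sum (f := fun v => A v) (fun _ _ => Nat.zero_le _) hw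
  · rw [Finsupp.notMem_support_iff.1 hw]
    exact Nat.zero_le _

/-- the support of an invariant function of mass `n` consists of points fixed by `ψ ^ n!`. -/
theorem s27ze_support_fixed {A : P →₀ ℕ} (hA : Finsupp.mapDomain ψ A = A) {n : ℕ}
    (hn : (A.sum fun _ m => m) = n) (w : P) (hw : w ∈ A.support) :
    (ψ ^ n.factorial) w = w := by
  classical
  have hcard : A.support.card < (Finset.range (n + 1)).card := by
    rw [Finset.card_range]
    exact Nat.lt_succ_of_le (hn ▸ s27ze_card_support_le A)
  have hmaps : ∀ j ∈ Finset.range (n + 1), (ψ ^ j) w ∈ A.support := by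
    intro j _
    rw [Finsupp.mem_support_iff, s27ze_apply_pow ψ hA]
    exact Finsupp.mem_support_iff.1 hw
  obtain ⟨i, hi, j, hj, hij, heq⟩ :=
    Finset.exists_ne_map_eq_of_card_lt_of_maps_to hcard hmaps
  -- wlog `i < j`
  have key : ∀ i j : ℕ, i < j → j ≤ n → (ψ ^ i) w = (ψ ^ j) w → (ψ ^ n.factorial) w = w := by
    intro i j hlt hjn h
    obtain ⟨d, rfl⟩ := Nat.exists_eq_add_of_lt hlt
    have h1 : (ψ ^ (d + 1)) w = w := by
      have h2 : (ψ ^ i) w = (ψ ^ i) ((ψ ^ (d + 1)) w) := by
        rw [← Equiv.Perm.mul_apply, ← pow_add, ← add_assoc]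
        exact h
      exact ((ψ ^ i).injective h2).symm
    have hdvd : (d + 1) ∣ n.factorial :=
      Nat.dvd_factorial (Nat.succ_pos d) (by omega)
    obtain ⟨m, hm⟩ := hdvd
    rw [hm, pow_mul]
    exact s27ze_pow_fixed _ h1 m
  rw [Finset.mem_range, Nat.lt_succ_iff] at hi hj
  rcases lt_or_gt_of_ne hij with h | h
  · exact key i j h hj heq
  · exact key j i h hi heq.symm

/-- finitely many invariant functions of mass `n`, if `ψ ^ n!` has finitely many fixed points. -/
theorem s27ze_perm_finite (n : ℕ) (hfin : {w : P | (ψ ^ n.factorial) w = w}.Finite) :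
    Finite {A : P →₀ ℕ // Finsupp.mapDomain ψ A = A ∧ (A.sum fun _ m => m) = n} := by
  classical
  have hsub : {A : P →₀ ℕ | Finsupp.mapDomain ψ A = A ∧ (A.sum fun _ m => m) = n} ⊆
      ↑(hfin.toFinset.finsupp (fun _ => Finset.range (n + 1))) := by
    intro A hA
    rw [Finset.mem_coe, Finset.mem_finsupp_iff]
    refine ⟨fun w hw => ?_, fun w _ => ?_⟩
    · rw [Set.Finite.mem_toFinset]
      exact s27ze_support_fixed ψ hA.1 hA.2 w hw
    · rw [Finset.mem_range, Nat.lt_succ_iff]
      exact hA.2 ▸ s27ze_apply_le_sum A w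
  exact Set.finite_coe_iff.2 ((Finset.finite_toSet _).subset hsub)

end perm

universe u v
variable {k : Type u} {E : Type v} [Field k] [Field E] [Algebra k E]

/-! ### Invariant divisors, pointwise -/

theorem s27ze_smul_eq_iff (τ : s27z_stab k E) (A : Divisor k E) :
    τ • A = A ↔ ∀ w : Place k E, A (τ • w) = A w := by
  constructor
  · intro h w
    conv_lhs => rw [← h]
    exact s27z_smul_apply_smul τ A w
  · intro h
    ext w
    rw [s27z_smul_apply]
    have := h (τ⁻¹ • w)
    rw [smul_inv_smul] at this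
    exact this.symm

theorem s27ze_pow_smul_eq {τ : s27z_stab k E} {w : Place k E} (h : τ • w = w) (N : ℕ) :
    τ ^ N • w = w := by
  induction N with
  | zero => simp
  | succ N ih => rw [pow_succ, mul_smul, h, ih]

/-! ### The dictionary: invariant effective divisors ↔ invariant `ℕ`-valued functions -/

section dict

variable [IsAlgClosed k] {x : E} (hx : rt_IsSepGen k x)

include hx

theorem s27ze_degree_natCast (B : Place k E →₀ ℕ) :
    Divisor.degree (B.mapRange (Nat.cast : ℕ → ℤ) Nat.cast_zero : Divisor k E) =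
      ((B.sum fun _ m => m : ℕ) : ℤ) := by
  rw [rt_degree_eq_sum hx _ B.support Finsupp.support_mapRange, Finsupp.sum]
  push_cast
  exact Finset.sum_congr rfl fun v _ => by rw [Finsupp.mapRange_apply]

theorem s27ze_sum_toNat {A : Divisor k E} (hA : 0 ≤ A) :
    (((A.mapRange Int.toNat Int.toNat_zero : Place k E →₀ ℕ).sum fun _ m => m : ℕ) : ℤ) =
      Divisor.degree A := by
  rw [rt_degree_eq_sum hx A A.support (Finset.Subset.refl _),
    Finsupp.sum_mapRange_index (fun _ => rfl), Finsupp.sum]
  push_cast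
  exact Finset.sum_congr rfl fun v _ => Int.toNat_of_nonneg (Finsupp.le_def.1 hA v)

/-- the dictionary. -/
def s27ze_equiv (τ : s27z_stab k E) (n : ℕ) :
    {A : Divisor k E // 0 ≤ A ∧ τ • A = A ∧ Divisor.degree A = n} ≃
      {B : Place k E →₀ ℕ // Finsupp.mapDomain (s27z_placePerm τ) B = B ∧
        (B.sum fun _ m => m) = n} where
  toFun A := ⟨(A.1.mapRange Int.toNat Int.toNat_zero : Place k E →₀ ℕ), by
    refine ⟨?_, ?_⟩
    · rw [s27ze_mapDomain_eq_iff]
      intro w
      rw [Finsupp.mapRange_apply, Finsupp.mapRange_apply, s27z_placePerm_apply,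
        (s27ze_smul_eq_iff τ A.1).1 A.2.2.1 w]
    · have h := s27ze_sum_toNat hx A.2.1
      rw [A.2.2.2] at h
      exact_mod_cast h⟩
  invFun B := ⟨(B.1.mapRange (Nat.cast : ℕ → ℤ) Nat.cast_zero : Divisor k E), by
    refine ⟨?_, ?_, ?_⟩
    · rw [Finsupp.le_def]
      intro v
      rw [Finsupp.mapRange_apply, Finsupp.zero_apply]
      exact Int.natCast_nonneg _
    · rw [s27ze_smul_eq_iff]
      intro w
      rw [Finsupp.mapRange_apply, Finsupp.mapRange_apply]
      have := (s27ze_mapDomain_eq_iff (s27z_placePerm τ) B.1).1 B.2.1 w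
      rw [s27z_placePerm_apply] at this
      rw [this]
    · rw [s27ze_degree_natCast hx, B.2.2]⟩
  left_inv A := by
    apply Subtype.ext
    ext v
    show ((A.1.mapRange Int.toNat Int.toNat_zero : Place k E →₀ ℕ).mapRange
      (Nat.cast : ℕ → ℤ) Nat.cast_zero : Divisor k E) v = A.1 v
    rw [Finsupp.mapRange_apply, Finsupp.mapRange_apply]
    exact Int.toNat_of_nonneg (Finsupp.le_def.1 A.2.1 v)
  right_inv B := by
    apply Subtype.ext
    ext v
    show ((B.1.mapRange (Nat.cast : ℕ → ℤ) Nat.cast_zero : Divisor k E).mapRange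
      Int.toNat Int.toNat_zero : Place k E →₀ ℕ) v = B.1 v
    rw [Finsupp.mapRange_apply, Finsupp.mapRange_apply]
    exact Int.toNat_natCast _

/-- **(ZE, dictionary)**: the number of `τ`-invariant effective divisors of degree `n` is the
combinatorial count for the permutation of the places induced by `τ`. -/
theorem s27z_effCount_eq (τ : s27z_stab k E) (n : ℕ) :
    s27z_effCount τ n = s27z_permCount (s27z_placePerm τ) n :=
  Nat.card_congr (s27ze_equiv hx τ n)

end dict

/-! ### Finitely many fixed places -/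

section fin

variable [IsAlgClosed k] {p : ℕ} [Fact p.Prime] [CharP k p] {x : E} (hx : rt_IsSepGen k x)

include hx

omit [Fact p.Prime] [CharP k p] in
theorem s27ze_sub_const_ne_zero (c : k) : x - algebraMap k E c ≠ 0 := by
  intro h
  apply (hx.sub_const c).1
  rw [h]
  exact isAlgebraic_zero

omit [Fact p.Prime] [CharP k p] in
/-- the value of `x` at a place is unique. -/
theorem s27ze_const_unique (w : Place k E) {c c' : k}
    (hc : 0 < w.ord (x - algebraMap k E c)) (hc' : 0 < w.ord (x - algebraMap k E c')) :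
    c = c' := by
  by_contra hcc
  have hne := s27ze_sub_const_ne_zero hx c
  have hne' := s27ze_sub_const_ne_zero hx c'
  have hdiff : (x - algebraMap k E c) + -(x - algebraMap k E c') = algebraMap k E (c' - c) := by
    rw [map_sub]; ring
  have hcc' : algebraMap k E (c' - c) ≠ 0 := by
    rw [Ne, map_eq_zero, sub_eq_zero]; exact fun h => hcc h.symm
  have h2 := hw_ord_add_ge w hne (neg_ne_zero.mpr hne') (by rw [hdiff]; exact hcc')
  rw [hdiff, hw_ord_algebraMap, hw_ord_neg] at h2
  rcases min_le_iff.mp h2 with h | h <;> omega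

omit [Fact p.Prime] [CharP k p] in
/-- a place fixed by a `q`-Frobenius `τ` fixing `x` is a pole of `x` or lies over a point `a` of
the line with `a ^ q = a`. -/
theorem s27ze_fixed_place_value {q : ℕ} {τ : s27z_stab k E} (hτ : s27z_IsFrob q τ)
    (hτx : (τ : RingAut E) x = x) {w : Place k E} (hw : τ • w = w) :
    w.ord x < 0 ∨ ∃ a : k, a ^ q = a ∧ 0 < w.ord (x - algebraMap k E a) := by
  have := hx.isAlgebraic
  by_cases hxw : x ∈ w.toValuationSubring
  · right
    obtain ⟨c, hc | hc⟩ := hw_exists_const x w hxw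
    · exact absurd (hc ▸ isAlgebraic_algebraMap (R := k) (A := E) c) hx.1
    · refine ⟨c, ?_, hc⟩
      have h1 := s27z_ord_smul τ w (x - algebraMap k E c)
      rw [hw, map_sub, hτx, hτ.map_const] at h1
      exact s27ze_const_unique hx w (h1 ▸ hc) hc
  · left
    have hx0 : x ≠ 0 := by rintro rfl; exact hxw w.toValuationSubring.zero_mem
    by_contra h
    push Not at h
    exact hxw ((hw_mem_iff_ord_nonneg w hx0).mpr h)

variable {r : ℕ} (hr : 0 < r) {σ : s27z_stab k E} (hσ : s27z_IsFrob (p ^ r) σ)

include hr hσ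

omit [CharP k p] in
/-- **(ZE, FIN)**: a Frobenius fixes only finitely many places. -/
theorem s27z_finite_fixedPlaces : {w : Place k E | σ • w = w}.Finite := by
  classical
  obtain ⟨N, hN, hxN⟩ := hσ.periodic x
  have hτ : s27z_IsFrob ((p ^ r) ^ N) (σ ^ N) := hσ.pow N
  have hτx : ((σ ^ N : s27z_stab k E) : RingAut E) x = x := by
    rw [s27z_coe_pow]; exact hxN
  have hp : 1 < p := (Fact.out : p.Prime).one_lt
  have hQ : 1 < (p ^ r) ^ N :=
    Nat.one_lt_pow hN.ne' (Nat.one_lt_pow hr.ne' hp)
  have hpoly : (X ^ ((p ^ r) ^ N) - X : k[X]) ≠ 0 := FiniteField.X_pow_card_sub_X_ne_zero k hQ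
  have hS : {a : k | a ^ ((p ^ r) ^ N) = a}.Finite := by
    refine ((X ^ ((p ^ r) ^ N) - X : k[X]).roots.toFinset.finite_toSet).subset fun a ha => ?_
    rw [Finset.mem_coe, Multiset.mem_toFinset, mem_roots hpoly, IsRoot.def, eval_sub, eval_pow,
      eval_X, sub_eq_zero]
    exact ha
  refine ((rt_finite_poles hx x).union
    (hS.biUnion fun a _ => rt_finite_zeros hx (x - algebraMap k E a))).subset fun w hw => ?_
  have hw' : σ ^ N • w = w := s27ze_pow_smul_eq hw N
  rcases s27ze_fixed_place_value hx hτ hτx hw' with h | ⟨a, ha, hpos⟩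
  · exact Or.inl h
  · exact Or.inr (Set.mem_biUnion ha hpos)

omit [CharP k p] in
/-- **(ZE, FIN)**: finitely many invariant effective divisors of each degree. -/
theorem s27z_finite_eff (n : ℕ) :
    Finite {A : Divisor k E // 0 ≤ A ∧ σ • A = A ∧ Divisor.degree A = n} := by
  have hfix : {w : Place k E | (σ ^ n.factorial) • w = w}.Finite := by
    have h1 : s27z_IsFrob (p ^ (r * n.factorial)) (σ ^ n.factorial) := by
      rw [pow_mul]; exact hσ.pow _
    exact s27z_finite_fixedPlaces hx (Nat.mul_pos hr (Nat.factorial_pos n)) h1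
  have hfix' : {w : Place k E | ((s27z_placePerm σ) ^ n.factorial) w = w}.Finite := by
    rw [← s27z_placePerm_pow]
    exact hfix
  have := s27ze_perm_finite (s27z_placePerm σ) n hfix'
  exact Finite.of_equiv _ (s27ze_equiv hx σ n).symm

end fin

end Fermat.Agent.S27
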