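/-
S27 / block (Z), cell ZD COUNT, last export (helper21).  Prefix `s27zd_`.

`σ` a `Q`-Frobenius of `E / k`: the group `Pic0(E)^σ` of `σ`-invariant classes of degree zero is
finite.  (Every invariant class, shifted by `g` times an invariant effective divisor `B`, contains
an invariant effective divisor by `s27z_count`; there are finitely many of those of each degree
by helper26's `s27z_finite_eff`.)
-/
import Mathlib
import Fermat.Agent.S27.Zeta.Count
import Fermat.Agent.S27.Zeta.Fin
import Fermat.Agent.S27.Hens.NonSpecial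

set_option autoImplicit false
set_option linter.unusedSectionVars false
set_option linter.unusedVariables false
set_option linter.style.haveILetI false

namespace Fermat.Agent.S27

open AlgebraicCurve Fermat.Agent.JT3 Fermat.Agent.S24 Finset

universe u v
variable {k : Type u} {E : Type v} [Field k] [Field E] [Algebra k E]

variable [IsAlgClosed k] {p : ℕ} [Fact p.Prime] [CharP k p] {x : E} (hx : rt_IsSepGen k x)
  {r : ℕ} (hr : 0 < r) {σ : s27z_stab k E} (hσ : s27z_IsFrob (p ^ r) σ)

/-- the orbit sum of a periodic place is invariant. -/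
theorem s27zd_orbit_invariant {w : Place k E} {N : ℕ} (hN : σ ^ N • w = w) :
    σ • (∑ i ∈ range N, σ ^ i • (Finsupp.single w (1 : ℤ) : Divisor k E)) =
      ∑ i ∈ range N, σ ^ i • (Finsupp.single w (1 : ℤ) : Divisor k E) := by
  rw [Finset.smul_sum]
  have h1 : ∀ i ∈ range N, σ • σ ^ i • (Finsupp.single w (1 : ℤ) : Divisor k E) =
      σ ^ (i + 1) • (Finsupp.single w (1 : ℤ) : Divisor k E) := by
    intro i _
    rw [pow_succ', mul_smul]
  rw [sum_congr rfl h1]
  have h2 := sum_range_succ' (fun i => σ ^ i • (Finsupp.single w (1 : ℤ) : Divisor k E)) N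
  have h3 := sum_range_succ (fun i => σ ^ i • (Finsupp.single w (1 : ℤ) : Divisor k E)) N
  have h4 : σ ^ N • (Finsupp.single w (1 : ℤ) : Divisor k E) =
      σ ^ 0 • (Finsupp.single w (1 : ℤ) : Divisor k E) := by
    rw [pow_zero, one_smul, s27z_smul_single, hN]
  rw [h3, h4] at h2
  exact (add_right_cancel h2).symm

include hx hr hσ

/-- an invariant effective divisor of positive degree. -/
theorem s27zd_exists_invariant_pos :
    ∃ (B : Divisor k E) (N : ℕ), 0 < N ∧ 0 ≤ B ∧ σ • B = B ∧ Divisor.degree B = N := by
  haveI : Infinite (Place k E) := s27h_infinite_places hx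
  obtain ⟨w⟩ : Nonempty (Place k E) := inferInstance
  obtain ⟨N, hN, hw⟩ := s27z_per_place hx hσ w
  refine ⟨∑ i ∈ range N, σ ^ i • (Finsupp.single w (1 : ℤ) : Divisor k E), N, hN, ?_,
    s27zd_orbit_invariant hw, ?_⟩
  · refine sum_nonneg fun i _ => s27z_smul_nonneg _ ?_
    exact s27h_single_nonneg w
  · rw [map_sum]
    have : ∀ i ∈ range N, Divisor.degree (σ ^ i • (Finsupp.single w (1 : ℤ) : Divisor k E)) = 1 := by
      intro i _
      rw [s27z_degree_smul hx, rt_degree_single hx]
    rw [sum_congr rfl this]
    simp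

/-- **(Z) / ZD, second export**: finitely many `σ`-invariant classes of degree zero. -/
theorem s27z_finite_fixedPic : Finite {c : Pic0 k E // s27z_picMap hx σ c = c} := by
  obtain ⟨B, N, hN, hB0, hBσ, hBdeg⟩ := s27zd_exists_invariant_pos hx hr hσ
  obtain ⟨g, hg⟩ := rt_riemann_ineq hx
  haveI hZfin := s27z_finite_eff hx hr hσ (g * N)
  have hdegB : Divisor.degree (g • B) = ((g * N : ℕ) : ℤ) := by
    rw [map_nsmul, hBdeg]
    simp
  -- the map from invariant effective divisors of degree `g N` to classes
  let h : {A : Divisor k E // 0 ≤ A ∧ σ • A = A ∧ Divisor.degree A = ((g * N : ℕ) : ℤ)} →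
      Pic0 k E := fun A =>
    Pic0.mk ⟨A.1 - g • B, by
      rw [Divisor.mem_degZero, map_sub, A.2.2.2, hdegB, sub_self]⟩
  have hrange : (Set.range h).Finite := Set.finite_range h
  have hsub : {c : Pic0 k E | s27z_picMap hx σ c = c} ⊆ Set.range h := by
    intro c hc
    obtain ⟨D₀, rfl⟩ := Pic0.mk_surjective c
    have hc' : s27z_picMap hx σ (Pic0.mk D₀) = Pic0.mk D₀ := hc
    rw [s27z_picMap_mk] at hc'
    have h1 := (QuotientAddGroup.eq).mp hc'
    rw [AddSubgroup.mem_addSubgroupOf] at h1
    have h2 : σ • (D₀ : Divisor k E) - (D₀ : Divisor k E) ∈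
        Divisor.principal (K := k) (F := E) := by
      have := neg_mem h1
      simpa [sub_eq_add_neg, add_comm] using this
    set D : Divisor k E := (D₀ : Divisor k E) + g • B with hD
    have hDσ : Divisor.IsPrincipal (σ • D - D) := by
      have : σ • D - D = σ • (D₀ : Divisor k E) - (D₀ : Divisor k E) := by
        rw [hD, smul_add, smul_comm, hBσ]
        abel
      rw [this]
      exact h2
    have hdegD : Divisor.degree D = ((g * N : ℕ) : ℤ) := by
      rw [hD, map_add, hdegB, Divisor.mem_degZero.mp D₀.2, zero_add]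
    have hl : 0 < Module.finrank k ↥(riemannRochSpace D) := by
      have := hg D
      rw [hdegD] at this
      have h3 : (0 : ℤ) < (Module.finrank k ↥(riemannRochSpace D) : ℤ) := by
        push_cast at this
        nlinarith
      exact_mod_cast h3
    obtain ⟨A, hA0, hAσ, hAD⟩ := s27zd_exists_invariant_effective hx hr hσ D hDσ hl
    have hdegA : Divisor.degree A = ((g * N : ℕ) : ℤ) := by
      have := rt_degree_of_isPrincipal hx hAD
      rw [map_sub, hdegD] at this
      linarith
    refine ⟨⟨A, hA0, hAσ, hdegA⟩, ?_⟩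
    show Pic0.mk _ = Pic0.mk D₀
    refine (QuotientAddGroup.eq).mpr ?_
    rw [AddSubgroup.mem_addSubgroupOf]
    have h4 : A - D ∈ Divisor.principal (K := k) (F := E) := hAD
    have h5 := neg_mem h4
    have h6 : -(A - D) = -(A - g • B) + (D₀ : Divisor k E) := by
      rw [hD]
      abel
    rw [h6] at h5
    exact h5
  exact (hrange.subset hsub).to_subtype

end Fermat.Agent.S27
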