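/-
S27 / block (Z), cell ZF1 CLASSSUM (helper7).  Prefix `s27zf1_`; exports `s27z_classSum_*`.

The `σ`-invariant effective divisors of degree `n` are partitioned by the class of
`A - n • w₀` in `Pic0^σ` (`w₀` a `σ`-fixed place); each fibre is counted by cell ZD
(`(Q - 1) * #fibre + 1 = Q ^ l(D)`), and `l(D)` is given by Riemann–Roch.
The statements of ZD (`hcount`, `hfinPic`) and ZE (`hfinEff`) enter as hypotheses.
-/
import Mathlib
import Fermat.Agent.S27.Zeta.Defs

set_option autoImplicit false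
set_option linter.unusedSectionVars false

noncomputable section

namespace Fermat.Agent.S27

open AlgebraicCurve Fermat.Agent.JT3
open scoped Pointwise

universe u v
variable {k : Type u} {E : Type v} [Field k] [Field E] [Algebra k E]

section closed

variable [IsAlgClosed k] {x : E} (hx : rt_IsSepGen k x)

include hx

/-! ### `l(σ D) = l(D)` -/

theorem s27zf1_finrank_le (σ : s27z_stab k E) (D : Divisor k E) :
    Module.finrank k ↥(riemannRochSpace D) ≤ Module.finrank k ↥(riemannRochSpace (σ • D)) := by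
  have := rt_L_finite hx D
  have := rt_L_finite hx (σ • D)
  let b := Module.finBasis k ↥(riemannRochSpace D)
  let w : Fin (Module.finrank k ↥(riemannRochSpace D)) → ↥(riemannRochSpace (σ • D)) :=
    fun i => ⟨(σ : RingAut E) (b i : E), (s27z_mem_L_smul_iff σ D _).2 (b i).2⟩
  have hw : LinearIndependent k w := by
    rw [Fintype.linearIndependent_iff]
    intro c hc i
    choose c' hc' using fun i => s27z_inv_map_const σ (c i)
    have h1 : ∑ i, c' i • b i = 0 := by
      apply Subtype.ext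
      have h2 := congrArg (fun z : ↥(riemannRochSpace (σ • D)) => (σ : RingAut E)⁻¹ (z : E)) hc
      simp only [Submodule.coe_sum, Submodule.coe_smul, ZeroMemClass.coe_zero, map_zero,
        map_sum] at h2
      rw [Submodule.coe_sum, ZeroMemClass.coe_zero, ← h2]
      refine Finset.sum_congr rfl fun j _ => ?_
      show ((c' j • b j : ↥(riemannRochSpace D)) : E)
        = (σ : RingAut E)⁻¹ (c j • ((w j : ↥(riemannRochSpace (σ • D))) : E))
      rw [Submodule.coe_smul, Algebra.smul_def, Algebra.smul_def, map_mul, hc' j]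
      show _ = _ * (σ : RingAut E)⁻¹ ((σ : RingAut E) (b j : E))
      rw [← RingAut.mul_apply, inv_mul_cancel, RingAut.one_apply]
    have h3 := Fintype.linearIndependent_iff.1 b.linearIndependent c' h1 i
    have h4 := hc' i
    rw [h3, map_zero] at h4
    have h5 : algebraMap k E (c i) = 0 :=
      (map_eq_zero_iff _ ((σ : RingAut E)⁻¹).injective).1 h4
    exact (map_eq_zero_iff _ (algebraMap k E).injective).1 h5
  have := hw.fintype_card_le_finrank
  simpa using this

/-- **`l(σ D) = l(D)`** for a semilinear automorphism `σ` -/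
theorem s27zf1_finrank_smul (σ : s27z_stab k E) (D : Divisor k E) :
    Module.finrank k ↥(riemannRochSpace (σ • D)) = Module.finrank k ↥(riemannRochSpace D) := by
  apply le_antisymm
  · have h := s27zf1_finrank_le hx σ⁻¹ (σ • D)
    rwa [inv_smul_smul] at h
  · exact s27zf1_finrank_le hx σ D

/-! ### Divisors of degree zero -/

theorem s27zf1_finrank_of_isPrincipal {B : Divisor k E} (hB : Divisor.IsPrincipal B) :
    Module.finrank k ↥(riemannRochSpace B) = 1 := by
  obtain ⟨f, hf0, hf⟩ := hB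
  have h := rt_finrank_L_add_div hx (0 : Divisor k E) hf0
  rw [zero_add, rt_finrank_L_zero hx] at h
  rw [rt_eq_div_of_forall hx hf, h]

theorem s27zf1_eq_zero_of_degree {A : Divisor k E} (hA : 0 ≤ A) (hdeg : Divisor.degree A = 0) :
    A = 0 := by
  by_contra hne
  have := rt_degree_lt_of_lt hx hA (Ne.symm hne)
  rw [map_zero, hdeg] at this
  exact lt_irrefl _ this

theorem s27zf1_isPrincipal_of_finrank {B : Divisor k E} (hdeg : Divisor.degree B = 0)
    (h : Module.finrank k ↥(riemannRochSpace B) ≠ 0) : Divisor.IsPrincipal B := by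
  have hex : ∃ f : E, f ∈ riemannRochSpace B ∧ f ≠ 0 := by
    by_contra hcon
    apply h
    have : riemannRochSpace B = ⊥ := by
      rw [eq_bot_iff]
      intro f hf
      rw [Submodule.mem_bot]
      by_contra hf0
      exact hcon ⟨f, hf, hf0⟩
    rw [this]
    exact finrank_bot k E
  obtain ⟨f, hf, hf0⟩ := hex
  have h1 : 0 ≤ B + rt_div hx f := by
    rw [Finsupp.le_def]
    intro v
    have := (rt_mem_L_iff hf0).mp hf v
    rw [Finsupp.zero_apply, Finsupp.add_apply, rt_div_apply]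
    omega
  have h2 : B + rt_div hx f = 0 :=
    s27zf1_eq_zero_of_degree hx h1 (by rw [map_add, rt_degree_div, hdeg, add_zero])
  have h3 : B = rt_div hx f⁻¹ := by
    rw [rt_div_inv]
    exact eq_neg_of_add_eq_zero_left h2
  rw [h3]
  exact rt_div_isPrincipal hx (inv_ne_zero hf0)

/-- for `deg B = 0` and `B` not principal: `l(B) = 0` -/
theorem s27zf1_finrank_of_not_isPrincipal {B : Divisor k E} (hdeg : Divisor.degree B = 0)
    (hB : ¬ Divisor.IsPrincipal B) : Module.finrank k ↥(riemannRochSpace B) = 0 := by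
  by_contra h
  exact hB (s27zf1_isPrincipal_of_finrank hx hdeg h)

end closed

/-! ### Consequences of Riemann–Roch -/

section rr

variable [IsAlgClosed k] {x : E} (hx : rt_IsSepGen k x) {g : ℕ} {W : Divisor k E}
  (hRR : ∀ A : Divisor k E, (Module.finrank k ↥(riemannRochSpace A) : ℤ) =
    Divisor.degree A + 1 - g + Module.finrank k ↥(riemannRochSpace (W - A)))

include hx hRR

theorem s27zf1_finrank_W : Module.finrank k ↥(riemannRochSpace W) = g := by
  have h := hRR 0
  rw [rt_finrank_L_zero hx, map_zero, sub_zero] at h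
  push_cast at h
  omega

theorem s27zf1_degree_W : Divisor.degree W = 2 * (g : ℤ) - 2 := by
  have h := hRR W
  rw [sub_self, rt_finrank_L_zero hx, s27zf1_finrank_W hx hRR] at h
  push_cast at h
  omega

/-- `l(D) = deg D + 1 - g` for `deg D ≥ 2g - 1` -/
theorem s27zf1_finrank_big {D : Divisor k E} {n : ℕ} (hdeg : Divisor.degree D = n)
    (hn : 2 * (g : ℤ) - 1 ≤ n) :
    Module.finrank k ↥(riemannRochSpace D) = n + 1 - g := by
  have h := hRR D
  have hneg : Divisor.degree (W - D) < 0 := by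
    rw [map_sub, s27zf1_degree_W hx hRR, hdeg]
    omega
  rw [rt_finrank_L_of_degree_neg hx hneg, hdeg] at h
  push_cast at h
  omega

/-- `l(D) = g` for `deg D = 2g - 2`, `D ∼ W` -/
theorem s27zf1_finrank_mid_eq {D : Divisor k E} (hg : 1 ≤ g)
    (hdeg : Divisor.degree D = ((2 * g - 2 : ℕ) : ℤ)) (hD : Divisor.IsPrincipal (W - D)) :
    Module.finrank k ↥(riemannRochSpace D) = g := by
  have h := hRR D
  rw [s27zf1_finrank_of_isPrincipal hx hD, hdeg] at h
  push_cast at h
  omega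

/-- `l(D) = g - 1` for `deg D = 2g - 2`, `D ≁ W` -/
theorem s27zf1_finrank_mid_ne {D : Divisor k E} (hg : 1 ≤ g)
    (hdeg : Divisor.degree D = ((2 * g - 2 : ℕ) : ℤ)) (hD : ¬ Divisor.IsPrincipal (W - D)) :
    Module.finrank k ↥(riemannRochSpace D) = g - 1 := by
  have h := hRR D
  have h0 : Divisor.degree (W - D) = 0 := by
    rw [map_sub, s27zf1_degree_W hx hRR, hdeg]
    omega
  rw [s27zf1_finrank_of_not_isPrincipal hx h0 hD, hdeg] at h
  push_cast at h
  omega

/-- the canonical class is invariant under every semilinear automorphism -/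
theorem s27zf1_isPrincipal_smul_W (σ : s27z_stab k E) : Divisor.IsPrincipal (σ • W - W) := by
  have h := hRR (σ • W)
  rw [s27zf1_finrank_smul hx, s27zf1_finrank_W hx hRR, s27z_degree_smul hx,
    s27zf1_degree_W hx hRR] at h
  have h0 : Divisor.degree (W - σ • W) = 0 := by
    rw [map_sub, s27z_degree_smul hx, sub_self]
  have h1 : Module.finrank k ↥(riemannRochSpace (W - σ • W)) ≠ 0 := by
    intro h2
    rw [h2] at h
    push_cast at h
    omega
  have h3 := s27zf1_isPrincipal_of_finrank hx h0 h1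
  have h4 : σ • W - W = -(W - σ • W) := by abel
  rw [h4]
  exact (Divisor.principal (K := k) (F := E)).neg_mem h3

end rr

/-! ### The class map and its fibres -/

section count

variable [IsAlgClosed k] {x : E} (hx : rt_IsSepGen k x)

theorem s27zf1_mk_eq_iff (B₁ B₂ : Divisor.degZero (K := k) (F := E)) :
    Pic0.mk B₁ = Pic0.mk B₂ ↔ Divisor.IsPrincipal ((B₁ : Divisor k E) - (B₂ : Divisor k E)) := by
  have h := QuotientAddGroup.eq (s := (Divisor.principal (K := k) (F := E)).addSubgroupOf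
    (Divisor.degZero (K := k) (F := E))) (a := B₁) (b := B₂)
  have h' : Pic0.mk B₁ = Pic0.mk B₂ ↔ -B₁ + B₂ ∈ (Divisor.principal (K := k) (F := E)).addSubgroupOf
      (Divisor.degZero (K := k) (F := E)) := h
  rw [h', AddSubgroup.mem_addSubgroupOf, ← Divisor.mem_principal,
    ← (Divisor.principal (K := k) (F := E)).neg_mem_iff]
  have : -((-B₁ + B₂ : Divisor.degZero (K := k) (F := E)) : Divisor k E)
      = (B₁ : Divisor k E) - (B₂ : Divisor k E) := by
    push_cast
    abel
  rw [this]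

/-- `A - (deg A) • w₀`, of degree zero -/
def s27zf1_shift (w₀ : Place k E) (A : Divisor k E) : Divisor.degZero (K := k) (F := E) :=
  ⟨A - Finsupp.single w₀ (Divisor.degree A), by
    rw [Divisor.mem_degZero, map_sub, rt_degree_single hx, sub_self]⟩

theorem s27zf1_coe_shift (w₀ : Place k E) (A : Divisor k E) :
    (s27zf1_shift hx w₀ A : Divisor k E) = A - Finsupp.single w₀ (Divisor.degree A) := rfl

variable {σ : s27z_stab k E} {w₀ : Place k E} (hw₀ : σ • w₀ = w₀)

include hw₀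

theorem s27zf1_shift_fixed {A : Divisor k E} (hA : σ • A = A) :
    s27z_picMap hx σ (Pic0.mk (s27zf1_shift hx w₀ A)) = Pic0.mk (s27zf1_shift hx w₀ A) := by
  rw [s27z_picMap_mk]
  congr 1
  apply Subtype.ext
  rw [s27z_coe_degZeroHom, s27zf1_coe_shift, smul_sub, s27z_smul_single, hw₀, hA]

/-- the class map `A ↦ [A - n w₀]` from invariant effective divisors of degree `n` to the
invariant classes -/
def s27zf1_cl (n : ℕ) (A : {A : Divisor k E // 0 ≤ A ∧ σ • A = A ∧ Divisor.degree A = n}) :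
    {c : Pic0 k E // s27z_picMap hx σ c = c} :=
  ⟨Pic0.mk (s27zf1_shift hx w₀ A.1), s27zf1_shift_fixed hx hw₀ A.2.2.1⟩

/-- the fibre condition -/
theorem s27zf1_fibre_iff (n : ℕ) (D₀ : Divisor.degZero (K := k) (F := E)) (A : Divisor k E) :
    (Divisor.degree A = n ∧ Pic0.mk (s27zf1_shift hx w₀ A) = Pic0.mk D₀) ↔
      Divisor.IsPrincipal (A - ((D₀ : Divisor k E) + Finsupp.single w₀ (n : ℤ))) := by
  have hD₀ : Divisor.degree (D₀ : Divisor k E) = 0 := Divisor.mem_degZero.1 D₀.2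
  constructor
  · rintro ⟨hdeg, hmk⟩
    have h := (s27zf1_mk_eq_iff _ _).1 hmk
    rw [s27zf1_coe_shift, hdeg] at h
    have : A - ((D₀ : Divisor k E) + Finsupp.single w₀ (n : ℤ))
        = A - Finsupp.single w₀ (n : ℤ) - (D₀ : Divisor k E) := by abel
    rwa [this]
  · intro h
    have hdeg : Divisor.degree A = n := by
      have h1 := rt_degree_of_isPrincipal hx h
      rw [map_sub, map_add, hD₀, rt_degree_single hx, zero_add] at h1
      linarith
    refine ⟨hdeg, (s27zf1_mk_eq_iff _ _).2 ?_⟩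
    rw [s27zf1_coe_shift, hdeg]
    have : A - Finsupp.single w₀ (n : ℤ) - (D₀ : Divisor k E)
        = A - ((D₀ : Divisor k E) + Finsupp.single w₀ (n : ℤ)) := by abel
    rwa [this]

/-- a fibre of the class map is the set counted by cell ZD -/
def s27zf1_fibreEquiv (n : ℕ) (D₀ : Divisor.degZero (K := k) (F := E))
    (c : {c : Pic0 k E // s27z_picMap hx σ c = c}) (hc : Pic0.mk D₀ = c.1) :
    {A : {A : Divisor k E // 0 ≤ A ∧ σ • A = A ∧ Divisor.degree A = n} //
        s27zf1_cl hx hw₀ n A = c} ≃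
      {A : Divisor k E // 0 ≤ A ∧ σ • A = A ∧
        Divisor.IsPrincipal (A - ((D₀ : Divisor k E) + Finsupp.single w₀ (n : ℤ)))} where
  toFun A := ⟨A.1.1, A.1.2.1, A.1.2.2.1, (s27zf1_fibre_iff hx hw₀ n D₀ A.1.1).1
    ⟨A.1.2.2.2, by
      have h := congrArg Subtype.val A.2
      rw [hc]
      exact h⟩⟩
  invFun B := ⟨⟨B.1, B.2.1, B.2.2.1, ((s27zf1_fibre_iff hx hw₀ n D₀ B.1).2 B.2.2.2).1⟩,
    Subtype.ext (by
      rw [← hc]
      exact ((s27zf1_fibre_iff hx hw₀ n D₀ B.1).2 B.2.2.2).2)⟩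
  left_inv A := Subtype.ext (Subtype.ext rfl)
  right_inv B := Subtype.ext rfl

/-- the principal divisor `σ D - D` for the representative `D = D₀ + n w₀` of an invariant class -/
theorem s27zf1_isPrincipal_rep (n : ℕ) (D₀ : Divisor.degZero (K := k) (F := E))
    (hc : s27z_picMap hx σ (Pic0.mk D₀) = Pic0.mk D₀) :
    Divisor.IsPrincipal (σ • ((D₀ : Divisor k E) + Finsupp.single w₀ (n : ℤ))
      - ((D₀ : Divisor k E) + Finsupp.single w₀ (n : ℤ))) := by
  rw [s27z_picMap_mk] at hc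
  have h := (s27zf1_mk_eq_iff _ _).1 hc
  rw [s27z_coe_degZeroHom] at h
  have : σ • ((D₀ : Divisor k E) + Finsupp.single w₀ (n : ℤ))
      - ((D₀ : Divisor k E) + Finsupp.single w₀ (n : ℤ))
      = σ • (D₀ : Divisor k E) - (D₀ : Divisor k E) := by
    rw [smul_add, s27z_smul_single, hw₀]
    abel
  rwa [this]

/-! ### The class sum -/

variable {Q : ℕ} (hQ : 0 < Q)
  (hcount : ∀ D : Divisor k E, Divisor.IsPrincipal (σ • D - D) →
    (Q - 1) * Nat.card {A : Divisor k E // 0 ≤ A ∧ σ • A = A ∧ Divisor.IsPrincipal (A - D)} + 1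
      = Q ^ Module.finrank k ↥(riemannRochSpace D))

include hQ hcount

/-- the class sum: `(Q - 1) #Eff_n = ∑_{c ∈ Pic0^σ} (Q ^ l(c + n w₀) - 1)` -/
theorem s27zf1_sum (n : ℕ)
    [Fintype {c : Pic0 k E // s27z_picMap hx σ c = c}]
    [Finite {A : Divisor k E // 0 ≤ A ∧ σ • A = A ∧ Divisor.degree A = n}]
    (L : {c : Pic0 k E // s27z_picMap hx σ c = c} → ℕ)
    (hL : ∀ (c : {c : Pic0 k E // s27z_picMap hx σ c = c})
      (D₀ : Divisor.degZero (K := k) (F := E)), Pic0.mk D₀ = c.1 →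
      Module.finrank k ↥(riemannRochSpace ((D₀ : Divisor k E) + Finsupp.single w₀ (n : ℤ))) = L c) :
    ((Q : ℤ) - 1) * (s27z_effCount σ n : ℤ) = ∑ c, ((Q : ℤ) ^ L c - 1) := by
  have h1 : s27z_effCount σ n = ∑ c : {c : Pic0 k E // s27z_picMap hx σ c = c},
      Nat.card {A : {A : Divisor k E // 0 ≤ A ∧ σ • A = A ∧ Divisor.degree A = n} //
        s27zf1_cl hx hw₀ n A = c} := by
    rw [← Nat.card_sigma]
    exact Nat.card_congr (Equiv.sigmaFiberEquiv (s27zf1_cl hx hw₀ n)).symm
  rw [h1]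
  push_cast
  rw [Finset.mul_sum]
  refine Finset.sum_congr rfl fun c _ => ?_
  obtain ⟨D₀, hD₀⟩ := Pic0.mk_surjective c.1
  have hfix : s27z_picMap hx σ (Pic0.mk D₀) = Pic0.mk D₀ := by
    rw [hD₀]
    exact c.2
  have h2 := hcount _ (s27zf1_isPrincipal_rep hx hw₀ n D₀ hfix)
  rw [hL c D₀ hD₀, ← Nat.card_congr (s27zf1_fibreEquiv hx hw₀ n D₀ c hD₀)] at h2
  have h3 := congrArg (Nat.cast : ℕ → ℤ) h2
  push_cast [Nat.cast_sub hQ] at h3
  linarith

variable (hfinPic : Finite {c : Pic0 k E // s27z_picMap hx σ c = c})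
  (hfinEff : ∀ n : ℕ, Finite {A : Divisor k E // 0 ≤ A ∧ σ • A = A ∧ Divisor.degree A = n})
  {g : ℕ} {W : Divisor k E}
  (hRR : ∀ A : Divisor k E, (Module.finrank k ↥(riemannRochSpace A) : ℤ) =
    Divisor.degree A + 1 - g + Module.finrank k ↥(riemannRochSpace (W - A)))

include hfinPic hfinEff hRR

theorem s27zf1_big (n : ℕ) (hn : (2 * g : ℤ) - 1 ≤ n) :
    ((Q : ℤ) - 1) * s27z_effCount σ n = s27z_fixCount hx σ * ((Q : ℤ) ^ (n + 1 - g) - 1) := by
  have := Fintype.ofFinite {c : Pic0 k E // s27z_picMap hx σ c = c}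
  have := hfinEff n
  rw [s27zf1_sum hx hw₀ hQ hcount n (fun _ => n + 1 - g) (fun c D₀ _ =>
    s27zf1_finrank_big hx hRR (by
      rw [map_add, Divisor.mem_degZero.1 D₀.2, rt_degree_single hx, zero_add]) hn)]
  rw [Finset.sum_const, Finset.card_univ, nsmul_eq_mul]
  unfold s27z_fixCount
  rw [Nat.card_eq_fintype_card]

theorem s27zf1_mid (hg : 1 ≤ g) :
    ((Q : ℤ) - 1) * s27z_effCount σ (2 * g - 2) =
      ((Q : ℤ) ^ g - 1) + (s27z_fixCount hx σ - 1) * ((Q : ℤ) ^ (g - 1) - 1) := by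
  classical
  have := Fintype.ofFinite {c : Pic0 k E // s27z_picMap hx σ c = c}
  have := hfinEff (2 * g - 2)
  have hdegW : Divisor.degree W = ((2 * g - 2 : ℕ) : ℤ) := by
    rw [s27zf1_degree_W hx hRR]
    omega
  -- the canonical class
  have hWfix : s27z_picMap hx σ (Pic0.mk (s27zf1_shift hx w₀ W)) = Pic0.mk (s27zf1_shift hx w₀ W) := by
    rw [s27z_picMap_mk, s27zf1_mk_eq_iff, s27z_coe_degZeroHom, s27zf1_coe_shift, smul_sub,
      s27z_smul_single, hw₀]
    have : σ • W - Finsupp.single w₀ (Divisor.degree W) - (W - Finsupp.single w₀ (Divisor.degree W))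
        = σ • W - W := by abel
    rw [this]
    exact s27zf1_isPrincipal_smul_W hx hRR σ
  let cW : {c : Pic0 k E // s27z_picMap hx σ c = c} := ⟨Pic0.mk (s27zf1_shift hx w₀ W), hWfix⟩
  rw [s27zf1_sum hx hw₀ hQ hcount (2 * g - 2) (fun c => if c = cW then g else g - 1) (by
    intro c D₀ hc
    have hdeg : Divisor.degree ((D₀ : Divisor k E) + Finsupp.single w₀ ((2 * g - 2 : ℕ) : ℤ))
        = ((2 * g - 2 : ℕ) : ℤ) := by
      rw [map_add, Divisor.mem_degZero.1 D₀.2, rt_degree_single hx, zero_add]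
    have hiff := s27zf1_fibre_iff hx hw₀ (2 * g - 2) D₀ W
    by_cases hcW : c = cW
    · rw [if_pos hcW]
      apply s27zf1_finrank_mid_eq hx hRR hg hdeg
      apply hiff.1
      refine ⟨hdegW, ?_⟩
      rw [hc, hcW]
    · rw [if_neg hcW]
      apply s27zf1_finrank_mid_ne hx hRR hg hdeg
      intro hpr
      apply hcW
      apply Subtype.ext
      rw [← hc]
      exact (hiff.2 hpr).2.symm)]
  have hsplit : ∀ c : {c : Pic0 k E // s27z_picMap hx σ c = c},
      ((Q : ℤ) ^ (if c = cW then g else g - 1) - 1)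
        = ((Q : ℤ) ^ (g - 1) - 1) + (if c = cW then (Q : ℤ) ^ g - (Q : ℤ) ^ (g - 1) else 0) := by
    intro c
    split_ifs <;> ring
  rw [Finset.sum_congr rfl fun c _ => hsplit c, Finset.sum_add_distrib, Finset.sum_const,
    Finset.card_univ, nsmul_eq_mul, Finset.sum_ite_eq' Finset.univ cW, if_pos (Finset.mem_univ _)]
  unfold s27z_fixCount
  rw [Nat.card_eq_fintype_card]
  ring

end count

/-! ### The exported statements (cell ZF1 of the (Z) table) -/

section final

variable [IsAlgClosed k] {x : E} (hx : rt_IsSepGen k x) {σ : s27z_stab k E}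

include hx in
/-- (i): the only invariant effective divisor of degree `0` is `0` -/
theorem s27z_classSum_zero : s27z_effCount σ 0 = 1 := by
  unfold s27z_effCount
  rw [Nat.card_eq_one_iff_unique]
  refine ⟨⟨fun A B => Subtype.ext ?_⟩, ⟨⟨0, le_refl _, smul_zero σ, by simp⟩⟩⟩
  rw [s27zf1_eq_zero_of_degree hx A.2.1 (by simpa using A.2.2.2),
    s27zf1_eq_zero_of_degree hx B.2.1 (by simpa using B.2.2.2)]

variable {p r : ℕ} (hp : 0 < p)
  (hcount : ∀ D : Divisor k E, Divisor.IsPrincipal (σ • D - D) →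
    (p ^ r - 1) * Nat.card {A : Divisor k E // 0 ≤ A ∧ σ • A = A ∧ Divisor.IsPrincipal (A - D)} + 1
      = (p ^ r) ^ Module.finrank k ↥(riemannRochSpace D))
  (hfinPic : Finite {c : Pic0 k E // s27z_picMap hx σ c = c})
  (hfinEff : ∀ n : ℕ, Finite {A : Divisor k E // 0 ≤ A ∧ σ • A = A ∧ Divisor.degree A = n})
  (w₀ : Place k E) (hw₀ : σ • w₀ = w₀) (g : ℕ) (W : Divisor k E)
  (hRR : ∀ A : Divisor k E, (Module.finrank k ↥(riemannRochSpace A) : ℤ) =
    Divisor.degree A + 1 - g + Module.finrank k ↥(riemannRochSpace (W - A)))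

include hp hcount hfinPic hfinEff hw₀ hRR

/-- (ii): `(Q - 1) a_n = h (Q ^ (n + 1 - g) - 1)` for `n ≥ 2g - 1` -/
theorem s27z_classSum_big (n : ℕ) (hn : (2 * g : ℤ) - 1 ≤ n) :
    ((p : ℤ) ^ r - 1) * s27z_effCount σ n =
      s27z_fixCount hx σ * (((p : ℤ) ^ r) ^ (n + 1 - g) - 1) := by
  have h := s27zf1_big hx hw₀ (pow_pos hp r) hcount hfinPic hfinEff hRR n hn
  push_cast at h
  exact h

/-- (iii): `(Q - 1) a_{2g-2} = (Q ^ g - 1) + (h - 1) (Q ^ (g - 1) - 1)` for `g ≥ 1` -/
theorem s27z_classSum_mid (hg : 1 ≤ g) :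
    ((p : ℤ) ^ r - 1) * s27z_effCount σ (2 * g - 2) =
      (((p : ℤ) ^ r) ^ g - 1) + (s27z_fixCount hx σ - 1) * (((p : ℤ) ^ r) ^ (g - 1) - 1) := by
  have h := s27zf1_mid hx hw₀ (pow_pos hp r) hcount hfinPic hfinEff hRR hg
  push_cast at h
  exact h

/-- **cell ZF1 CLASSSUM**: the three counting identities, in the shape consumed by
`s27z_lpoly_of_counts` (cell ZF2) with `Q = p ^ r`, `a n = s27z_effCount σ n`,
`h = s27z_fixCount hx σ` -/
theorem s27z_classSum :
    ((s27z_effCount σ 0 : ℤ) = 1) ∧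
    (∀ n : ℕ, (2 * g : ℤ) - 1 ≤ n → ((p : ℤ) ^ r - 1) * (s27z_effCount σ n : ℤ) =
      (s27z_fixCount hx σ : ℤ) * (((p : ℤ) ^ r) ^ (n + 1 - g) - 1)) ∧
    (1 ≤ g → ((p : ℤ) ^ r - 1) * (s27z_effCount σ (2 * g - 2) : ℤ) =
      (((p : ℤ) ^ r) ^ g - 1) + ((s27z_fixCount hx σ : ℤ) - 1) * (((p : ℤ) ^ r) ^ (g - 1) - 1)) :=
  ⟨by rw [s27z_classSum_zero hx]; rfl,
    s27z_classSum_big hx hp hcount hfinPic hfinEff w₀ hw₀ g W hRR,
    s27z_classSum_mid hx hp hcount hfinPic hfinEff w₀ hw₀ g W hRR⟩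

end final

end Fermat.Agent.S27
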