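/-
(Z) cell ZF2 LPOLY-ALG (Mathlib only).

From the class-sum counting formulas for the numbers `a n` of invariant effective divisors of
degree `n` (cell ZF1), the series `(1 - T)(1 - Q T) * Σ a n T^n` is a polynomial `L` of degree
`2 g` with `L(0) = 1`, leading coefficient `Q ^ g` and `L(1) = h`.
-/
import Mathlib

namespace Fermat.Agent.S27

/-- Constant coefficient of `(1 - Q X) * Σ a n X^n`. -/
theorem s27zf_coeff_zero_B (Q : ℤ) (a : ℕ → ℤ) :
    PowerSeries.coeff 0 ((1 - PowerSeries.C Q * PowerSeries.X) * PowerSeries.mk a) = a 0 := by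
  rw [sub_mul, one_mul, mul_assoc, map_sub, PowerSeries.coeff_C_mul,
    PowerSeries.coeff_zero_X_mul, PowerSeries.coeff_mk]
  ring

/-- Higher coefficients of `(1 - Q X) * Σ a n X^n`. -/
theorem s27zf_coeff_succ_B (Q : ℤ) (a : ℕ → ℤ) (n : ℕ) :
    PowerSeries.coeff (n + 1) ((1 - PowerSeries.C Q * PowerSeries.X) * PowerSeries.mk a)
      = a (n + 1) - Q * a n := by
  rw [sub_mul, one_mul, mul_assoc, map_sub, PowerSeries.coeff_C_mul,
    PowerSeries.coeff_succ_X_mul, PowerSeries.coeff_mk, PowerSeries.coeff_mk]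

/-- Constant coefficient of `(1 - X) * B`. -/
theorem s27zf_coeff_zero_one_sub_X_mul (B : PowerSeries ℤ) :
    PowerSeries.coeff 0 ((1 - PowerSeries.X) * B) = PowerSeries.coeff 0 B := by
  rw [sub_mul, one_mul, map_sub, PowerSeries.coeff_zero_X_mul, sub_zero]

/-- Higher coefficients of `(1 - X) * B`. -/
theorem s27zf_coeff_succ_one_sub_X_mul (B : PowerSeries ℤ) (n : ℕ) :
    PowerSeries.coeff (n + 1) ((1 - PowerSeries.X) * B)
      = PowerSeries.coeff (n + 1) B - PowerSeries.coeff n B := by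
  rw [sub_mul, one_mul, map_sub, PowerSeries.coeff_succ_X_mul]

/-- Telescoping: the sum of the first `N + 1` coefficients of `(1 - X) * B` is the `N`-th
coefficient of `B`. -/
theorem s27zf_sum_coeff_one_sub_X_mul (B : PowerSeries ℤ) (N : ℕ) :
    ∑ n ∈ Finset.range (N + 1), PowerSeries.coeff n ((1 - PowerSeries.X) * B)
      = PowerSeries.coeff N B := by
  induction N with
  | zero => simp [s27zf_coeff_zero_one_sub_X_mul]
  | succ N ih =>
    rw [Finset.sum_range_succ, ih, s27zf_coeff_succ_one_sub_X_mul]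
    ring

/-- The coefficients of `(1 - X)(1 - Q X) Σ a n X^n` from degree `2` on. -/
theorem s27zf_coeff_add_two (Q : ℤ) (a : ℕ → ℤ) (n : ℕ) :
    PowerSeries.coeff (n + 2)
        ((1 - PowerSeries.X) * ((1 - PowerSeries.C Q * PowerSeries.X) * PowerSeries.mk a))
      = a (n + 2) - (Q + 1) * a (n + 1) + Q * a n := by
  rw [show n + 2 = (n + 1) + 1 from rfl, s27zf_coeff_succ_one_sub_X_mul, s27zf_coeff_succ_B,
    s27zf_coeff_succ_B]
  ring

/-- **Cell ZF2 (LPOLY-ALG).** -/
theorem s27z_lpoly_of_counts (Q : ℤ) (hQ : 1 < Q) (g : ℕ) (h : ℤ) (a : ℕ → ℤ) (h0 : a 0 = 1)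
    (hbig : ∀ n : ℕ, (2 * g : ℤ) - 1 ≤ n → (Q - 1) * a n = h * (Q ^ (n + 1 - g) - 1))
    (hmid : 1 ≤ g → (Q - 1) * a (2 * g - 2) = (Q ^ g - 1) + (h - 1) * (Q ^ (g - 1) - 1)) :
    ∃ L : Polynomial ℤ, L.natDegree = 2 * g ∧ L.coeff 0 = 1 ∧ L.leadingCoeff = Q ^ g ∧
      L.eval 1 = h ∧
      (1 - PowerSeries.X) * (1 - PowerSeries.C Q * PowerSeries.X) * PowerSeries.mk a
        = (L : PowerSeries ℤ) := by
  have hQ1 : Q - 1 ≠ 0 := by omega
  have hQ0 : Q ≠ 0 := by omega
  set B : PowerSeries ℤ := (1 - PowerSeries.C Q * PowerSeries.X) * PowerSeries.mk a with hB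
  set P : PowerSeries ℤ := (1 - PowerSeries.X) * B with hP
  have hPeq : (1 - PowerSeries.X) * (1 - PowerSeries.C Q * PowerSeries.X) * PowerSeries.mk a
      = P := by rw [hP, hB, mul_assoc]
  -- the general value `(Q - 1) a m = h (Q^(m+1-g) - 1)` in a convenient shape
  have hbig' : ∀ m : ℕ, 2 * g ≤ m + 1 → (Q - 1) * a m = h * (Q ^ (m + 1 - g) - 1) := by
    intro m hm
    apply hbig
    have : ((2 * g : ℕ) : ℤ) ≤ ((m + 1 : ℕ) : ℤ) := by exact_mod_cast hm
    push_cast at this
    linarith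
  -- vanishing of the coefficients above `2 g`
  have hvan : ∀ n : ℕ, 2 * g + 1 ≤ n → PowerSeries.coeff n P = 0 := by
    intro n hn
    rcases Nat.lt_or_ge n 2 with hn2 | hn2
    · -- only possible for `g = 0`, `n = 1`
      have hg : g = 0 := by omega
      have hn1 : n = 1 := by omega
      subst hg
      subst hn1
      rw [hP, hB, show (1 : ℕ) = 0 + 1 from rfl, s27zf_coeff_succ_one_sub_X_mul,
        s27zf_coeff_succ_B, s27zf_coeff_zero_B]
      have e1 := hbig' 1 (by omega)
      have e0 := hbig' 0 (by omega)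
      simp only [zero_add, Nat.sub_zero, pow_one] at e0 e1
      apply mul_left_cancel₀ hQ1
      have : (Q - 1) * (a 1 - Q * a 0 - a 0)
          = (Q - 1) * a 1 - (Q + 1) * ((Q - 1) * a 0) := by ring
      rw [this, e1, e0]
      ring
    obtain ⟨m, rfl⟩ : ∃ m, n = m + 2 := ⟨n - 2, by omega⟩
    rw [hP, hB, s27zf_coeff_add_two]
    have e2 := hbig' (m + 2) (by omega)
    have e1 := hbig' (m + 1) (by omega)
    have e0 := hbig' m (by omega)
    obtain ⟨j, hj⟩ : ∃ j, m + 1 - g = j := ⟨_, rfl⟩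
    have hj1 : m + 1 + 1 - g = j + 1 := by omega
    have hj2 : m + 2 + 1 - g = j + 2 := by omega
    rw [hj] at e0
    rw [hj1] at e1
    rw [hj2] at e2
    apply mul_left_cancel₀ hQ1
    have : (Q - 1) * (a (m + 2) - (Q + 1) * a (m + 1) + Q * a m)
        = (Q - 1) * a (m + 2) - (Q + 1) * ((Q - 1) * a (m + 1)) + Q * ((Q - 1) * a m) := by ring
    rw [this, e2, e1, e0]
    ring
  -- the coefficient of degree `2 g`
  have hlead : PowerSeries.coeff (2 * g) P = Q ^ g := by
    rcases Nat.eq_zero_or_pos g with hg | hg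
    · subst hg
      rw [hP, hB, Nat.mul_zero, s27zf_coeff_zero_one_sub_X_mul, s27zf_coeff_zero_B, h0, pow_zero]
    · obtain ⟨j, rfl⟩ : ∃ j, g = j + 1 := ⟨g - 1, by omega⟩
      have e2 := hbig' (2 * j + 2) (by omega)
      have e1 := hbig' (2 * j + 1) (by omega)
      have e0 := hmid (by omega)
      have hj0 : 2 * (j + 1) - 2 = 2 * j := by omega
      have hj1 : 2 * j + 1 + 1 - (j + 1) = j + 1 := by omega
      have hj2 : 2 * j + 2 + 1 - (j + 1) = j + 2 := by omega
      have hj3 : j + 1 - 1 = j := by omega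
      rw [hj0, hj3] at e0
      rw [hj1] at e1
      rw [hj2] at e2
      rw [hP, hB, show 2 * (j + 1) = 2 * j + 2 by ring, s27zf_coeff_add_two]
      apply mul_left_cancel₀ hQ1
      have : (Q - 1) * (a (2 * j + 2) - (Q + 1) * a (2 * j + 1) + Q * a (2 * j))
          = (Q - 1) * a (2 * j + 2) - (Q + 1) * ((Q - 1) * a (2 * j + 1))
            + Q * ((Q - 1) * a (2 * j)) := by ring
      rw [this, e2, e1, e0]
      ring
  -- the value at `1`
  have hsum : PowerSeries.coeff (2 * g) B = h := by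
    rcases Nat.eq_zero_or_pos g with hg | hg
    · subst hg
      rw [hB, Nat.mul_zero, s27zf_coeff_zero_B, h0]
      have e0 := hbig' 0 (by omega)
      rw [h0] at e0
      simp only [zero_add, Nat.sub_zero, pow_one, mul_one] at e0
      have e0' : (Q - 1) * 1 = (Q - 1) * h := by linarith
      exact mul_left_cancel₀ hQ1 e0'
    · obtain ⟨j, rfl⟩ : ∃ j, g = j + 1 := ⟨g - 1, by omega⟩
      have e2 := hbig' (2 * j + 2) (by omega)
      have e1 := hbig' (2 * j + 1) (by omega)
      have hj1 : 2 * j + 1 + 1 - (j + 1) = j + 1 := by omega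
      have hj2 : 2 * j + 2 + 1 - (j + 1) = j + 2 := by omega
      rw [hj1] at e1
      rw [hj2] at e2
      rw [hB, show 2 * (j + 1) = (2 * j + 1) + 1 by ring, s27zf_coeff_succ_B]
      apply mul_left_cancel₀ hQ1
      have : (Q - 1) * (a (2 * j + 1 + 1) - Q * a (2 * j + 1))
          = (Q - 1) * a (2 * j + 2) - Q * ((Q - 1) * a (2 * j + 1)) := by ring
      rw [this, e2, e1]
      ring
  -- the polynomial
  refine ⟨PowerSeries.trunc (2 * g + 1) P, ?_, ?_, ?_, ?_, ?_⟩
  · -- natDegree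
    apply le_antisymm
    · have := PowerSeries.natDegree_trunc_lt P (2 * g)
      omega
    · apply Polynomial.le_natDegree_of_ne_zero
      rw [PowerSeries.coeff_trunc, if_pos (by omega), hlead]
      exact pow_ne_zero _ hQ0
  · rw [PowerSeries.coeff_trunc, if_pos (by omega), hP, s27zf_coeff_zero_one_sub_X_mul, hB,
      s27zf_coeff_zero_B, h0]
  · have hdeg : (PowerSeries.trunc (2 * g + 1) P).natDegree = 2 * g := by
      apply le_antisymm
      · have := PowerSeries.natDegree_trunc_lt P (2 * g)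
        omega
      · apply Polynomial.le_natDegree_of_ne_zero
        rw [PowerSeries.coeff_trunc, if_pos (by omega), hlead]
        exact pow_ne_zero _ hQ0
    rw [Polynomial.leadingCoeff, hdeg, PowerSeries.coeff_trunc, if_pos (by omega), hlead]
  · rw [Polynomial.eval_eq_sum_range' (PowerSeries.natDegree_trunc_lt P (2 * g))]
    rw [← hsum, ← s27zf_sum_coeff_one_sub_X_mul B (2 * g)]
    apply Finset.sum_congr rfl
    intro n hn
    rw [PowerSeries.coeff_trunc, if_pos (Finset.mem_range.mp hn), one_pow, mul_one]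
  · rw [hPeq]
    ext n
    rw [Polynomial.coeff_coe, PowerSeries.coeff_trunc]
    split_ifs with hn
    · rfl
    · exact hvan n (by omega)

end Fermat.Agent.S27
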