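/-
S27 / block (Z), cell ZF1 CLASSSUM, unconditional wrapper (helper7).

`s27z_classSum'` : the three counting identities for a `p ^ r`-Frobenius `σ` (hypotheses of
`Zeta/ClassSum.lean` discharged by cells ZD `s27z_count`, `s27z_finite_fixedPic` and ZE
`s27z_finite_eff`), and `s27z_zeta_rational` : the rationality of the zeta function
(ZF1 + ZF2 `s27z_lpoly_of_counts`).
-/
import Mathlib
import Fermat.Agent.S27.Zeta.ClassSum
import Fermat.Agent.S27.Zeta.Count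
import Fermat.Agent.S27.Zeta.FixedPic
import Fermat.Agent.S27.Zeta.Fin
import Fermat.Agent.S27.Zeta.LPolyAlg

set_option autoImplicit false
set_option linter.unusedSectionVars false

noncomputable section

namespace Fermat.Agent.S27

open AlgebraicCurve Fermat.Agent.JT3
open scoped Pointwise

universe u v
variable {k : Type u} {E : Type v} [Field k] [Field E] [Algebra k E]
variable [IsAlgClosed k] {p : ℕ} [Fact p.Prime] [CharP k p] {x : E} (hx : rt_IsSepGen k x)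
  {r : ℕ} (hr : 0 < r) {σ : s27z_stab k E} (hσ : s27z_IsFrob (p ^ r) σ)
  (w₀ : Place k E) (hw₀ : σ • w₀ = w₀) (g : ℕ) (W : Divisor k E)
  (hRR : ∀ A : Divisor k E, (Module.finrank k ↥(riemannRochSpace A) : ℤ) =
    Divisor.degree A + 1 - g + Module.finrank k ↥(riemannRochSpace (W - A)))

include hr hσ hw₀ hRR

/-- **cell ZF1 CLASSSUM**, unconditional: (i) ∧ (ii) ∧ (iii) of the (Z) table -/
theorem s27z_classSum' :
    ((s27z_effCount σ 0 : ℤ) = 1) ∧
    (∀ n : ℕ, (2 * g : ℤ) - 1 ≤ n → ((p : ℤ) ^ r - 1) * (s27z_effCount σ n : ℤ) =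
      (s27z_fixCount hx σ : ℤ) * (((p : ℤ) ^ r) ^ (n + 1 - g) - 1)) ∧
    (1 ≤ g → ((p : ℤ) ^ r - 1) * (s27z_effCount σ (2 * g - 2) : ℤ) =
      (((p : ℤ) ^ r) ^ g - 1) + ((s27z_fixCount hx σ : ℤ) - 1) * (((p : ℤ) ^ r) ^ (g - 1) - 1)) :=
  s27z_classSum hx (Fact.out : p.Prime).pos (s27z_count hx hr hσ)
    (s27z_finite_fixedPic hx hr hσ) (s27z_finite_eff hx hr hσ) w₀ hw₀ g W hRR

/-- **rationality of the zeta function** of a `p ^ r`-Frobenius `σ` with a fixed place: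
`(1 - T)(1 - Q T) Z_σ(T) = L(T)`, `L ∈ ℤ[T]` of degree `2g`, `L(0) = 1`, leading coefficient
`Q ^ g`, `L(1) = #Pic0^σ` -/
theorem s27z_zeta_rational :
    ∃ L : Polynomial ℤ, L.natDegree = 2 * g ∧ L.coeff 0 = 1 ∧
      L.leadingCoeff = ((p : ℤ) ^ r) ^ g ∧ L.eval 1 = (s27z_fixCount hx σ : ℤ) ∧
      (1 - PowerSeries.X) * (1 - PowerSeries.C ((p : ℤ) ^ r) * PowerSeries.X) * s27z_zeta σ
        = (L : PowerSeries ℤ) := by
  obtain ⟨h0, hbig, hmid⟩ := s27z_classSum' hx hr hσ w₀ hw₀ g W hRR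
  have hQ : (1 : ℤ) < (p : ℤ) ^ r := by
    have hp : 1 < p := (Fact.out : p.Prime).one_lt
    have : 1 < p ^ r := Nat.one_lt_pow (Nat.pos_iff_ne_zero.1 hr) hp
    exact_mod_cast this
  exact s27z_lpoly_of_counts ((p : ℤ) ^ r) hQ g (s27z_fixCount hx σ)
    (fun n => (s27z_effCount σ n : ℤ)) h0 hbig hmid

end Fermat.Agent.S27
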