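/-
S27 / block (Z), cell ZL = (DESC) (helper23).  Prefix `s27zq_`.

`E / k` a function field with a separating generator `x` over an algebraically closed field `k` of
characteristic `p` which is the union of its finite subfields.  Then `E` carries a `p^r`-FROBENIUS:
a ring automorphism `σ` with `σ c = c ^ (p^r)` on `k` and every element of `E` of finite orbit.

Construction: `τ_R : k(x) → E`, `u(x) ↦ u^{(p^R)}(x)` (coefficientwise Frobenius), extended to
`E = k(x)(y)` (`y` a primitive element) by `y ↦ y`, for `R` a common period of the coefficients of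
the minimal polynomial of `y`.
-/
import Mathlib
import Fermat.Agent.S27.Zeta.Defs

set_option autoImplicit false
set_option linter.unusedSectionVars false
set_option linter.unusedVariables false
set_option linter.style.haveILetI false

noncomputable section

namespace Fermat.Agent.S27

open AlgebraicCurve Fermat.Agent.JT3 Polynomial IntermediateField

universe u v
variable {k : Type u} {E : Type v} [Field k] [Field E] [Algebra k E]

/-! ### periods in `k` -/

section Period

variable (p : ℕ)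

theorem s27zq_fix_mul {c : k} {N : ℕ} (h : c ^ p ^ N = c) (j : ℕ) : c ^ p ^ (N * j) = c := by
  induction j with
  | zero => simp
  | succ j ih => rw [mul_add, mul_one, pow_add, pow_mul, ih, h]

theorem s27zq_per_finset (hk : ∀ c : k, ∃ N, 0 < N ∧ c ^ p ^ N = c) (S : Finset k) :
    ∃ N, 0 < N ∧ ∀ c ∈ S, c ^ p ^ N = c := by
  classical
  induction S using Finset.induction_on with
  | empty => exact ⟨1, one_pos, fun c hc => absurd hc (Finset.notMem_empty c)⟩
  | insert a S _ ih =>
      obtain ⟨N, hN, hS⟩ := ih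
      obtain ⟨N', hN', ha⟩ := hk a
      refine ⟨N * N', Nat.mul_pos hN hN', fun c hc => ?_⟩
      rcases Finset.mem_insert.mp hc with rfl | hc
      · rw [mul_comm]; exact s27zq_fix_mul p ha N
      · exact s27zq_fix_mul p (hS c hc) N'

end Period

/-! ### the coefficientwise Frobenius on `k(x)` -/

section Tau

variable {p : ℕ} [Fact p.Prime] [CharP k p] {x : E} (hx : Transcendental k x)

/-- `r ↦ r^{(p^R)}(x)` on polynomials. -/
def s27zq_psi (x : E) (p : ℕ) [Fact p.Prime] [CharP k p] (R : ℕ) : k[X] →+* E :=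
  ((aeval x : k[X] →ₐ[k] E) : k[X] →+* E).comp (Polynomial.mapRingHom (iterateFrobenius k p R))

theorem s27zq_psi_apply (R : ℕ) (r : k[X]) :
    s27zq_psi x p R r = aeval x (r.map (iterateFrobenius k p R)) := rfl

include hx in
theorem s27zq_psi_ne_zero (R : ℕ) {r : k[X]} (hr : r ≠ 0) : s27zq_psi x p R r ≠ 0 := by
  rw [s27zq_psi_apply]
  intro h0
  have h1 : r.map (iterateFrobenius k p R) ≠ 0 :=
    (Polynomial.map_ne_zero_iff (iterateFrobenius_inj k p R)).2 hr
  exact hx ⟨_, h1, h0⟩

include hx in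
theorem s27zq_psi_mem (R : ℕ) :
    nonZeroDivisors k[X] ≤ (nonZeroDivisors E).comap (s27zq_psi x p R) := by
  intro r hr
  rw [Submonoid.mem_comap]
  exact mem_nonZeroDivisors_of_ne_zero (s27zq_psi_ne_zero hx R (nonZeroDivisors.ne_zero hr))

/-- **the coefficientwise `p^R`-Frobenius** `k(x) → E`. -/
def s27zq_tau (R : ℕ) : ↥k⟮x⟯ →+* E :=
  (RatFunc.liftRingHom (s27zq_psi x p R) (s27zq_psi_mem hx R)).comp
    ((RatFunc.algEquivOfTranscendental x hx).symm : ↥k⟮x⟯ →+* RatFunc k)

theorem s27zq_tau_apply (R : ℕ) (u : ↥k⟮x⟯) {r s : k[X]} (hs : aeval x s ≠ 0)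
    (hu : (u : E) = aeval x r / aeval x s) :
    s27zq_tau hx R u = aeval x (r.map (iterateFrobenius k p R)) /
      aeval x (s.map (iterateFrobenius k p R)) := by
  have hs0 : s ≠ 0 := by
    rintro rfl
    exact hs (map_zero _)
  have h1 : (RatFunc.algEquivOfTranscendental x hx).symm u =
      algebraMap k[X] (RatFunc k) r / algebraMap k[X] (RatFunc k) s := by
    rw [AlgEquiv.symm_apply_eq, map_div₀, RatFunc.algEquivOfTranscendental_algebraMap,
      RatFunc.algEquivOfTranscendental_algebraMap]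
    apply Subtype.ext
    rw [hu]
    simp
  have h2 : s27zq_tau hx R u = RatFunc.liftRingHom (s27zq_psi x p R) (s27zq_psi_mem hx R)
      ((RatFunc.algEquivOfTranscendental x hx).symm u) := rfl
  rw [h2, h1, RatFunc.liftRingHom_apply_div]
  rfl

theorem s27zq_tau_const (R : ℕ) (c : k) :
    s27zq_tau hx R (algebraMap k ↥k⟮x⟯ c) = algebraMap k E (c ^ p ^ R) := by
  rw [s27zq_tau_apply hx R _ (r := C c) (s := 1) (by simp) (by simp)]
  simp [iterateFrobenius_def]

theorem s27zq_tau_gen (R : ℕ) : s27zq_tau hx R (AdjoinSimple.gen k x) = x := by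
  rw [s27zq_tau_apply hx R _ (r := X) (s := 1) (by simp) (by simp)]
  simp

theorem s27zq_map_frob_eq {r : k[X]} {N : ℕ} (h : ∀ i, (r.coeff i) ^ p ^ N = r.coeff i) :
    r.map (iterateFrobenius k p N) = r := by
  ext i
  rw [coeff_map, iterateFrobenius_def, h i]

/-- every element of `k(x)` is fixed by `τ_{N j}` for a suitable `N > 0` and all `j`. -/
theorem s27zq_tau_fix (hk : ∀ c : k, ∃ N, 0 < N ∧ c ^ p ^ N = c) (u : ↥k⟮x⟯) :
    ∃ N, 0 < N ∧ ∀ j, s27zq_tau hx (N * j) u = (u : E) := by
  classical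
  obtain ⟨r, s, hrs⟩ := (IntermediateField.mem_adjoin_simple_iff k _).1 u.2
  by_cases hs : aeval x s = 0
  · refine ⟨1, one_pos, fun j => ?_⟩
    have hu0 : u = 0 := by
      apply Subtype.ext
      rw [hrs, hs, div_zero]
      rfl
    rw [hu0, map_zero]
    rfl
  obtain ⟨N, hN, hS⟩ := s27zq_per_finset p hk (r.coeffs ∪ s.coeffs)
  refine ⟨N, hN, fun j => ?_⟩
  have hfix : ∀ q : k[X], q.coeffs ⊆ r.coeffs ∪ s.coeffs →
      q.map (iterateFrobenius k p (N * j)) = q := by
    intro q hq
    apply s27zq_map_frob_eq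
    intro i
    by_cases hi : q.coeff i = 0
    · rw [hi, zero_pow (pow_ne_zero _ (Fact.out : p.Prime).ne_zero)]
    · exact s27zq_fix_mul p (hS _ (hq (Polynomial.coeff_mem_coeffs hi))) j
  rw [s27zq_tau_apply hx (N * j) u hs hrs, hfix r Finset.subset_union_left,
    hfix s Finset.subset_union_right, hrs]

/-- a common period for finitely many elements of `k(x)`. -/
theorem s27zq_tau_fix_finset (hk : ∀ c : k, ∃ N, 0 < N ∧ c ^ p ^ N = c) (T : Finset ↥k⟮x⟯) :
    ∃ N, 0 < N ∧ ∀ u ∈ T, ∀ j, s27zq_tau hx (N * j) u = (u : E) := by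
  classical
  induction T using Finset.induction_on with
  | empty => exact ⟨1, one_pos, fun u hu => absurd hu (Finset.notMem_empty u)⟩
  | insert a T _ ih =>
      obtain ⟨N, hN, hT⟩ := ih
      obtain ⟨N', hN', ha⟩ := s27zq_tau_fix hx hk a
      refine ⟨N * N', Nat.mul_pos hN hN', fun u hu j => ?_⟩
      rcases Finset.mem_insert.mp hu with rfl | hu
      · have := ha (N * j)
        rwa [show N' * (N * j) = N * N' * j by ring] at this
      · have := hT u hu (N' * j)
        rwa [show N * (N' * j) = N * N' * j by ring] at this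

end Tau

/-! ### extension of a ring homomorphism to a simple algebraic extension -/

section Ext

/-- a ring homomorphism `τ : L → E` such that the minimal polynomial of a generator `y` of `E / L`
is `τ`-invariant extends to a ring endomorphism of `E` fixing `y`. -/
theorem s27zq_exists_ext {L : Type*} {E : Type*} [Field L] [Field E] [Algebra L E] {y : E}
    (hy : IsIntegral L y) (hy₂ : Algebra.adjoin L {y} = ⊤) (τ : L →+* E)
    (hτ : (minpoly L y).map τ = (minpoly L y).map (algebraMap L E)) :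
    ∃ φ : E →+* E, (∀ u : L, φ (algebraMap L E u) = τ u) ∧ φ y = y := by
  have hroot : (minpoly L y).eval₂ τ y = 0 := by
    rw [← Polynomial.eval_map, hτ, Polynomial.eval_map, ← Polynomial.aeval_def, minpoly.aeval]
  have hr : (IsAdjoinRoot.mkOfAdjoinEqTop hy hy₂).root = y :=
    IsAdjoinRoot.mkOfAdjoinEqTop_root hy hy₂
  refine ⟨(IsAdjoinRoot.mkOfAdjoinEqTop hy hy₂).lift τ y hroot,
    fun u => (IsAdjoinRoot.mkOfAdjoinEqTop hy hy₂).lift_algebraMap hroot u, ?_⟩
  have h2 := (IsAdjoinRoot.mkOfAdjoinEqTop hy hy₂).lift_root hroot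
  rwa [hr] at h2

end Ext

/-! ### periodic elements of a ring endomorphism of a field -/

section Per

theorem s27zq_pow_fixed {ψ : E →+* E} {f : E} (h : ψ f = f) (n : ℕ) : (ψ ^ n) f = f := by
  induction n with
  | zero => rw [pow_zero]; rfl
  | succ n ih => rw [pow_succ, RingHom.mul_def, RingHom.comp_apply, h, ih]

/-- the elements with finite orbit under a ring endomorphism of a field form a subfield -/
def s27zq_perField (φ : E →+* E) : Subfield E where
  carrier := {f | ∃ N, 0 < N ∧ (φ ^ N) f = f}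
  mul_mem' := by
    rintro a b ⟨N, hN, ha⟩ ⟨M, hM, hb⟩
    refine ⟨N * M, Nat.mul_pos hN hM, ?_⟩
    rw [map_mul]
    congr 1
    · rw [pow_mul]; exact s27zq_pow_fixed ha M
    · rw [mul_comm, pow_mul]; exact s27zq_pow_fixed hb N
  one_mem' := ⟨1, one_pos, map_one _⟩
  add_mem' := by
    rintro a b ⟨N, hN, ha⟩ ⟨M, hM, hb⟩
    refine ⟨N * M, Nat.mul_pos hN hM, ?_⟩
    rw [map_add]
    congr 1
    · rw [pow_mul]; exact s27zq_pow_fixed ha M
    · rw [mul_comm, pow_mul]; exact s27zq_pow_fixed hb N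
  zero_mem' := ⟨1, one_pos, map_zero _⟩
  neg_mem' := by
    rintro a ⟨N, hN, ha⟩
    exact ⟨N, hN, by rw [map_neg, ha]⟩
  inv_mem' := by
    rintro a ⟨N, hN, ha⟩
    exact ⟨N, hN, by rw [map_inv₀, ha]⟩

theorem s27zq_mem_perField {φ : E →+* E} {f : E} :
    f ∈ s27zq_perField φ ↔ ∃ N, 0 < N ∧ (φ ^ N) f = f := Iff.rfl

theorem s27zq_pow_const {φ : E →+* E} {q : ℕ}
    (h : ∀ c : k, φ (algebraMap k E c) = algebraMap k E (c ^ q)) (n : ℕ) (c : k) :
    (φ ^ n) (algebraMap k E c) = algebraMap k E (c ^ q ^ n) := by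
  induction n generalizing c with
  | zero => rw [pow_zero, pow_zero, pow_one]; rfl
  | succ n ih =>
      rw [pow_succ, RingHom.mul_def, RingHom.comp_apply, h, ih, ← pow_mul, pow_succ, mul_comm]

/-- a ring endomorphism of a field all of whose elements are periodic is surjective -/
theorem s27zq_surjective_of_periodic {φ : E →+* E}
    (h : ∀ f : E, ∃ N, 0 < N ∧ (φ ^ N) f = f) : Function.Surjective φ := by
  intro f
  obtain ⟨N, hN, hf⟩ := h f
  obtain ⟨M, rfl⟩ := Nat.exists_eq_succ_of_ne_zero hN.ne'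
  refine ⟨(φ ^ M) f, ?_⟩
  rw [pow_succ', RingHom.mul_def, RingHom.comp_apply] at hf
  exact hf

end Per

/-! ### the Frobenius -/

section Main

variable {p : ℕ} [Fact p.Prime] [CharP k p] {x : E}

/-- **(DESC)**: a function field with a separating generator over an algebraically closed field
`k` of characteristic `p`, all of whose elements lie in finite subfields, carries a
`p ^ r`-Frobenius. -/
theorem s27z_exists_frob [IsAlgClosed k] (hx : rt_IsSepGen k x)
    (hk : ∀ c : k, ∃ N, 0 < N ∧ c ^ (p ^ N) = c) :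
    ∃ r, 0 < r ∧ ∃ σ : s27z_stab k E, s27z_IsFrob (p ^ r) σ := by
  classical
  obtain ⟨hxt, hfd, hsep⟩ := hx
  haveI := hfd
  haveI := hsep
  -- a primitive element
  set pb := Field.powerBasisOfFiniteOfSeparable ↥k⟮x⟯ E with hpb
  set y := pb.gen with hy
  have hyint : IsIntegral ↥k⟮x⟯ y := pb.isIntegral_gen
  have hy₂ : Algebra.adjoin ↥k⟮x⟯ {y} = ⊤ := pb.adjoin_gen_eq_top
  -- a common period of the coefficients of its minimal polynomial
  obtain ⟨R, hR, hfix⟩ := s27zq_tau_fix_finset hxt hk (minpoly ↥k⟮x⟯ y).coeffs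
  have hτ : (minpoly ↥k⟮x⟯ y).map (s27zq_tau hxt R) =
      (minpoly ↥k⟮x⟯ y).map (algebraMap ↥k⟮x⟯ E) := by
    ext i
    rw [coeff_map, coeff_map]
    by_cases hi : (minpoly ↥k⟮x⟯ y).coeff i = 0
    · rw [hi, map_zero, map_zero]
    · have := hfix _ (coeff_mem_coeffs hi) 1
      rw [mul_one] at this
      exact this
  obtain ⟨φ, hφL, hφy⟩ := s27zq_exists_ext hyint hy₂ (s27zq_tau hxt R) hτ
  have hφc : ∀ c : k, φ (algebraMap k E c) = algebraMap k E (c ^ p ^ R) := by
    intro c
    rw [IsScalarTower.algebraMap_apply k ↥k⟮x⟯ E, hφL, s27zq_tau_const]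
  have hφx : φ x = x := by
    calc φ x = φ (algebraMap ↥k⟮x⟯ E (AdjoinSimple.gen k x)) := by
          rw [AdjoinSimple.algebraMap_gen]
      _ = s27zq_tau hxt R (AdjoinSimple.gen k x) := hφL _
      _ = x := s27zq_tau_gen hxt R
  -- everything is periodic
  have hPc : ∀ c : k, algebraMap k E c ∈ s27zq_perField φ := by
    intro c
    obtain ⟨N, hN, hc⟩ := hk c
    refine ⟨N, hN, ?_⟩
    rw [s27zq_pow_const hφc, ← pow_mul, mul_comm, s27zq_fix_mul p hc R]
  have hPx : x ∈ s27zq_perField φ := ⟨1, one_pos, by rw [pow_one]; exact hφx⟩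
  have hPy : y ∈ s27zq_perField φ := ⟨1, one_pos, by rw [pow_one]; exact hφy⟩
  have hPL : ∀ u : ↥k⟮x⟯, algebraMap ↥k⟮x⟯ E u ∈ s27zq_perField φ := by
    intro u
    have hle : k⟮x⟯ ≤ (s27zq_perField φ).toIntermediateField hPc :=
      adjoin_simple_le_iff.2 hPx
    exact hle u.2
  have hPall : ∀ f : E, ∃ N, 0 < N ∧ (φ ^ N) f = f := by
    intro f
    have hf : f ∈ (Algebra.adjoin ↥k⟮x⟯ {y} : Subalgebra ↥k⟮x⟯ E) := by
      rw [hy₂]; exact Algebra.mem_top
    rw [Algebra.adjoin_singleton_eq_range_aeval] at hf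
    obtain ⟨q, rfl⟩ := hf
    rw [← s27zq_mem_perField]
    show aeval y q ∈ s27zq_perField φ
    rw [aeval_eq_sum_range]
    refine Subfield.sum_mem _ fun i _ => ?_
    rw [Algebra.smul_def]
    exact mul_mem (hPL _) (pow_mem hPy i)
  -- the automorphism
  set σ : RingAut E := RingEquiv.ofBijective φ ⟨φ.injective, s27zq_surjective_of_periodic hPall⟩
    with hσ
  have hσφ : ∀ f, σ f = φ f := fun f => rfl
  have hσpow : ∀ (n : ℕ) (f : E), (σ ^ n) f = (φ ^ n) f := by
    intro n
    induction n with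
    | zero => intro f; rw [pow_zero, pow_zero]; rfl
    | succ n ih =>
        intro f
        rw [pow_succ, pow_succ, RingAut.mul_apply, RingHom.mul_def, RingHom.comp_apply, ih, hσφ]
  have hσc : ∀ c : k, σ (algebraMap k E c) = algebraMap k E (c ^ p ^ R) := fun c => by
    rw [hσφ, hφc]
  refine ⟨R, hR, ⟨σ, s27z_mem_stab_of_map_const (pow_pos (Fact.out : p.Prime).pos R) σ hσc⟩,
    ⟨hσc, fun f => ?_⟩⟩
  obtain ⟨N, hN, hf⟩ := hPall f
  exact ⟨N, hN, (hσpow N f).trans hf⟩

end Main

end Fermat.Agent.S27
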