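/-
S27 / block (Z), cell ZG "EULER", part 1 (helper15): the combinatorial (Newton-type) identity for
the zeta function of a permutation.  Prefix `s27zg_`.

For a permutation `ψ` of `P` such that every `ψ ^ r` (`r > 0`) has finitely many fixed points, let
`a n = s27z_permCount ψ n` be the number of `ψ`-invariant finitely supported functions `P → ℕ` of
total mass `n`, and `N m` the number of fixed points of `ψ ^ m`.  Then

  `n * a n = ∑ k < n, N (k + 1) * a (n - (k + 1))`

(the logarithmic derivative of `Z_ψ(T) = ∑ a n Tⁿ` is `∑ N m T^m`).  Proof: double counting of the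
triples `(A, w, m)` with `A` invariant of mass `n`, `ψ ^ m w = w`, and `A ≥` the cycle sum
`∑_{i<m} δ_{ψ^(i+1) w}`.
-/
import Mathlib
import Fermat.Agent.S27.Zeta.Defs

set_option autoImplicit false

namespace Fermat.Agent.S27

open Finset Function
open scoped Classical

universe u
variable {P : Type u} (ψ : Equiv.Perm P)

/-- invariance under `mapDomain ψ` is pointwise invariance -/
theorem s27zg_inv_iff (A : P →₀ ℕ) : Finsupp.mapDomain ψ A = A ↔ ∀ w, A (ψ w) = A w := by
  constructor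
  · intro h w
    have h1 := DFunLike.congr_fun h (ψ w)
    rw [Finsupp.mapDomain_equiv_apply, Equiv.symm_apply_apply] at h1
    exact h1.symm
  · intro h
    ext v
    rw [Finsupp.mapDomain_equiv_apply]
    have h1 := h (ψ.symm v)
    rw [Equiv.apply_symm_apply] at h1
    exact h1.symm

theorem s27zg_inv_pow {A : P →₀ ℕ} (hA : ∀ w, A (ψ w) = A w) (k : ℕ) (w : P) :
    A ((ψ ^ k) w) = A w := by
  induction k with
  | zero => simp
  | succ k ih => rw [pow_succ', Equiv.Perm.mul_apply, hA, ih]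

theorem s27zg_mass_eq (A : P →₀ ℕ) : (A.sum fun _ m => m) = Finsupp.degree A := rfl

theorem s27zg_pow_eq_iff (m : ℕ) (w : P) :
    (ψ ^ m) w = w ↔ minimalPeriod ψ w ∣ m := by
  rw [← isPeriodicPt_iff_minimalPeriod_dvd, IsPeriodicPt, IsFixedPt, Equiv.Perm.iterate_eq_pow]

/-- the cycle sum `∑_{i<m} δ_{ψ^(i+1) w}` -/
noncomputable def s27zg_cyc (m : ℕ) (w : P) : P →₀ ℕ :=
  ∑ i ∈ range m, Finsupp.single ((ψ ^ (i + 1)) w) 1

theorem s27zg_degree_cyc (m : ℕ) (w : P) : Finsupp.degree (s27zg_cyc ψ m w) = m := by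
  simp [s27zg_cyc, map_sum]

theorem s27zg_cyc_apply (m : ℕ) (w v : P) :
    s27zg_cyc ψ m w v = ((range m).filter fun i => (ψ ^ (i + 1)) w = v).card := by
  rw [s27zg_cyc, Finsupp.finsetSum_apply, Finset.card_filter]
  refine Finset.sum_congr rfl fun i _ => ?_
  rw [Finsupp.single_apply]

theorem s27zg_cyc_inv {m : ℕ} {w : P} (h : (ψ ^ m) w = w) (v : P) :
    s27zg_cyc ψ m w (ψ v) = s27zg_cyc ψ m w v := by
  have key : Finsupp.mapDomain ψ (s27zg_cyc ψ m w) = s27zg_cyc ψ m w := by
    unfold s27zg_cyc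
    rw [Finsupp.mapDomain_finsetSum]
    have h1 : ∀ i, Finsupp.mapDomain ψ (Finsupp.single ((ψ ^ (i + 1)) w) 1)
        = Finsupp.single ((ψ ^ (i + 1 + 1)) w) (1 : ℕ) := by
      intro i
      rw [Finsupp.mapDomain_single, pow_succ' ψ (i + 1), Equiv.Perm.mul_apply]
    simp only [h1]
    have h2 := Finset.sum_range_succ (fun i => Finsupp.single ((ψ ^ (i + 1)) w) (1 : ℕ)) m
    have h3 := Finset.sum_range_succ' (fun i => Finsupp.single ((ψ ^ (i + 1)) w) (1 : ℕ)) m
    have h4 : Finsupp.single ((ψ ^ (m + 1)) w) (1 : ℕ) = Finsupp.single ((ψ ^ (0 + 1)) w) 1 := by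
      rw [pow_succ', Equiv.Perm.mul_apply, h, zero_add, pow_one]
    rw [h2, h4] at h3
    exact (add_right_cancel h3).symm
  exact (s27zg_inv_iff ψ _).1 key v

/-- the value of the cycle sum at the base point -/
theorem s27zg_cyc_self (m : ℕ) (w : P) :
    s27zg_cyc ψ m w w = m / minimalPeriod ψ w := by
  rw [s27zg_cyc_apply, ← Nat.card_multiples]
  congr 1
  ext i
  simp only [mem_filter, s27zg_pow_eq_iff]

/-- an invariant function dominates the cycle sum iff it does so at the base point -/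
theorem s27zg_cyc_le_iff {A : P →₀ ℕ} (hA : ∀ w, A (ψ w) = A w) {m : ℕ} {w : P}
    (h : (ψ ^ m) w = w) : s27zg_cyc ψ m w ≤ A ↔ m / minimalPeriod ψ w ≤ A w := by
  constructor
  · intro hle
    have := hle w
    rwa [s27zg_cyc_self] at this
  · intro hle v
    by_cases hv : s27zg_cyc ψ m w v = 0
    · rw [hv]; exact Nat.zero_le _
    · rw [s27zg_cyc_apply] at hv
      obtain ⟨i, hi⟩ := Finset.card_pos.1 (Nat.pos_of_ne_zero hv)
      rw [mem_filter] at hi
      rw [← hi.2, s27zg_inv_pow ψ (s27zg_cyc_inv ψ h), s27zg_inv_pow ψ hA, s27zg_cyc_self]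
      exact hle

/-- a point in the support of an invariant function is periodic -/
theorem s27zg_minimalPeriod_pos {A : P →₀ ℕ} (hA : ∀ w, A (ψ w) = A w) {w : P} (hw : A w ≠ 0) :
    0 < minimalPeriod ψ w := by
  have hmem : ∀ i : ℕ, (ψ ^ i) w ∈ A.support := fun i => by
    rw [Finsupp.mem_support_iff, s27zg_inv_pow ψ hA]; exact hw
  obtain ⟨i, j, hij, he⟩ := Finite.exists_ne_map_eq_of_infinite
    (fun i : ℕ => (⟨(ψ ^ i) w, hmem i⟩ : A.support))
  have he' : (ψ ^ i) w = (ψ ^ j) w := congrArg Subtype.val he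
  apply minimalPeriod_pos_of_mem_periodicPts
  rw [mem_periodicPts]
  rcases lt_or_gt_of_ne hij with hlt | hlt
  · refine ⟨j - i, Nat.sub_pos_of_lt hlt, ?_⟩
    rw [IsPeriodicPt, IsFixedPt, Equiv.Perm.iterate_eq_pow]
    apply (ψ ^ i).injective
    rw [← Equiv.Perm.mul_apply, ← pow_add, Nat.add_sub_cancel' hlt.le, he']
  · refine ⟨i - j, Nat.sub_pos_of_lt hlt, ?_⟩
    rw [IsPeriodicPt, IsFixedPt, Equiv.Perm.iterate_eq_pow]
    apply (ψ ^ j).injective
    rw [← Equiv.Perm.mul_apply, ← pow_add, Nat.add_sub_cancel' hlt.le, he']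

theorem s27zg_degree_mono {A B : P →₀ ℕ} (h : A ≤ B) : Finsupp.degree A ≤ Finsupp.degree B := by
  have : B = A + (B - A) := (add_tsub_cancel_of_le h).symm
  rw [this, map_add]
  exact Nat.le_add_right _ _

/-- the whole orbit of `w` carries the value `A w` -/
theorem s27zg_period_mul_le {A : P →₀ ℕ} (hA : ∀ w, A (ψ w) = A w) (w : P) :
    minimalPeriod ψ w * A w ≤ Finsupp.degree A := by
  rcases Nat.eq_zero_or_pos (minimalPeriod ψ w) with h0 | hpos
  · rw [h0, zero_mul]; exact Nat.zero_le _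
  · have hfix : (ψ ^ (minimalPeriod ψ w * A w)) w = w :=
      (s27zg_pow_eq_iff ψ _ w).2 (dvd_mul_right _ _)
    have hle : s27zg_cyc ψ (minimalPeriod ψ w * A w) w ≤ A := by
      rw [s27zg_cyc_le_iff ψ hA hfix, Nat.mul_div_cancel_left _ hpos]
    have := s27zg_degree_mono hle
    rwa [s27zg_degree_cyc] at this

/-- **the local count**: for an invariant `A` of mass `n` the number of `m = k + 1 ≤ n` with
`ψ ^ m w = w` and cycle sum `≤ A` is `A w`. -/
theorem s27zg_count {A : P →₀ ℕ} (hA : ∀ w, A (ψ w) = A w) {n : ℕ}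
    (hn : Finsupp.degree A = n) (w : P) :
    ((range n).filter fun k => (ψ ^ (k + 1)) w = w ∧ s27zg_cyc ψ (k + 1) w ≤ A).card = A w := by
  set s := minimalPeriod ψ w with hs
  have hbound : s * A w ≤ n := hn ▸ s27zg_period_mul_le ψ hA w
  rcases Nat.eq_zero_or_pos s with h0 | hpos
  · have hAw : A w = 0 := by
      by_contra hne
      have := s27zg_minimalPeriod_pos ψ hA hne
      omega
    rw [hAw, Finset.card_eq_zero, Finset.filter_eq_empty_iff]
    intro k _ hk
    have := (s27zg_pow_eq_iff ψ (k + 1) w).1 hk.1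
    rw [← hs, h0] at this
    simp at this
  · have hset : ((range n).filter fun k => (ψ ^ (k + 1)) w = w ∧ s27zg_cyc ψ (k + 1) w ≤ A)
        = (range (s * A w)).filter fun k => s ∣ k + 1 := by
      ext k
      simp only [mem_filter, mem_range]
      constructor
      · rintro ⟨hk, hfix, hle⟩
        have hdvd := (s27zg_pow_eq_iff ψ (k + 1) w).1 hfix
        rw [s27zg_cyc_le_iff ψ hA hfix] at hle
        refine ⟨?_, hdvd⟩
        obtain ⟨q, hq⟩ := hdvd
        rw [← hs] at hq hle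
        rw [hq, Nat.mul_div_cancel_left _ hpos] at hle
        have : s * q ≤ s * A w := Nat.mul_le_mul_left _ hle
        omega
      · rintro ⟨hk, hdvd⟩
        have hfix : (ψ ^ (k + 1)) w = w := (s27zg_pow_eq_iff ψ (k + 1) w).2 hdvd
        refine ⟨by omega, hfix, ?_⟩
        rw [s27zg_cyc_le_iff ψ hA hfix, ← hs]
        calc (k + 1) / s ≤ (s * A w) / s := Nat.div_le_div_right (by omega)
          _ = A w := Nat.mul_div_cancel_left _ hpos
    rw [hset, Nat.card_multiples, Nat.mul_div_cancel_left _ hpos]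

/-! ### Finiteness -/

variable (hfin : ∀ r, 0 < r → {w : P | (ψ ^ r) w = w}.Finite)

/-- the fixed points of `ψ ^ m`, `0 < m ≤ n` -/
noncomputable def s27zg_T (n : ℕ) : Finset P :=
  (range n).biUnion fun k => (hfin (k + 1) (Nat.succ_pos k)).toFinset

theorem s27zg_mem_T {n : ℕ} {w : P} :
    w ∈ s27zg_T ψ hfin n ↔ ∃ k < n, (ψ ^ (k + 1)) w = w := by
  simp [s27zg_T]

include hfin in
theorem s27zg_support_subset {A : P →₀ ℕ} (hA : ∀ w, A (ψ w) = A w) {n : ℕ}
    (hn : Finsupp.degree A = n) : A.support ⊆ s27zg_T ψ hfin n := by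
  intro w hw
  rw [Finsupp.mem_support_iff] at hw
  have hpos := s27zg_minimalPeriod_pos ψ hA hw
  have hb := s27zg_period_mul_le ψ hA w
  rw [hn] at hb
  rw [s27zg_mem_T]
  refine ⟨minimalPeriod ψ w - 1, ?_, ?_⟩
  · have : minimalPeriod ψ w * 1 ≤ minimalPeriod ψ w * A w :=
      Nat.mul_le_mul_left _ (Nat.pos_of_ne_zero hw)
    omega
  · rw [Nat.sub_add_cancel hpos, s27zg_pow_eq_iff]

include hfin in
/-- **finiteness of the set of invariant functions of given mass** -/
theorem s27z_permCount_finite (n : ℕ) :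
    Finite {A : P →₀ ℕ // Finsupp.mapDomain ψ A = A ∧ (A.sum fun _ m => m) = n} := by
  let T := s27zg_T ψ hfin n
  let φ : {A : P →₀ ℕ // Finsupp.mapDomain ψ A = A ∧ (A.sum fun _ m => m) = n} →
      (T → Fin (n + 1)) := fun A t => ⟨(A : P →₀ ℕ) t, by
        have h1 : (A : P →₀ ℕ) t ≤ Finsupp.degree (A : P →₀ ℕ) := Finsupp.le_degree _ _
        have h2 : Finsupp.degree (A : P →₀ ℕ) = n := A.2.2
        omega⟩
  refine Finite.of_injective φ ?_
  rintro ⟨A, hA1, hA2⟩ ⟨B, hB1, hB2⟩ hAB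
  apply Subtype.ext
  ext w
  by_cases hw : w ∈ T
  · have := congrFun hAB ⟨w, hw⟩
    simpa [φ] using congrArg Fin.val this
  · have hAw : A w = 0 := by
      by_contra h
      exact hw (s27zg_support_subset ψ hfin ((s27zg_inv_iff ψ A).1 hA1) hA2
        (Finsupp.mem_support_iff.2 h))
    have hBw : B w = 0 := by
      by_contra h
      exact hw (s27zg_support_subset ψ hfin ((s27zg_inv_iff ψ B).1 hB1) hB2
        (Finsupp.mem_support_iff.2 h))
    show A w = B w
    rw [hAw, hBw]

include hfin in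
theorem s27zg_setFinite (n : ℕ) :
    {A : P →₀ ℕ | Finsupp.mapDomain ψ A = A ∧ (A.sum fun _ m => m) = n}.Finite := by
  have h := s27z_permCount_finite ψ hfin n
  exact Set.finite_coe_iff.mp h

/-- the finite set of invariant functions of mass `n` -/
noncomputable def s27zg_S (n : ℕ) : Finset (P →₀ ℕ) :=
  (s27zg_setFinite ψ hfin n).toFinset

theorem s27zg_mem_S {n : ℕ} {A : P →₀ ℕ} :
    A ∈ s27zg_S ψ hfin n ↔ (∀ w, A (ψ w) = A w) ∧ Finsupp.degree A = n := by
  rw [s27zg_S, Set.Finite.mem_toFinset, ← s27zg_inv_iff]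
  rfl

theorem s27zg_card_S (n : ℕ) : (s27zg_S ψ hfin n).card = s27z_permCount ψ n := by
  unfold s27z_permCount s27zg_S
  exact (Nat.card_eq_card_finite_toFinset _).symm

/-- the number of fixed points of `ψ ^ m` -/
theorem s27zg_card_fix {m : ℕ} (hm : 0 < m) :
    (hfin m hm).toFinset.card = Nat.card {w : P // (ψ ^ m) w = w} :=
  (Nat.card_eq_card_finite_toFinset _).symm

/-! ### The bijection `A ↦ A - cyc` -/

theorem s27zg_card_ge {n m : ℕ} (hmn : m ≤ n) {w : P} (h : (ψ ^ m) w = w) :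
    ((s27zg_S ψ hfin n).filter fun A => s27zg_cyc ψ m w ≤ A).card
      = (s27zg_S ψ hfin (n - m)).card := by
  set c := s27zg_cyc ψ m w with hc
  have hcinv : ∀ v, c (ψ v) = c v := s27zg_cyc_inv ψ h
  have hcdeg : Finsupp.degree c = m := s27zg_degree_cyc ψ m w
  refine Finset.card_nbij' (fun A => A - c) (fun B => B + c) ?_ ?_ ?_ ?_
  · intro A hA
    rw [Finset.mem_coe, mem_filter, s27zg_mem_S] at hA
    rw [Finset.mem_coe, s27zg_mem_S]
    beta_reduce
    refine ⟨fun v => ?_, ?_⟩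
    · rw [Finsupp.tsub_apply, Finsupp.tsub_apply, hA.1.1, hcinv]
    · have h1 : Finsupp.degree (A - c) + Finsupp.degree c = Finsupp.degree A := by
        rw [← map_add, tsub_add_cancel_of_le hA.2]
      rw [hcdeg, hA.1.2] at h1
      omega
  · intro B hB
    rw [Finset.mem_coe, s27zg_mem_S] at hB
    rw [Finset.mem_coe, mem_filter, s27zg_mem_S]
    beta_reduce
    refine ⟨⟨fun v => ?_, ?_⟩, le_add_self⟩
    · rw [Finsupp.add_apply, Finsupp.add_apply, hB.1, hcinv]
    · rw [map_add, hB.2, hcdeg]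
      omega
  · intro A hA
    rw [Finset.mem_coe, mem_filter] at hA
    exact tsub_add_cancel_of_le hA.2
  · intro B _
    exact add_tsub_cancel_right B c

/-! ### The Newton identity -/

include hfin in
/-- **the Newton identity** `n a_n = ∑_{k<n} N_{k+1} a_{n-(k+1)}` -/
theorem s27zg_newton (n : ℕ) :
    n * s27z_permCount ψ n = ∑ k ∈ range n,
      Nat.card {w : P // (ψ ^ (k + 1)) w = w} * s27z_permCount ψ (n - (k + 1)) := by
  set S := s27zg_S ψ hfin n with hS
  set T := s27zg_T ψ hfin n with hT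
  have h1 : n * s27z_permCount ψ n = ∑ A ∈ S, ∑ w ∈ T, A w := by
    rw [← s27zg_card_S ψ hfin n, mul_comm, ← smul_eq_mul, ← Finset.sum_const]
    refine Finset.sum_congr rfl fun A hA => ?_
    rw [s27zg_mem_S] at hA
    rw [← hA.2]
    exact Finsupp.sum_of_support_subset A (s27zg_support_subset ψ hfin hA.1 hA.2)
      (fun _ m => m) (fun _ _ => rfl)
  have h2 : ∀ A ∈ S, ∀ w ∈ T, A w = ∑ k ∈ range n,
      if (ψ ^ (k + 1)) w = w ∧ s27zg_cyc ψ (k + 1) w ≤ A then 1 else 0 := by
    intro A hA w _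
    rw [s27zg_mem_S] at hA
    rw [← Finset.card_filter, s27zg_count ψ hA.1 hA.2 w]
  rw [h1, Finset.sum_congr rfl fun A hA => Finset.sum_congr rfl fun w hw => h2 A hA w hw]
  rw [Finset.sum_comm]
  rw [Finset.sum_congr rfl fun w _ => Finset.sum_comm]
  rw [Finset.sum_comm]
  refine Finset.sum_congr rfl fun k hk => ?_
  rw [mem_range] at hk
  have h3 : ∀ w ∈ T, (∑ A ∈ S, if (ψ ^ (k + 1)) w = w ∧ s27zg_cyc ψ (k + 1) w ≤ A then 1 else 0)
      = if (ψ ^ (k + 1)) w = w then s27z_permCount ψ (n - (k + 1)) else 0 := by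
    intro w _
    by_cases hw : (ψ ^ (k + 1)) w = w
    · simp only [hw, true_and, if_true]
      rw [← Finset.card_filter, s27zg_card_ge ψ hfin (by omega) hw, s27zg_card_S]
    · simp [hw]
  rw [Finset.sum_congr rfl h3, ← Finset.sum_filter, Finset.sum_const, smul_eq_mul]
  congr 1
  rw [← s27zg_card_fix ψ hfin (Nat.succ_pos k)]
  congr 1
  ext w
  simp only [mem_filter, Set.Finite.mem_toFinset, Set.mem_ofPred_eq, hT, s27zg_mem_T]
  constructor
  · exact fun h => h.2
  · exact fun h => ⟨⟨k, hk, h⟩, h⟩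

/-- the only invariant function of mass `0` is `0` -/
theorem s27zg_permCount_zero : s27z_permCount ψ 0 = 1 := by
  unfold s27z_permCount
  have : Unique {A : P →₀ ℕ // Finsupp.mapDomain ψ A = A ∧ (A.sum fun _ m => m) = 0} :=
    { default := ⟨0, by simp, by simp⟩
      uniq := fun A => Subtype.ext ((Finsupp.degree_eq_zero_iff _).1 A.2.2) }
  exact Nat.card_unique

end Fermat.Agent.S27
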