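/-
S27 / block (Z), cell ZG "EULER", part 2 (helper15): the zeta function of `ψ ^ e` from that of `ψ`.
Prefix `s27zg_`; exports `s27z_euler` (and `s27z_permCount_finite` from `EulerComb.lean`).

  `Z_{ψ^e}(T^e) = ∏_{ζ^e = 1} Z_ψ(ζ T)`

Proof: by the Newton identity (`s27zg_newton`) both sides `G` satisfy `θ G = G · M` for the same
series `M = ∑_{e ∣ m} e · N_m T^m` (`θ = T d/dT`, `N_m` = number of fixed points of `ψ ^ m`) and
have constant term `1`; over a field of characteristic zero this determines `G`.  No Euler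
product, no orbit decomposition, no splitting law is needed.
-/
import Mathlib
import Fermat.Agent.S27.Zeta.EulerComb

set_option autoImplicit false

namespace Fermat.Agent.S27

open Finset PowerSeries

/-! ### The Euler operator `θ = T d/dT` on `ℂ⟦T⟧` -/

/-- the Euler operator `T d/dT` -/
noncomputable def s27zg_theta (f : PowerSeries ℂ) : PowerSeries ℂ :=
  PowerSeries.mk fun n => (n : ℂ) * coeff n f

theorem s27zg_coeff_theta (f : PowerSeries ℂ) (n : ℕ) :
    coeff n (s27zg_theta f) = (n : ℂ) * coeff n f := by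
  rw [s27zg_theta, coeff_mk]

theorem s27zg_theta_mul (f g : PowerSeries ℂ) :
    s27zg_theta (f * g) = s27zg_theta f * g + f * s27zg_theta g := by
  ext n
  rw [s27zg_coeff_theta, map_add, coeff_mul, coeff_mul, coeff_mul, Finset.mul_sum,
    ← Finset.sum_add_distrib]
  refine Finset.sum_congr rfl fun p hp => ?_
  rw [s27zg_coeff_theta, s27zg_coeff_theta]
  have h : (n : ℂ) = (p.1 : ℂ) + (p.2 : ℂ) := by
    rw [← (HasAntidiagonal.mem_antidiagonal.1 hp)]
    push_cast
    rfl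
  rw [h]
  ring

theorem s27zg_theta_rescale (c : ℂ) (f : PowerSeries ℂ) :
    s27zg_theta (rescale c f) = rescale c (s27zg_theta f) := by
  ext n
  rw [s27zg_coeff_theta, coeff_rescale, coeff_rescale, s27zg_coeff_theta]
  ring

theorem s27zg_theta_one : s27zg_theta 1 = 0 := by
  ext n
  rw [s27zg_coeff_theta, coeff_one, map_zero]
  split_ifs with h
  · rw [h]; simp
  · simp

/-- logarithmic derivative of a product of rescalings -/
theorem s27zg_theta_prod {Z Λ : PowerSeries ℂ} (hZ : s27zg_theta Z = Z * Λ) (c : ℕ → ℂ) (j : ℕ) :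
    s27zg_theta (∏ i ∈ range j, rescale (c i) Z)
      = (∏ i ∈ range j, rescale (c i) Z) * ∑ i ∈ range j, rescale (c i) Λ := by
  induction j with
  | zero => simp [s27zg_theta_one]
  | succ j ih =>
      rw [Finset.prod_range_succ, Finset.sum_range_succ, s27zg_theta_mul, ih, s27zg_theta_rescale,
        hZ, map_mul]
      ring

/-- a series is determined by its logarithmic derivative and its constant term -/
theorem s27zg_unique {G H M : PowerSeries ℂ} (hM : coeff 0 M = 0)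
    (hG : s27zg_theta G = G * M) (hH : s27zg_theta H = H * M) (h0 : coeff 0 G = coeff 0 H) :
    G = H := by
  have key : ∀ n, coeff n G = coeff n H := by
    intro n
    induction n using Nat.strong_induction_on with
    | _ n ih =>
      rcases Nat.eq_zero_or_pos n with rfl | hn
      · exact h0
      · have h1 := congrArg (coeff n) hG
        have h2 := congrArg (coeff n) hH
        rw [s27zg_coeff_theta, coeff_mul] at h1 h2
        have h3 : ∑ p ∈ antidiagonal n, coeff p.1 G * coeff p.2 M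
            = ∑ p ∈ antidiagonal n, coeff p.1 H * coeff p.2 M := by
          refine Finset.sum_congr rfl fun p hp => ?_
          by_cases hp2 : p.2 = 0
          · rw [hp2, hM, mul_zero, mul_zero]
          · have hlt : p.1 < n := by
              have := HasAntidiagonal.mem_antidiagonal.1 hp
              omega
            rw [ih p.1 hlt]
        have hn' : (n : ℂ) ≠ 0 := by exact_mod_cast hn.ne'
        apply mul_left_cancel₀ hn'
        rw [h1, h2, h3]
  ext n
  exact key n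

/-! ### Roots of unity -/

theorem s27zg_sum_pow {e : ℕ} {ζ : ℂ} (hζ : IsPrimitiveRoot ζ e) (m : ℕ) :
    ∑ i ∈ range e, (ζ ^ i) ^ m = if e ∣ m then (e : ℂ) else 0 := by
  have h1 : ∀ i, (ζ ^ i) ^ m = (ζ ^ m) ^ i := fun i => by
    rw [← pow_mul, ← pow_mul, mul_comm]
  simp only [h1]
  split_ifs with h
  · rw [(hζ.pow_eq_one_iff_dvd m).2 h]
    simp
  · have hne : ζ ^ m ≠ 1 := fun h' => h ((hζ.pow_eq_one_iff_dvd m).1 h')
    have h2 := mul_geom_sum (ζ ^ m) e
    have h3 : (ζ ^ m) ^ e = 1 := by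
      rw [← pow_mul, mul_comm, pow_mul, hζ.pow_eq_one, one_pow]
    rw [h3, sub_self] at h2
    rcases mul_eq_zero.1 h2 with h4 | h4
    · exact absurd (sub_eq_zero.1 h4) hne
    · exact h4

/-! ### Reindexing an antidiagonal sum -/

theorem s27zg_sum_antidiagonal_mul {e : ℕ} (he : 0 < e) (n' : ℕ) (F : ℕ × ℕ → ℂ)
    (hF : ∀ p : ℕ × ℕ, ¬ e ∣ p.1 → F p = 0) :
    ∑ p ∈ antidiagonal (e * n'), F p = ∑ q ∈ antidiagonal n', F (e * q.1, e * q.2) := by
  have hinj : Function.Injective (fun q : ℕ × ℕ => (e * q.1, e * q.2)) := by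
    intro q q' h
    simp only [Prod.mk.injEq] at h
    exact Prod.ext (Nat.eq_of_mul_eq_mul_left he h.1) (Nat.eq_of_mul_eq_mul_left he h.2)
  rw [← Finset.sum_image (f := F) (g := fun q : ℕ × ℕ => (e * q.1, e * q.2)) hinj.injOn]
  symm
  apply Finset.sum_subset
  · intro p hp
    obtain ⟨q, hq, rfl⟩ := mem_image.1 hp
    rw [HasAntidiagonal.mem_antidiagonal] at hq ⊢
    simp only
    rw [← mul_add, hq]
  · intro p hp hnot
    apply hF
    intro hdvd
    apply hnot
    obtain ⟨a, ha⟩ := hdvd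
    have hsum := HasAntidiagonal.mem_antidiagonal.1 hp
    have h2 : e ∣ p.2 := (Nat.dvd_add_right ⟨a, ha⟩).1 (hsum ▸ dvd_mul_right e n')
    obtain ⟨b, hb⟩ := h2
    refine mem_image.2 ⟨(a, b), ?_, ?_⟩
    · rw [HasAntidiagonal.mem_antidiagonal]
      apply Nat.eq_of_mul_eq_mul_left he
      rw [mul_add, ← ha, ← hb, hsum]
    · ext
      · simp [ha]
      · simp [hb]

/-! ### The zeta function of a permutation -/

universe u
variable {P : Type u} (ψ : Equiv.Perm P)

/-- the series `∑_{m ≥ 1} N_m T^m`, `N_m` the number of fixed points of `ψ ^ m` -/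
noncomputable def s27zg_Lam : PowerSeries ℂ :=
  PowerSeries.mk fun m => if m = 0 then 0 else (Nat.card {w : P // (ψ ^ m) w = w} : ℂ)

theorem s27zg_coeff_Lam_zero : coeff 0 (s27zg_Lam ψ) = 0 := by
  rw [s27zg_Lam, coeff_mk, if_pos rfl]

theorem s27zg_coeff_Lam_succ (k : ℕ) :
    coeff (k + 1) (s27zg_Lam ψ) = (Nat.card {w : P // (ψ ^ (k + 1)) w = w} : ℂ) := by
  rw [s27zg_Lam, coeff_mk, if_neg (Nat.succ_ne_zero k)]

variable (hfin : ∀ r, 0 < r → {w : P | (ψ ^ r) w = w}.Finite)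

include hfin in
/-- the logarithmic derivative of the zeta function -/
theorem s27zg_theta_zeta :
    s27zg_theta (s27z_permZeta ℂ ψ) = s27z_permZeta ℂ ψ * s27zg_Lam ψ := by
  ext n
  rw [s27zg_coeff_theta, mul_comm (s27z_permZeta ℂ ψ), coeff_mul,
    Finset.Nat.sum_antidiagonal_eq_sum_range_succ_mk, Finset.sum_range_succ']
  simp only [s27zg_coeff_Lam_zero, zero_mul, add_zero, s27zg_coeff_Lam_succ, s27z_permZeta,
    coeff_mk]
  have := s27zg_newton ψ hfin n
  exact_mod_cast this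

/-- the series `M = ∑_{e ∣ m} e N_m T^m` -/
noncomputable def s27zg_M (e : ℕ) : PowerSeries ℂ :=
  PowerSeries.mk fun m => if e ∣ m then (e : ℂ) * coeff m (s27zg_Lam ψ) else 0

theorem s27zg_sum_rescale_Lam {e : ℕ} {ζ : ℂ} (hζ : IsPrimitiveRoot ζ e) :
    ∑ i ∈ range e, rescale (ζ ^ i) (s27zg_Lam ψ) = s27zg_M ψ e := by
  ext m
  rw [map_sum, s27zg_M, coeff_mk]
  simp only [coeff_rescale]
  rw [← Finset.sum_mul, s27zg_sum_pow hζ m]
  split_ifs <;> simp

theorem s27zg_coeff_M_zero (e : ℕ) : coeff 0 (s27zg_M ψ e) = 0 := by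
  rw [s27zg_M, coeff_mk, s27zg_coeff_Lam_zero]
  simp

/-- `Λ` of `ψ ^ e` -/
theorem s27zg_coeff_Lam_pow {e : ℕ} (he : 0 < e) (j : ℕ) :
    coeff j (s27zg_Lam (ψ ^ e)) = coeff (e * j) (s27zg_Lam ψ) := by
  rcases Nat.eq_zero_or_pos j with rfl | hj
  · rw [mul_zero, s27zg_coeff_Lam_zero, s27zg_coeff_Lam_zero]
  · have h1 : e * j ≠ 0 := (Nat.mul_pos he hj).ne'
    rw [s27zg_Lam, s27zg_Lam, coeff_mk, coeff_mk, if_neg hj.ne', if_neg h1]
    simp only [← pow_mul]

/-- the series `H = Z_{ψ^e}(T^e)` -/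
noncomputable def s27zg_H (e : ℕ) : PowerSeries ℂ :=
  PowerSeries.mk fun N => if e ∣ N then (s27z_permCount (ψ ^ e) (N / e) : ℂ) else 0

theorem s27zg_coeff_H_mul {e : ℕ} (he : 0 < e) (n' : ℕ) :
    coeff (e * n') (s27zg_H ψ e) = coeff n' (s27z_permZeta ℂ (ψ ^ e)) := by
  rw [s27zg_H, coeff_mk, if_pos (dvd_mul_right e n'), Nat.mul_div_cancel_left _ he,
    s27z_permZeta, coeff_mk]

theorem s27zg_coeff_H_of_not_dvd {e N : ℕ} (h : ¬ e ∣ N) : coeff N (s27zg_H ψ e) = 0 := by
  rw [s27zg_H, coeff_mk, if_neg h]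

theorem s27zg_coeff_M_mul {e : ℕ} (he : 0 < e) (j : ℕ) :
    coeff (e * j) (s27zg_M ψ e) = (e : ℂ) * coeff j (s27zg_Lam (ψ ^ e)) := by
  rw [s27zg_M, coeff_mk, if_pos (dvd_mul_right e j), s27zg_coeff_Lam_pow ψ he]

include hfin in
theorem s27zg_theta_H {e : ℕ} (he : 0 < e) :
    s27zg_theta (s27zg_H ψ e) = s27zg_H ψ e * s27zg_M ψ e := by
  have hfin' : ∀ r, 0 < r → {w : P | ((ψ ^ e) ^ r) w = w}.Finite := fun r hr => by
    have := hfin (e * r) (Nat.mul_pos he hr)
    simpa only [← pow_mul] using this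
  ext N
  rw [s27zg_coeff_theta, coeff_mul]
  by_cases hN : e ∣ N
  · obtain ⟨n', rfl⟩ := hN
    rw [s27zg_sum_antidiagonal_mul he n'
      (fun p => coeff p.1 (s27zg_H ψ e) * coeff p.2 (s27zg_M ψ e))
      (fun p hp => by simp only [s27zg_coeff_H_of_not_dvd ψ hp, zero_mul])]
    simp only [s27zg_coeff_H_mul ψ he, s27zg_coeff_M_mul ψ he]
    have h1 := congrArg (coeff n') (s27zg_theta_zeta (ψ ^ e) hfin')
    rw [s27zg_coeff_theta, coeff_mul] at h1
    rw [Nat.cast_mul, mul_assoc, h1, Finset.mul_sum]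
    refine Finset.sum_congr rfl fun q _ => ?_
    ring
  · rw [s27zg_coeff_H_of_not_dvd ψ hN, mul_zero]
    symm
    apply Finset.sum_eq_zero
    intro p hp
    by_cases h1 : e ∣ p.1
    · have h2 : ¬ e ∣ p.2 := fun h2 => hN (by
        rw [← HasAntidiagonal.mem_antidiagonal.1 hp]
        exact dvd_add h1 h2)
      rw [s27zg_M, coeff_mk, if_neg h2, mul_zero]
    · rw [s27zg_coeff_H_of_not_dvd ψ h1, zero_mul]

include hfin in
/-- **the zeta function of `ψ ^ e`**: `Z_{ψ^e}(T^e) = ∏_{i<e} Z_ψ(ζ^i T)`, coefficientwise. -/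
theorem s27z_euler (e : ℕ) (he : 0 < e) (ζ : ℂ) (hζ : IsPrimitiveRoot ζ e) (N : ℕ) :
    PowerSeries.coeff N (∏ i ∈ Finset.range e, PowerSeries.rescale (ζ ^ i) (s27z_permZeta ℂ ψ))
      = if e ∣ N then (s27z_permCount (ψ ^ e) (N / e) : ℂ) else 0 := by
  have hG := s27zg_theta_prod (s27zg_theta_zeta ψ hfin) (fun i => ζ ^ i) e
  rw [s27zg_sum_rescale_Lam ψ hζ] at hG
  have h0 : coeff 0 (∏ i ∈ Finset.range e, PowerSeries.rescale (ζ ^ i) (s27z_permZeta ℂ ψ))
      = coeff 0 (s27zg_H ψ e) := by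
    rw [coeff_zero_eq_constantCoeff_apply, map_prod]
    have h1 : ∀ i ∈ range e, constantCoeff (rescale (ζ ^ i) (s27z_permZeta ℂ ψ)) = 1 := by
      intro i _
      rw [← coeff_zero_eq_constantCoeff_apply, coeff_rescale, pow_zero, one_mul, s27z_permZeta,
        coeff_mk, s27zg_permCount_zero, Nat.cast_one]
    rw [Finset.prod_congr rfl h1, Finset.prod_const_one, s27zg_H, coeff_mk, if_pos (dvd_zero e),
      Nat.zero_div, s27zg_permCount_zero, Nat.cast_one]
  have h := s27zg_unique (s27zg_coeff_M_zero ψ e) hG (s27zg_theta_H ψ hfin he) h0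
  rw [h, s27zg_H, coeff_mk]

end Fermat.Agent.S27
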