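/-
S27 lottery, (Z) cell ZH (helper5; prefix `s27zh_` for auxiliaries; Mathlib only):

* `s27z_exists_mat` [ZH-a MAT] : every `L ∈ ℤ[X]` with `L(0) = 1` is the reversed characteristic polynomial
  `det (1 - X M)` of an integer matrix `M` of size `deg L`, with `det M = (-1)^deg L * leadingCoeff L`
  (companion matrix of `L.reverse`, realised as multiplication by the root on `AdjoinRoot`);
* `s27z_lpoly_ext` [ZH-b EXT] : if `(1-T)(1-QT) Z₁ = det (1 - T M)`, `(1-T)(1-Q^e T) Zₑ = Lₑ` and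
  `Zₑ(T^e) = ∏_{ζ^e = 1} Z₁(ζ T)`, then `Lₑ(1) = det (1 - M^e)`.
  [`∏_i (1 - ζ^i T)(1 - Q ζ^i T) = (1 - T^e)(1 - Q^e T^e)`, `∏_i det (1 - ζ^i T M) = det (1 - T^e M^e)`.]
-/
import Mathlib

set_option autoImplicit false
set_option linter.style.haveILetI false

open Polynomial

namespace Fermat.Agent.S27

/-- `∏_{i<e} (1 - ζ^i y) = 1 - y^e` in a commutative domain containing the primitive root. -/
theorem s27zh_prod_one_sub {R : Type*} [CommRing R] [IsDomain R] {ζ : R} {e : ℕ} (he : 0 < e)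
    (hζ : IsPrimitiveRoot ζ e) (y : R) :
    ∏ i ∈ Finset.range e, (1 - ζ ^ i * y) = 1 - y ^ e := by
  classical
  haveI : NeZero e := ⟨he.ne'⟩
  have h1 := hζ.pow_sub_pow_eq_prod_sub_mul (1 : R) y he
  rw [one_pow] at h1
  rw [h1]
  have himg : nthRootsFinset e (1 : R) = (Finset.range e).image (fun i => ζ ^ i) := by
    ext μ
    rw [mem_nthRootsFinset he, Finset.mem_image]
    constructor
    · intro hμ
      obtain ⟨i, hi, rfl⟩ := hζ.eq_pow_of_pow_eq_one hμ
      exact ⟨i, Finset.mem_range.2 hi, rfl⟩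
    · rintro ⟨i, -, rfl⟩
      rw [← pow_mul, mul_comm, pow_mul, hζ.pow_eq_one, one_pow]
  rw [himg, Finset.prod_image]
  intro i hi j hj hij
  exact hζ.pow_inj (Finset.mem_range.1 hi) (Finset.mem_range.1 hj) hij

/-- the same identity in an arbitrary (possibly noncommutative) `ℂ`-algebra, as a list product. -/
theorem s27zh_list_prod_one_sub {B : Type*} [Ring B] [Algebra ℂ B] {ζ : ℂ} {e : ℕ} (he : 0 < e)
    (hζ : IsPrimitiveRoot ζ e) (y : B) :
    ((List.range e).map (fun i => (1 : B) - (ζ ^ i) • y)).prod = 1 - y ^ e := by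
  have hC : IsPrimitiveRoot (C ζ : ℂ[X]) e := hζ.map_of_injective C_injective
  have h1 := s27zh_prod_one_sub he hC (X : ℂ[X])
  have h2 : ((List.range e).map (fun i => (1 : ℂ[X]) - (C ζ) ^ i * X)).prod = 1 - X ^ e := by
    rw [← h1, ← List.prod_toFinset _ (List.nodup_range), List.toFinset_range]
  have h3 := congrArg (aeval y) h2
  rw [map_list_prod, List.map_map] at h3
  simp only [map_sub, map_one, map_pow, aeval_X] at h3
  rw [← h3]
  congr 1
  refine List.map_congr_left fun i _ => ?_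
  simp [Algebra.smul_def]

/-! ### [ZH-a MAT] -/

/-- a monic polynomial over a nontrivial commutative ring is the characteristic polynomial of a matrix
(the matrix of multiplication by the root on `AdjoinRoot g`, i.e. the companion matrix). -/
theorem s27zh_exists_charpoly_eq {R : Type*} [CommRing R] [Nontrivial R] (g : R[X]) (hg : g.Monic) :
    ∃ (n : ℕ) (M : Matrix (Fin n) (Fin n) R), n = g.natDegree ∧ M.charpoly = g := by
  refine ⟨(AdjoinRoot.powerBasis' hg).dim,
    Algebra.leftMulMatrix (AdjoinRoot.powerBasis' hg).basis (AdjoinRoot.powerBasis' hg).gen,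
    rfl, ?_⟩
  rw [charpoly_leftMulMatrix]
  symm
  refine minpoly.unique' R _ hg ?_ ?_
  · show aeval (AdjoinRoot.root g) g = 0
    rw [AdjoinRoot.aeval_eq, AdjoinRoot.mk_self]
  · intro q hq
    by_cases hq0 : q = 0
    · exact Or.inl hq0
    · right
      show aeval (AdjoinRoot.root g) q ≠ 0
      rw [AdjoinRoot.aeval_eq, Ne, AdjoinRoot.mk_eq_zero]
      exact hg.not_dvd_of_degree_lt hq0 hq

theorem s27z_exists_mat (L : ℤ[X]) (h0 : L.coeff 0 = 1) :
    ∃ M : Matrix (Fin L.natDegree) (Fin L.natDegree) ℤ,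
      M.charpolyRev = L ∧ M.det = (-1) ^ L.natDegree * L.leadingCoeff := by
  have hc : L.coeff 0 ≠ 0 := by rw [h0]; exact one_ne_zero
  have hntd : L.natTrailingDegree = 0 := natTrailingDegree_eq_zero.2 (Or.inr hc)
  have hdeg : L.reverse.natDegree = L.natDegree := by
    rw [reverse_natDegree, hntd, Nat.sub_zero]
  have hmonic : L.reverse.Monic := by
    rw [Monic, reverse_leadingCoeff, trailingCoeff, hntd, h0]
  have hrr : L.reverse.reverse = L := by
    ext n
    rw [coeff_reverse, coeff_reverse, hdeg, revAt_invol]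
  obtain ⟨n, M₀, hn, hM₀⟩ := s27zh_exists_charpoly_eq L.reverse hmonic
  have hdeg' : n = L.natDegree := hn.trans hdeg
  refine ⟨Matrix.reindex (finCongr hdeg') (finCongr hdeg') M₀, ?_, ?_⟩
  · rw [← Matrix.reverse_charpoly, Matrix.charpoly_reindex, hM₀, hrr]
  · rw [Matrix.det_eq_sign_charpoly_coeff, Matrix.charpoly_reindex, hM₀, coeff_zero_reverse,
      Fintype.card_fin]

/-! ### [ZH-b EXT] -/

section ext

variable {d : ℕ}

/-- the ring homomorphism `ℤ[X] → ℂ⟦X⟧`. -/
noncomputable def s27zh_psi : ℤ[X] →+* PowerSeries ℂ :=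
  (PowerSeries.map (Int.castRingHom ℂ)).comp Polynomial.coeToPowerSeries.ringHom

theorem s27zh_psi_apply (p : ℤ[X]) :
    s27zh_psi p = PowerSeries.map (Int.castRingHom ℂ) (p : PowerSeries ℤ) := rfl

theorem s27zh_psi_X : s27zh_psi X = PowerSeries.X := by
  rw [s27zh_psi_apply, Polynomial.coe_X, PowerSeries.map_X]

theorem s27zh_psi_C (z : ℤ) : s27zh_psi (C z) = (z : PowerSeries ℂ) := by
  rw [s27zh_psi_apply, Polynomial.coe_C, PowerSeries.map_C]
  simp

theorem s27zh_coeff_psi (p : ℤ[X]) (n : ℕ) :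
    PowerSeries.coeff n (s27zh_psi p) = ((p.coeff n : ℤ) : ℂ) := by
  rw [s27zh_psi_apply, PowerSeries.coeff_map, Polynomial.coeff_coe]
  rfl

theorem s27zh_psi_injective : Function.Injective s27zh_psi := by
  intro p q h
  ext n
  have := congrArg (PowerSeries.coeff n) h
  rw [s27zh_coeff_psi, s27zh_coeff_psi] at this
  exact Int.cast_injective this

/-- an integer matrix over a commutative ring `S`. -/
noncomputable def s27zh_cast (S : Type*) [CommRing S] (N : Matrix (Fin d) (Fin d) ℤ) :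
    Matrix (Fin d) (Fin d) S :=
  (Int.castRingHom S).mapMatrix N

theorem s27zh_cast_apply (S : Type*) [CommRing S] (N : Matrix (Fin d) (Fin d) ℤ) (i j : Fin d) :
    s27zh_cast S N i j = ((N i j : ℤ) : S) := rfl

theorem s27zh_cast_pow (S : Type*) [CommRing S] (N : Matrix (Fin d) (Fin d) ℤ) (e : ℕ) :
    s27zh_cast S (N ^ e) = s27zh_cast S N ^ e :=
  map_pow _ N e

/-- ring homomorphisms commute with `det (1 - t • N)` for integer matrices `N`. -/
theorem s27zh_map_det {S S' : Type*} [CommRing S] [CommRing S'] (f : S →+* S') (t : S)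
    (N : Matrix (Fin d) (Fin d) ℤ) :
    f (1 - t • s27zh_cast S N).det = (1 - (f t) • s27zh_cast S' N).det := by
  rw [RingHom.map_det]
  congr 1
  refine Matrix.ext fun i j => ?_
  rw [RingHom.mapMatrix_apply, Matrix.map_apply, Matrix.sub_apply, Matrix.sub_apply,
    Matrix.smul_apply, Matrix.smul_apply, s27zh_cast_apply, s27zh_cast_apply, map_sub, smul_eq_mul,
    smul_eq_mul, map_mul, map_intCast]
  congr 1
  by_cases hij : i = j
  · subst hij; simp
  · simp [hij]

theorem s27zh_charpolyRev_eq (N : Matrix (Fin d) (Fin d) ℤ) :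
    N.charpolyRev = (1 - (X : ℤ[X]) • s27zh_cast ℤ[X] N).det := by
  rfl

/-- Step 1: `ψ (charpolyRev N) = det (1 - X • N)`. -/
theorem s27zh_psi_charpolyRev (N : Matrix (Fin d) (Fin d) ℤ) :
    s27zh_psi N.charpolyRev =
      (1 - (PowerSeries.X : PowerSeries ℂ) • s27zh_cast (PowerSeries ℂ) N).det := by
  rw [s27zh_charpolyRev_eq, s27zh_map_det, s27zh_psi_X]

/-- Step 2: rescaling. -/
theorem s27zh_rescale_det (a : ℂ) (A : Matrix (Fin d) (Fin d) ℤ) :
    PowerSeries.rescale a
        (1 - (PowerSeries.X : PowerSeries ℂ) • s27zh_cast (PowerSeries ℂ) A).det =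
      (1 - a • ((PowerSeries.X : PowerSeries ℂ) • s27zh_cast (PowerSeries ℂ) A)).det := by
  rw [s27zh_map_det, PowerSeries.rescale_X]
  congr 2
  refine Matrix.ext fun i j => ?_
  rw [Matrix.smul_apply, Matrix.smul_apply, Matrix.smul_apply, smul_eq_mul, smul_eq_mul,
    PowerSeries.smul_eq_C_mul, mul_assoc]

/-- Step 5: expansion. -/
theorem s27zh_expand_det {e : ℕ} (he : e ≠ 0) (A : Matrix (Fin d) (Fin d) ℤ) :
    PowerSeries.expand e he
        (1 - (PowerSeries.X : PowerSeries ℂ) • s27zh_cast (PowerSeries ℂ) A).det =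
      (1 - ((PowerSeries.X : PowerSeries ℂ) ^ e) • s27zh_cast (PowerSeries ℂ) A).det := by
  have := s27zh_map_det (PowerSeries.expand e he : PowerSeries ℂ →ₐ[ℂ] PowerSeries ℂ).toRingHom
    (PowerSeries.X : PowerSeries ℂ) A
  rw [AlgHom.toRingHom_eq_coe, RingHom.coe_coe, PowerSeries.expand_X] at this
  exact this

/-- Steps 3+4: `∏_i ψ(P₁)(ζ^i T) = ψ(P_e)(T^e)`. -/
theorem s27zh_prod_rescale_charpolyRev (M : Matrix (Fin d) (Fin d) ℤ) {e : ℕ} (he : 0 < e)
    {ζ : ℂ} (hζ : IsPrimitiveRoot ζ e) :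
    ∏ i ∈ Finset.range e, PowerSeries.rescale (ζ ^ i) (s27zh_psi M.charpolyRev) =
      PowerSeries.expand e he.ne' (s27zh_psi (M ^ e).charpolyRev) := by
  rw [s27zh_psi_charpolyRev, s27zh_psi_charpolyRev, s27zh_expand_det, s27zh_cast_pow]
  simp only [s27zh_rescale_det]
  have h1 := s27zh_list_prod_one_sub he hζ
    ((PowerSeries.X : PowerSeries ℂ) • s27zh_cast (PowerSeries ℂ) M)
  have h2 := map_list_prod
    (Matrix.detMonoidHom : Matrix (Fin d) (Fin d) (PowerSeries ℂ) →* PowerSeries ℂ)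
    ((List.range e).map fun i =>
      (1 : Matrix (Fin d) (Fin d) (PowerSeries ℂ)) -
        ζ ^ i • ((PowerSeries.X : PowerSeries ℂ) • s27zh_cast (PowerSeries ℂ) M))
  rw [h1, List.map_map, _root_.smul_pow] at h2
  rw [← List.toFinset_range, List.prod_toFinset _ (List.nodup_range)]
  exact h2.symm


theorem s27zh_rescale_C (a c : ℂ) :
    PowerSeries.rescale a (PowerSeries.C c) = PowerSeries.C c := by
  ext n
  rw [PowerSeries.coeff_rescale, PowerSeries.coeff_C]
  split_ifs with h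
  · subst h; simp
  · simp

theorem s27zh_eval_one_charpolyRev (N : Matrix (Fin d) (Fin d) ℤ) :
    N.charpolyRev.eval 1 = (1 - N).det := by
  rw [s27zh_charpolyRev_eq]
  have := s27zh_map_det (Polynomial.evalRingHom (1 : ℤ)) (X : ℤ[X]) N
  rw [Polynomial.coe_evalRingHom, Polynomial.eval_X, one_smul] at this
  rw [this]
  congr 2

/-- **[ZH-b EXT]** -/
theorem s27z_lpoly_ext (M : Matrix (Fin d) (Fin d) ℤ) (Q : ℤ) (Z₁ Zₑ : PowerSeries ℤ)
    (Lₑ : ℤ[X]) (e : ℕ) (he : 0 < e)
    (h1 : (1 - PowerSeries.X) * (1 - PowerSeries.C Q * PowerSeries.X) * Z₁ =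
      (M.charpolyRev : PowerSeries ℤ))
    (h2 : (1 - PowerSeries.X) * (1 - PowerSeries.C (Q ^ e) * PowerSeries.X) * Zₑ =
      (Lₑ : PowerSeries ℤ))
    (ζ : ℂ) (hζ : IsPrimitiveRoot ζ e)
    (hrel : ∀ N : ℕ, PowerSeries.coeff N (∏ i ∈ Finset.range e,
        PowerSeries.rescale (ζ ^ i) (PowerSeries.map (Int.castRingHom ℂ) Z₁)) =
      if e ∣ N then ((PowerSeries.coeff (N / e) Zₑ : ℤ) : ℂ) else 0) :
    Lₑ.eval 1 = (1 - M ^ e).det := by
  have h1' : (1 - PowerSeries.X) * (1 - PowerSeries.C (Q : ℂ) * PowerSeries.X) *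
      PowerSeries.map (Int.castRingHom ℂ) Z₁ = s27zh_psi M.charpolyRev := by
    have := congrArg (PowerSeries.map (Int.castRingHom ℂ)) h1
    rw [map_mul, map_mul, map_sub, map_sub, map_one, map_mul, PowerSeries.map_X,
      PowerSeries.map_C] at this
    exact this
  have h2' : (1 - PowerSeries.X) * (1 - PowerSeries.C ((Q : ℂ) ^ e) * PowerSeries.X) *
      PowerSeries.map (Int.castRingHom ℂ) Zₑ = s27zh_psi Lₑ := by
    have := congrArg (PowerSeries.map (Int.castRingHom ℂ)) h2
    rw [map_mul, map_mul, map_sub, map_sub, map_one, map_mul, PowerSeries.map_X,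
      PowerSeries.map_C, map_pow] at this
    exact this
  -- the product of the rescalings of `Z₁` is the expansion of `Zₑ`
  have hW : ∏ i ∈ Finset.range e,
      PowerSeries.rescale (ζ ^ i) (PowerSeries.map (Int.castRingHom ℂ) Z₁) =
      PowerSeries.expand e he.ne' (PowerSeries.map (Int.castRingHom ℂ) Zₑ) := by
    ext N
    rw [hrel N, PowerSeries.coeff_expand, PowerSeries.coeff_map]
    rfl
  -- the primitive root in `ℂ⟦X⟧`
  have hC : IsPrimitiveRoot (PowerSeries.C ζ : PowerSeries ℂ) e :=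
    hζ.map_of_injective PowerSeries.C_injective
  have hα := s27zh_prod_one_sub he hC (PowerSeries.X : PowerSeries ℂ)
  have hβ := s27zh_prod_one_sub he hC (PowerSeries.C (Q : ℂ) * PowerSeries.X : PowerSeries ℂ)
  -- the product of the rescalings of `h1'`
  have hprod : (1 - (PowerSeries.X : PowerSeries ℂ) ^ e) *
      (1 - (PowerSeries.C (Q : ℂ) * PowerSeries.X) ^ e) *
      PowerSeries.expand e he.ne' (PowerSeries.map (Int.castRingHom ℂ) Zₑ) =
      PowerSeries.expand e he.ne' (s27zh_psi (M ^ e).charpolyRev) := by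
    rw [← s27zh_prod_rescale_charpolyRev M he hζ, ← hW, ← hα, ← hβ, ← Finset.prod_mul_distrib,
      ← Finset.prod_mul_distrib]
    refine Finset.prod_congr rfl fun i _ => ?_
    rw [← h1', map_mul, map_mul, map_sub, map_sub, map_one, map_mul, PowerSeries.rescale_X,
      s27zh_rescale_C, map_pow]
    ring
  -- the expansion of `h2'`
  have hexp : (1 - (PowerSeries.X : PowerSeries ℂ) ^ e) *
      (1 - (PowerSeries.C (Q : ℂ) * PowerSeries.X) ^ e) *
      PowerSeries.expand e he.ne' (PowerSeries.map (Int.castRingHom ℂ) Zₑ) =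
      PowerSeries.expand e he.ne' (s27zh_psi Lₑ) := by
    rw [← h2', map_mul, map_mul, map_sub, map_sub, map_one, map_mul, PowerSeries.expand_X,
      PowerSeries.expand_C, mul_pow, ← map_pow]
  have hEq : s27zh_psi Lₑ = s27zh_psi (M ^ e).charpolyRev := by
    ext m
    have := congrArg (PowerSeries.coeff (e * m)) (hexp.symm.trans hprod)
    rwa [PowerSeries.coeff_expand_mul, PowerSeries.coeff_expand_mul] at this
  rw [s27zh_psi_injective hEq, s27zh_eval_one_charpolyRev]

end ext

end Fermat.Agent.S27
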