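/-
S27 / block (Z), cell ZJ NORM (helper2).  Prefix `s27zj_`, namespace `Fermat.Agent.S27`.

`σ` a `Q`-Frobenius of `E / k` (`Q = p ^ r`).  **Norm surjectivity on `Pic⁰`**: every `σ`-invariant
class `c` of degree zero is the norm `Σ_{i<t} σ^i y` of a `σ^t`-invariant class `y`
(= the `hnorm` binder of `s27gw_main`).

`s27zj_norm_of` takes the two outputs of cell ZD (`s27z_count`, `s27z_finite_fixedPic`) as
hypotheses, so that this file only depends on landed cells (ZB, ZE, ZI, the abstract (NORM)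
`s27n_hnorm_perm`, Riemann's theorem and `s27h_infinite_places`).
-/
import Mathlib
import Fermat.Agent.S27.Zeta.Defs
import Fermat.Agent.S27.Zeta.Per
import Fermat.Agent.S27.Zeta.Fin
import Fermat.Agent.S27.Zeta.Lang
import Fermat.Agent.S27.Hens.NonSpecial
import Fermat.Agent.S27.Norm.Perm

set_option autoImplicit false
set_option linter.unusedSectionVars false
set_option linter.unusedVariables false

namespace Fermat.Agent.S27

open AlgebraicCurve Fermat.Agent.JT3 Finset

universe u v
variable {k : Type u} {E : Type v} [Field k] [Field E] [Algebra k E]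

/-- equality of classes of divisors of degree zero -/
theorem s27zj_mk_eq_iff (A B : Divisor.degZero (K := k) (F := E)) :
    Pic0.mk A = Pic0.mk B ↔ Divisor.IsPrincipal ((A : Divisor k E) - (B : Divisor k E)) := by
  unfold Pic0.mk
  rw [QuotientAddGroup.eq_iff_sub_mem, AddSubgroup.mem_addSubgroupOf]
  rfl

theorem s27zj_mk_sum {ι : Type*} (s : Finset ι) (f : ι → Divisor.degZero (K := k) (F := E)) :
    Pic0.mk (∑ i ∈ s, f i) = ∑ i ∈ s, Pic0.mk (f i) :=
  map_sum (QuotientAddGroup.mk' _) f s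

variable [IsAlgClosed k] {x : E} (hx : rt_IsSepGen k x)

include hx in
/-- the degree is the sum of the coefficients (all places have degree one) -/
theorem s27zj_degree_eq_sum (D : Divisor k E) : Divisor.degree D = D.sum fun _ m => m :=
  rt_degree_eq_sum hx D D.support (Finset.Subset.refl _)

include hx in
theorem s27zj_degree_of_isPrincipal {D : Divisor k E} (hD : Divisor.IsPrincipal D) :
    Divisor.degree D = 0 := by
  obtain ⟨f, hf, hDf⟩ := hD
  rw [rt_eq_div_of_forall hx hDf, rt_degree_div]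

theorem s27zj_mapDomain_placePerm (σ : s27z_stab k E) (D : Divisor k E) :
    Finsupp.mapDomain (s27z_placePerm σ) D = σ • D := rfl

theorem s27zj_mapDomain_placePerm_pow (σ : s27z_stab k E) (i : ℕ) (D : Divisor k E) :
    Finsupp.mapDomain ((s27z_placePerm σ) ^ i) D = σ ^ i • D := by
  rw [← s27z_placePerm_pow]
  rfl

variable {p : ℕ} [Fact p.Prime] [CharP k p] {r : ℕ} (hr : 0 < r) {σ : s27z_stab k E}
  (hσ : s27z_IsFrob (p ^ r) σ)

include hx hr hσ in
/-- an invariant class contains an invariant divisor (Lang, cell ZI) -/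
theorem s27zj_exists_inv_rep (c : Pic0 k E) (hc : s27z_picMap hx σ c = c) :
    ∃ D : Divisor k E, σ • D = D ∧ ∃ h0 : D ∈ Divisor.degZero (K := k) (F := E),
      Pic0.mk ⟨D, h0⟩ = c := by
  obtain ⟨D₁, rfl⟩ := Pic0.mk_surjective c
  rw [s27z_picMap_mk, s27zj_mk_eq_iff, s27z_coe_degZeroHom] at hc
  obtain ⟨D', hD'inv, hD'⟩ := s27z_lang hx hr hσ (D₁ : Divisor k E) hc
  have h0 : D' ∈ Divisor.degZero (K := k) (F := E) := by
    rw [Divisor.mem_degZero]
    have h1 := s27zj_degree_of_isPrincipal hx hD'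
    rw [map_sub, (Divisor.mem_degZero).mp D₁.2, sub_zero] at h1
    exact h1
  exact ⟨D', hD'inv, h0, (s27zj_mk_eq_iff _ _).mpr hD'⟩

include hx hr hσ in
/-- **(Z) / ZJ NORM**, from the statements of cell ZD. -/
theorem s27zj_norm_of
    (hcount : ∀ D : Divisor k E, Divisor.IsPrincipal (σ • D - D) →
      (p ^ r - 1) * Nat.card {A : Divisor k E // 0 ≤ A ∧ σ • A = A ∧ Divisor.IsPrincipal (A - D)}
        + 1 = (p ^ r) ^ Module.finrank k ↥(riemannRochSpace D))
    (hfinPic : Finite {c : Pic0 k E // s27z_picMap hx σ c = c})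
    (t : ℕ) (ht : 0 < t) (c : Pic0 k E) (hc : s27z_picMap hx σ c = c) :
    ∃ y : Pic0 k E, s27z_picMap hx (σ ^ t) y = y ∧
      ∑ i ∈ Finset.range t, s27z_picMap hx (σ ^ i) y = c := by
  classical
  have : Infinite (Place k E) := s27h_infinite_places hx
  set τ : Equiv.Perm (Place k E) := s27z_placePerm σ with hτ
  obtain ⟨D, hDinv, hD0, rfl⟩ := s27zj_exists_inv_rep hx hr hσ c hc
  -- periodicity and finiteness of the fixed points
  have hper : ∀ w : Place k E, ∃ N, 0 < N ∧ (τ ^ N) w = w := by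
    intro w
    obtain ⟨N, hN, hw⟩ := s27z_per_place hx hσ w
    refine ⟨N, hN, ?_⟩
    rw [hτ, ← s27z_placePerm_pow]
    exact hw
  have hfix : ∀ n, 0 < n → {w : Place k E | (τ ^ n) w = w}.Finite := by
    intro n hn
    have h1 : s27z_IsFrob (p ^ (r * n)) (σ ^ n) := by
      rw [pow_mul]
      exact hσ.pow n
    have h2 := s27z_finite_fixedPlaces hx (Nat.mul_pos hr hn) h1
    rw [hτ, ← s27z_placePerm_pow]
    exact h2
  -- principal divisors have degree zero
  have hPr : ∀ X ∈ Divisor.principal (K := k) (F := E), (X.sum fun _ m => m) = 0 := by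
    intro X hX
    rw [← s27zj_degree_eq_sum hx]
    exact s27zj_degree_of_isPrincipal hx hX
  -- representatives of the invariant classes
  have := Fintype.ofFinite {c : Pic0 k E // s27z_picMap hx σ c = c}
  choose rep hrepinv hrep0 hrepc using
    fun c : {c : Pic0 k E // s27z_picMap hx σ c = c} => s27zj_exists_inv_rep hx hr hσ c.1 c.2
  have hR : ∀ X : Divisor k E, Finsupp.mapDomain τ X = X → (X.sum fun _ m => m) = 0 →
      ∃ r' ∈ Finset.univ.image rep, Finsupp.mapDomain τ r' = r' ∧
        X - r' ∈ Divisor.principal (K := k) (F := E) := by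
    intro X hXinv hX0
    have hX0' : X ∈ Divisor.degZero (K := k) (F := E) := by
      rw [Divisor.mem_degZero, s27zj_degree_eq_sum hx]
      exact hX0
    have hXinv' : σ • X = X := hXinv
    have hfixc : s27z_picMap hx σ (Pic0.mk ⟨X, hX0'⟩) = Pic0.mk ⟨X, hX0'⟩ := by
      rw [s27z_picMap_mk]
      exact congrArg Pic0.mk (Subtype.ext (by rw [s27z_coe_degZeroHom]; exact hXinv'))
    refine ⟨rep ⟨_, hfixc⟩, Finset.mem_image.mpr ⟨_, Finset.mem_univ _, rfl⟩,
      hrepinv ⟨_, hfixc⟩, ?_⟩
    have := (s27zj_mk_eq_iff _ _).mp (hrepc ⟨_, hfixc⟩)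
    have h2 : X - rep ⟨_, hfixc⟩ = -(rep ⟨_, hfixc⟩ - X) := by abel
    rw [h2]
    exact (Divisor.principal (K := k) (F := E)).neg_mem this
  -- Riemann counting
  obtain ⟨g, c₀, hRie⟩ := rt_riemann hx
  have hp : 1 < p := (Fact.out : p.Prime).one_lt
  have hQ : 1 < p ^ r := Nat.one_lt_pow hr.ne' hp
  set Nn : ℤ → ℕ := fun n : ℤ => ((p ^ r) ^ (n + 1 - g).toNat - 1) / (p ^ r - 1) with hNn
  have hcnt : ∀ X : Divisor k E, Finsupp.mapDomain τ X = X → c₀ ≤ (X.sum fun _ m => m) →
      Nat.card {A : Divisor k E // 0 ≤ A ∧ Finsupp.mapDomain τ A = A ∧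
        A - X ∈ Divisor.principal (K := k) (F := E)}
        = Nn (X.sum fun _ m => m) := by
    intro X hXinv hXc
    have hXinv' : σ • X = X := hXinv
    have hprin : Divisor.IsPrincipal (σ • X - X) := by
      rw [hXinv', sub_self]
      exact (Divisor.principal (K := k) (F := E)).zero_mem
    have h1 := hcount X hprin
    rw [← s27zj_degree_eq_sum hx] at hXc ⊢
    have h2 := (hRie X).2 hXc
    have h3 : Module.finrank k ↥(riemannRochSpace X) = (Divisor.degree X + 1 - g).toNat := by
      rw [← h2, Int.toNat_natCast]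
    rw [h3] at h1
    simp only [hNn]
    have h4 : (p ^ r) ^ (Divisor.degree X + 1 - ↑g).toNat - 1
        = (p ^ r - 1) * Nat.card {A : Divisor k E // 0 ≤ A ∧ σ • A = A ∧
          Divisor.IsPrincipal (A - X)} := by
      rw [← h1, Nat.add_sub_cancel]
    rw [h4, Nat.mul_div_cancel_left _ (Nat.sub_pos_of_lt hQ)]
    rfl
  -- apply the abstract theorem
  have hD0' : (D.sum fun _ m => m) = 0 := by
    rw [← s27zj_degree_eq_sum hx]
    exact (Divisor.mem_degZero).mp hD0
  obtain ⟨D', hD'inv, hD'0, hD'⟩ := s27n_hnorm_perm τ hper hfix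
    (Divisor.principal (K := k) (F := E)) hPr (Finset.univ.image rep) hR c₀ Nn hcnt t ht D
    hDinv hD0'
  have hD'0' : D' ∈ Divisor.degZero (K := k) (F := E) := by
    rw [Divisor.mem_degZero, s27zj_degree_eq_sum hx]
    exact hD'0
  rw [hτ, s27zj_mapDomain_placePerm_pow] at hD'inv
  refine ⟨Pic0.mk ⟨D', hD'0'⟩, ?_, ?_⟩
  · rw [s27z_picMap_mk]
    exact congrArg Pic0.mk (Subtype.ext (by rw [s27z_coe_degZeroHom]; exact hD'inv))
  · simp only [s27z_picMap_mk]
    rw [← s27zj_mk_sum, s27zj_mk_eq_iff, AddSubgroup.val_finsetSum]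
    simp only [s27z_coe_degZeroHom]
    have h5 : (∑ i ∈ Finset.range t, σ ^ i • D') - D
        = -(D - ∑ i ∈ Finset.range t, Finsupp.mapDomain (τ ^ i) D') := by
      rw [neg_sub]
      congr 1
      refine Finset.sum_congr rfl fun i _ => ?_
      rw [hτ, s27zj_mapDomain_placePerm_pow]
    rw [h5]
    exact (Divisor.principal (K := k) (F := E)).neg_mem hD'

end Fermat.Agent.S27
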