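/-
S27 / block (Z), cell ZJ NORM, final form (helper2).  Prefix `s27zj_`, namespace `Fermat.Agent.S27`.

* `s27zj_finite_fixedPic` : a Frobenius fixes only finitely many classes of degree zero
  (every fixed class `[D]` gives an invariant effective divisor `A ~ D + m • O` of a fixed degree);
* `s27z_norm`             : **norm surjectivity on `Pic⁰`** = the `hnorm` binder of `s27gw_main`.
-/
import Mathlib
import Fermat.Agent.S27.Zeta.Count
import Fermat.Agent.S27.Zeta.Norm

set_option autoImplicit false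
set_option linter.unusedSectionVars false
set_option linter.unusedVariables false

namespace Fermat.Agent.S27

open AlgebraicCurve Fermat.Agent.JT3 Finset

universe u v
variable {k : Type u} {E : Type v} [Field k] [Field E] [Algebra k E]
variable [IsAlgClosed k] {x : E} (hx : rt_IsSepGen k x)
variable {p : ℕ} [Fact p.Prime] [CharP k p] {r : ℕ} (hr : 0 < r) {σ : s27z_stab k E}
  (hσ : s27z_IsFrob (p ^ r) σ)

include hx hr hσ in
/-- **a Frobenius fixes only finitely many classes of degree zero** -/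
theorem s27zj_finite_fixedPic : Finite {c : Pic0 k E // s27z_picMap hx σ c = c} := by
  classical
  have : Infinite (Place k E) := s27h_infinite_places hx
  obtain ⟨w⟩ : Nonempty (Place k E) := inferInstance
  set τ : Equiv.Perm (Place k E) := s27z_placePerm σ with hτ
  have hper : s27n_Per τ := by
    intro w
    obtain ⟨N, hN, hw⟩ := s27z_per_place hx hσ w
    refine ⟨N, hN, ?_⟩
    rw [hτ, ← s27z_placePerm_pow]
    exact hw
  obtain ⟨g, c₀, hRie⟩ := rt_riemann hx
  -- the invariant effective divisor `O`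
  set O : Divisor k E := s27n_cyc τ w with hO
  have hOinv : σ • O = O := s27n_mapDomain_cyc w
  have hOdeg : Divisor.degree O = (Function.minimalPeriod τ w : ℤ) := by
    rw [s27zj_degree_eq_sum hx, ← s27n_degP_apply, hO, s27n_degP_cyc]
  have hNpos : 0 < Function.minimalPeriod τ w := hper.pos w
  set m : ℕ := c₀.toNat + g + 1 with hm
  set n₀ : ℕ := m * Function.minimalPeriod τ w with hn₀
  have hmOdeg : Divisor.degree (m • O) = (n₀ : ℤ) := by
    rw [map_nsmul, hOdeg, hn₀]
    push_cast
    simp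
  have hmn : (m : ℤ) ≤ (n₀ : ℤ) := by
    rw [hn₀]
    exact_mod_cast Nat.le_mul_of_pos_right m hNpos
  have hmval : (m : ℤ) = (c₀.toNat : ℤ) + g + 1 := by
    rw [hm]
    push_cast
    rfl
  have hn₀c : c₀ ≤ (n₀ : ℤ) := by
    have h1 : c₀ ≤ (c₀.toNat : ℤ) := Int.self_le_toNat _
    have : (0 : ℤ) ≤ (g : ℤ) := Int.natCast_nonneg g
    linarith
  have hn₀g : (g : ℤ) + 1 ≤ (n₀ : ℤ) := by
    have : (0 : ℤ) ≤ (c₀.toNat : ℤ) := Int.natCast_nonneg _
    linarith
  have hp : 1 < p := (Fact.out : p.Prime).one_lt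
  have hQ : 1 < p ^ r := Nat.one_lt_pow hr.ne' hp
  -- each fixed class gives an invariant effective divisor of degree `n₀`
  have key : ∀ c : {c : Pic0 k E // s27z_picMap hx σ c = c},
      ∃ A : Divisor k E, (0 ≤ A ∧ σ • A = A ∧ Divisor.degree A = (n₀ : ℤ)) ∧
        ∃ h0 : A - m • O ∈ Divisor.degZero (K := k) (F := E), Pic0.mk ⟨A - m • O, h0⟩ = c.1 := by
    rintro ⟨c, hc⟩
    obtain ⟨D, hDinv, hD0, rfl⟩ := s27zj_exists_inv_rep hx hr hσ c hc
    have hDOinv : σ • (D + m • O) = D + m • O := by
      rw [smul_add, hDinv, smul_comm, hOinv]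
    have hDOdeg : Divisor.degree (D + m • O) = (n₀ : ℤ) := by
      rw [map_add, hmOdeg, (Divisor.mem_degZero).mp hD0, zero_add]
    have hprin : Divisor.IsPrincipal (σ • (D + m • O) - (D + m • O)) := by
      rw [hDOinv, sub_self]
      exact (Divisor.principal (K := k) (F := E)).zero_mem
    have h1 := s27z_count hx hr hσ (D + m • O) hprin
    have h2 := (hRie (D + m • O)).2 (by rw [hDOdeg]; exact hn₀c)
    rw [hDOdeg] at h2
    have hlpos : 0 < Module.finrank k ↥(riemannRochSpace (D + m • O)) := by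
      have : (0 : ℤ) < (Module.finrank k ↥(riemannRochSpace (D + m • O)) : ℤ) := by
        rw [h2]
        linarith
      exact_mod_cast this
    have hcard : Nat.card {A : Divisor k E // 0 ≤ A ∧ σ • A = A ∧
        Divisor.IsPrincipal (A - (D + m • O))} ≠ 0 := by
      intro h0
      rw [h0, mul_zero, zero_add] at h1
      have h3 : 1 < (p ^ r) ^ Module.finrank k ↥(riemannRochSpace (D + m • O)) :=
        Nat.one_lt_pow hlpos.ne' hQ
      omega
    obtain ⟨⟨A, hA0, hAinv, hAprin⟩⟩ : Nonempty {A : Divisor k E // 0 ≤ A ∧ σ • A = A ∧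
        Divisor.IsPrincipal (A - (D + m • O))} := by
      by_contra hne
      rw [not_nonempty_iff] at hne
      exact hcard Nat.card_of_isEmpty
    have hAdeg : Divisor.degree A = (n₀ : ℤ) := by
      have h4 := s27zj_degree_of_isPrincipal hx hAprin
      rw [map_sub, hDOdeg] at h4
      linarith
    have h0 : A - m • O ∈ Divisor.degZero (K := k) (F := E) := by
      rw [Divisor.mem_degZero, map_sub, hAdeg, hmOdeg, sub_self]
    refine ⟨A, ⟨hA0, hAinv, hAdeg⟩, h0, ?_⟩
    rw [s27zj_mk_eq_iff]
    have h5 : A - m • O - D = A - (D + m • O) := by abel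
    show Divisor.IsPrincipal (A - m • O - D)
    rw [h5]
    exact hAprin
  choose f hf hf0 hfc using key
  have : Finite {A : Divisor k E // 0 ≤ A ∧ σ • A = A ∧ Divisor.degree A = (n₀ : ℤ)} :=
    s27z_finite_eff hx hr hσ n₀
  refine Finite.of_injective
    (fun c => (⟨f c, hf c⟩ : {A : Divisor k E // 0 ≤ A ∧ σ • A = A ∧
      Divisor.degree A = (n₀ : ℤ)})) ?_
  intro c c' hcc
  have h6 : f c = f c' := congrArg Subtype.val hcc
  apply Subtype.ext
  rw [← hfc c, ← hfc c']
  have h7 : (⟨f c - m • O, hf0 c⟩ : Divisor.degZero (K := k) (F := E))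
      = ⟨f c' - m • O, hf0 c'⟩ :=
    Subtype.ext (by show f c - m • O = f c' - m • O; rw [h6])
  rw [h7]

include hx hr hσ in
/-- **(Z) / ZJ NORM**: every `σ`-invariant class of degree zero is the norm of a
`σ ^ t`-invariant class (the `hnorm` binder of `s27gw_main`). -/
theorem s27z_norm (t : ℕ) (ht : 0 < t) (c : Pic0 k E) (hc : s27z_picMap hx σ c = c) :
    ∃ y : Pic0 k E, s27z_picMap hx (σ ^ t) y = y ∧
      ∑ i ∈ Finset.range t, s27z_picMap hx (σ ^ i) y = c :=
  s27zj_norm_of hx hr hσ (s27z_count hx hr hσ) (s27zj_finite_fixedPic hx hr hσ) t ht c hc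

end Fermat.Agent.S27
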