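/-
S27 / (Z) geometric Frobenius, cell [ZM MAIN] (helper29): the assembly of the cells
ZB (Per), ZC (Speiser), ZD (Count, FixedPic), ZE (Fin), ZF (ClassSum, LPolyAlg), ZG (Euler), ZH (LPolyExt),
ZI (Lang), ZJ (Norm), ZK (RR/Dual), ZL (Desc) with the growth theorem `s27gw_main`.
`k` algebraically closed of characteristic `p`, algebraic over `F_p`; `E / k` a function field with
separating generator `x`, of genus `g`; `l ≠ p` prime.  Then `#Pic0(E)[l ^ n] = l ^ (2 g n)`.
Prefix `s27z_`.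
-/
import Mathlib
import Fermat.Agent.S27.Zeta.Per
import Fermat.Agent.S27.Zeta.Fin
import Fermat.Agent.S27.Zeta.FixedPic
import Fermat.Agent.S27.Zeta.ClassSumMain
import Fermat.Agent.S27.Zeta.Euler
import Fermat.Agent.S27.Zeta.LPolyExt
import Fermat.Agent.S27.Zeta.Desc
import Fermat.Agent.S27.Zeta.NormMain
import Fermat.Agent.S27.RR.Dual
import Fermat.Agent.S27.Growth.Main
import Fermat.Agent.S27.Genus.Dim
import Fermat.Agent.S27.Red.Defs

set_option autoImplicit false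
set_option linter.unusedSectionVars false

noncomputable section

namespace Fermat.Agent.S27

open AlgebraicCurve Fermat.Agent.JT3 Polynomial
open scoped Pointwise

universe u v
variable {k : Type u} {E : Type v} [Field k] [Field E] [Algebra k E]
variable [IsAlgClosed k] {p : ℕ} [hp : Fact p.Prime] [CharP k p] {x : E} (hx : rt_IsSepGen k x)
variable {r : ℕ} {σ : s27z_stab k E}

/-- the iterates of `σ` on `Pic0` -/
theorem s27z_iterate_eq (m : ℕ) (c : Pic0 k E) :
    ((s27z_picMap hx σ : Pic0 k E ≃+ Pic0 k E) : Pic0 k E →+ Pic0 k E)^[m] c =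
      s27z_picMap hx (σ ^ m) c := by
  rw [s27z_picMap_pow]
  rfl

/-- **[ZM]** the count of the `l`-power torsion of `Pic0` over the algebraic closure of a finite
field -/
theorem s27z_main (hx : rt_IsSepGen k x) (hk : ∀ c : k, ∃ N : ℕ, 0 < N ∧ c ^ (p ^ N) = c) (g : ℕ)
    (hg : s27r_IsGenus k E g) (l : ℕ) [hl' : Fact l.Prime] (hl : l ≠ p) (n : ℕ) :
    Nat.card (Pic0.torsion k E (l ^ n)) = l ^ (2 * g * n) := by
  classical
  -- the Frobenius
  obtain ⟨r₀, hr₀, σ₀, hσ₀⟩ := s27z_exists_frob (p := p) hx hk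
  obtain ⟨w₀⟩ := s27gen_nonempty_place hx
  obtain ⟨N₀, hN₀, hw₀⟩ := s27z_per_place hx hσ₀ w₀
  set σ : s27z_stab k E := σ₀ ^ N₀ with hσdef
  set r : ℕ := r₀ * N₀ with hrdef
  have hr : 0 < r := Nat.mul_pos hr₀ hN₀
  have hσ : s27z_IsFrob (p ^ r) σ := by
    have := hσ₀.pow N₀
    rwa [← pow_mul] at this
  -- powers
  have hσe : ∀ e : ℕ, s27z_IsFrob (p ^ (r * e)) (σ ^ e) := by
    intro e
    have := hσ.pow e
    rwa [← pow_mul] at this
  have hwe : ∀ e : ℕ, σ ^ e • w₀ = w₀ := fun e => s27z_pow_smul_of_fixed hw₀ e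
  -- Riemann-Roch
  obtain ⟨g', c, hR⟩ := rt_riemann hx
  obtain ⟨W, hRR'⟩ := s27wd_riemannRoch hx (fun D hD => (hR D).2 hD)
  have hgg : g' = g := by
    refine s27r_isGenus_unique (K := k) (F := E) ⟨fun A => ?_, ?_⟩ hg
    · have := hRR' A
      have h2 : (0 : ℤ) ≤ (Module.finrank k ↥(riemannRochSpace (W - A)) : ℤ) := Nat.cast_nonneg _
      linarith
    · refine ⟨Finsupp.single w₀ (max c 0), ?_⟩
      have h1 : c ≤ Divisor.degree (Finsupp.single w₀ (max c 0) : Divisor k E) := by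
        rw [rt_degree_single hx]
        exact le_max_left _ _
      rw [(hR _).2 h1]
  subst hgg
  -- the L-polynomials
  have hL : ∀ e : ℕ, 0 < e → ∃ L : ℤ[X], L.natDegree = 2 * g' ∧ L.coeff 0 = 1 ∧
      L.leadingCoeff = ((p : ℤ) ^ (r * e)) ^ g' ∧
      L.eval 1 = (s27z_fixCount hx (σ ^ e) : ℤ) ∧
      (1 - PowerSeries.X) * (1 - PowerSeries.C ((p : ℤ) ^ (r * e)) * PowerSeries.X) *
        s27z_zeta (σ ^ e) = (L : PowerSeries ℤ) :=
    fun e he => s27z_zeta_rational hx (Nat.mul_pos hr he) (hσe e) w₀ (hwe e) g' W hRR'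
  obtain ⟨L₁, hdeg₁, hc₁, hlead₁, -, hZ₁⟩ := hL 1 one_pos
  rw [mul_one] at hlead₁ hZ₁
  rw [pow_one] at hZ₁
  obtain ⟨M, hM, hdet⟩ := s27z_exists_mat L₁ hc₁
  -- `l ∤ det M`
  have hdet' : M.det = ((p : ℤ) ^ r) ^ g' := by
    rw [hdet, hlead₁, hdeg₁, pow_mul, neg_one_sq, one_pow, one_mul]
  have hlM : ¬ (l : ℤ) ∣ M.det := by
    rw [hdet']
    intro h
    have h1 : (l : ℤ) ∣ (p : ℤ) :=
      (Int.prime_iff_natAbs_prime.mpr (by simpa using hl'.out)).dvd_of_dvd_pow
        ((Int.prime_iff_natAbs_prime.mpr (by simpa using hl'.out)).dvd_of_dvd_pow h)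
    have h2 : l ∣ p := by exact_mod_cast h1
    exact hl ((Nat.prime_dvd_prime_iff_eq hl'.out hp.out).mp h2)
  -- finiteness of the fixed places
  have hfin : ∀ e : ℕ, 0 < e → {w : Place k E | ((s27z_placePerm σ) ^ e) w = w}.Finite := by
    intro e he
    have := s27z_finite_fixedPlaces hx (Nat.mul_pos hr he) (hσe e)
    rw [← s27z_placePerm_pow]
    exact this
  -- the fixed point counts
  have hcount : ∀ e : ℕ, 0 < e → ((1 - M ^ e).det) = (s27z_fixCount hx (σ ^ e) : ℤ) := by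
    intro e he
    obtain ⟨Lₑ, -, -, -, hev, hZe⟩ := hL e he
    rw [← hev]
    symm
    have hζ : IsPrimitiveRoot (Complex.exp (2 * Real.pi * Complex.I / e)) e :=
      Complex.isPrimitiveRoot_exp e he.ne'
    refine s27z_lpoly_ext M ((p : ℤ) ^ r) (s27z_zeta σ) (s27z_zeta (σ ^ e)) Lₑ e he ?_ ?_ _ hζ ?_
    · rw [hM]
      exact hZ₁
    · rw [← pow_mul]
      exact hZe
    · intro N
      have h1 : (s27z_zeta σ).map (Int.castRingHom ℂ) = s27z_permZeta ℂ (s27z_placePerm σ) := by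
        ext m
        simp [s27z_zeta, s27z_permZeta, s27z_effCount_eq hx]
      rw [h1, s27z_euler (s27z_placePerm σ) hfin e he _ hζ N]
      by_cases hdvd : e ∣ N
      · rw [if_pos hdvd, if_pos hdvd]
        simp [s27z_zeta, s27z_effCount_eq hx, s27z_placePerm_pow]
      · rw [if_neg hdvd, if_neg hdvd]
  have hpos : ∀ e : ℕ, 0 < e → 0 < s27z_fixCount hx (σ ^ e) := by
    intro e he
    have := s27z_finite_fixedPic hx (Nat.mul_pos hr he) (hσe e)
    have : Nonempty {c : Pic0 k E // s27z_picMap hx (σ ^ e) c = c} := ⟨⟨0, map_zero _⟩⟩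
    exact Nat.card_pos
  -- apply the growth theorem
  have key := s27gw_main l M ((s27z_picMap hx σ : Pic0 k E ≃+ Pic0 k E) : Pic0 k E →+ Pic0 k E)
    hlM ?_ ?_ ?_ n
  · rw [hdeg₁] at key
    rw [← key]
    refine Nat.card_congr (Equiv.subtypeEquivRight fun c => ?_)
    rw [Pic0.mem_torsion, natCast_zsmul]
  · intro c
    obtain ⟨N, hN, h⟩ := s27z_per_pic hx hσ c
    exact ⟨N, hN, by rw [s27z_iterate_eq]; exact h⟩
  · intro m hm
    have h1 := hcount m hm
    have h2 := hpos m hm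
    refine ⟨?_, ?_⟩
    · rw [h1]
      exact_mod_cast h2.ne'
    · rw [h1, Int.natAbs_natCast]
      exact Nat.card_congr (Equiv.subtypeEquivRight fun c => by rw [s27z_iterate_eq])
  · intro m t hm ht c hc
    rw [s27z_iterate_eq] at hc
    obtain ⟨y, hy1, hy2⟩ := s27z_norm hx (Nat.mul_pos hr hm) (hσe m) t ht c hc
    refine ⟨y, ?_, ?_⟩
    · rw [s27z_iterate_eq, pow_mul]
      exact hy1
    · rw [← hy2]
      refine Finset.sum_congr rfl fun i _ => ?_
      rw [s27z_iterate_eq, pow_mul]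

end Fermat.Agent.S27
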