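/-
S27 / (Z): adapter for the constant field.  A field of characteristic `p` all of whose elements are
integral over `ℤ` (the residue field of helper13's `s27g_exists_valuationSubring`) is a union of
finite fields: every element is fixed by a power of the Frobenius.  Mathlib only.  Prefix `s27z_`.
-/
import Mathlib

set_option autoImplicit false

namespace Fermat.Agent.S27

open Polynomial

/-- the hypothesis `hk` of `s27z_main` from integrality over `ℤ` -/
theorem s27z_hk_of_integral {k : Type*} [Field k] (p : ℕ) [hp : Fact p.Prime] [CharP k p]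
    (h : ∀ z : k, ∃ q : ℤ[X], q.Monic ∧ aeval z q = 0) (c : k) :
    ∃ N : ℕ, 0 < N ∧ c ^ (p ^ N) = c := by
  classical
  let _ := ZMod.algebra k p
  obtain ⟨q, hq, hq0⟩ := h c
  have hc : IsIntegral (ZMod p) c := by
    refine ⟨q.map (Int.castRingHom (ZMod p)), hq.map _, ?_⟩
    rw [eval₂_map]
    have : (algebraMap (ZMod p) k).comp (Int.castRingHom (ZMod p)) = algebraMap ℤ k :=
      RingHom.ext_int _ _
    rw [this]
    exact hq0
  let L := IntermediateField.adjoin (ZMod p) {c}
  have : FiniteDimensional (ZMod p) L := IntermediateField.adjoin.finiteDimensional hc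
  have : Finite L := Module.finite_of_finite (ZMod p)
  have : Fintype L := Fintype.ofFinite L
  have hcard : Fintype.card L = p ^ Module.finrank (ZMod p) L := by
    rw [Module.card_eq_pow_finrank (K := ZMod p) (V := L), ZMod.card]
  refine ⟨Module.finrank (ZMod p) L, Module.finrank_pos, ?_⟩
  have h1 := FiniteField.pow_card (⟨c, IntermediateField.mem_adjoin_simple_self _ c⟩ : L)
  rw [hcard] at h1
  exact congrArg (fun a : L => (a : k)) h1

/-- the same from `Algebra.IsIntegral ℤ k` -/
theorem s27z_hk_of_isIntegral {k : Type*} [Field k] (p : ℕ) [Fact p.Prime] [CharP k p]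
    (h : Algebra.IsIntegral ℤ k) (c : k) : ∃ N : ℕ, 0 < N ∧ c ^ (p ^ N) = c :=
  s27z_hk_of_integral p (fun z => by
    obtain ⟨q, hq, hq0⟩ := h.isIntegral z
    exact ⟨q, hq, hq0⟩) c

end Fermat.Agent.S27
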