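/-
S27 / (Z), leaf (F0) SEMILINEAR ACTION (helper7): ring automorphisms of a function field `F / K`
that preserve the constants (e.g. the geometric Frobenius of `F = F₀ ⊗ k`, semilinear over `k`) act
on places, divisors, degree-zero divisors, principal divisors, Riemann–Roch spaces and `Pic⁰`.

* `s27za_G K F : Subgroup (RingAut F)` : the automorphisms `φ` with `φ K = K`;
* `MulAction (s27za_G K F) (Place K F)`, `(φ • P).ord (φ f) = P.ord f` (`s27za_ord_smul`);
* `DistribMulAction (s27za_G K F) (Divisor K F)`, degree (when all places have degree one),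
  principal divisors, `f ∈ L(D) ↔ φ f ∈ L(φ • D)`;
* `s27za_pic0 hdeg : s27za_G K F →* AddAut (Pic0 K F)` (so powers go to powers).
This is the Prelude's action of `F ≃ₐ[K] F` redone for `K`-semilinear automorphisms.
Prefix `s27za_`.
-/
import Mathlib
import Fermat.Prelude.Def_AlgebraicCurve_Repartitions

set_option autoImplicit false

noncomputable section

namespace Fermat.Agent.S27

open AlgebraicCurve
open scoped Pointwise

variable (K F : Type*) [Field K] [Field F] [Algebra K F]

/-- ring automorphisms of `F` mapping the constants onto the constants. -/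
def s27za_G : Subgroup (RingAut F) where
  carrier := {φ | (∀ a : K, ∃ b : K, φ (algebraMap K F a) = algebraMap K F b) ∧
    ∀ a : K, ∃ b : K, φ⁻¹ (algebraMap K F a) = algebraMap K F b}
  one_mem' := ⟨fun a => ⟨a, rfl⟩, fun a => ⟨a, by rw [inv_one]; rfl⟩⟩
  mul_mem' := by
    rintro φ ψ ⟨h1, h1'⟩ ⟨h2, h2'⟩
    refine ⟨fun a => ?_, fun a => ?_⟩
    · obtain ⟨b, hb⟩ := h2 a
      obtain ⟨c, hc⟩ := h1 b
      exact ⟨c, by rw [RingAut.mul_apply, hb, hc]⟩
    · obtain ⟨b, hb⟩ := h1' a
      obtain ⟨c, hc⟩ := h2' b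
      exact ⟨c, by rw [mul_inv_rev, RingAut.mul_apply, hb, hc]⟩
  inv_mem' := by
    rintro φ ⟨h1, h1'⟩
    exact ⟨h1', fun a => by rw [inv_inv]; exact h1 a⟩

variable {K F}

theorem s27za_mem_G {φ : RingAut F} :
    φ ∈ s27za_G K F ↔ (∀ a : K, ∃ b : K, φ (algebraMap K F a) = algebraMap K F b) ∧
      ∀ a : K, ∃ b : K, φ⁻¹ (algebraMap K F a) = algebraMap K F b := Iff.rfl

/-- membership from the two inclusions stated with `RingEquiv.symm`. -/
theorem s27za_mem_G_of (φ : F ≃+* F)
    (h1 : ∀ a : K, ∃ b : K, φ (algebraMap K F a) = algebraMap K F b)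
    (h2 : ∀ a : K, ∃ b : K, φ.symm (algebraMap K F a) = algebraMap K F b) :
    (φ : RingAut F) ∈ s27za_G K F := ⟨h1, h2⟩

theorem s27za_smul_def (φ : s27za_G K F) (f : F) : φ • f = (φ : RingAut F) f := rfl

theorem s27za_const (φ : s27za_G K F) (a : K) :
    ∃ b : K, (φ : RingAut F) (algebraMap K F a) = algebraMap K F b := φ.2.1 a

theorem s27za_const_inv (φ : s27za_G K F) (a : K) :
    ∃ b : K, ((φ : RingAut F))⁻¹ (algebraMap K F a) = algebraMap K F b := φ.2.2 a

/-! ### places -/

/-- `A ≃+* φ • A`. -/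
def s27za_ringEquiv (φ : s27za_G K F) (A : ValuationSubring F) :
    A ≃+* ((φ : RingAut F) • A : ValuationSubring F) where
  toFun x := ⟨(φ : RingAut F) x, by
    have := ValuationSubring.smul_mem_pointwise_smul (φ : RingAut F) (x : F) A x.2
    simpa using this⟩
  invFun y := ⟨((φ : RingAut F))⁻¹ y, by
    have := (ValuationSubring.mem_pointwise_smul_iff_inv_smul_mem (g := (φ : RingAut F))
      (S := A) (x := (y : F))).mp y.2
    simpa using this⟩
  left_inv x := by
    ext
    show ((φ : RingAut F))⁻¹ ((φ : RingAut F) (x : F)) = x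
    rw [← RingAut.mul_apply, inv_mul_cancel, RingAut.one_apply]
  right_inv y := by
    ext
    show (φ : RingAut F) (((φ : RingAut F))⁻¹ (y : F)) = y
    rw [← RingAut.mul_apply, mul_inv_cancel, RingAut.one_apply]
  map_mul' x y := by ext; simp
  map_add' x y := by ext; simp

@[simp]
theorem s27za_coe_ringEquiv (φ : s27za_G K F) (A : ValuationSubring F) (x : A) :
    ((s27za_ringEquiv φ A x : ((φ : RingAut F) • A : ValuationSubring F)) : F) =
      (φ : RingAut F) x := rfl

theorem s27za_smul_top (φ : RingAut F) : φ • (⊤ : ValuationSubring F) = ⊤ := by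
  ext x
  simp only [ValuationSubring.mem_pointwise_smul_iff_inv_smul_mem]
  exact ⟨fun _ => ValuationSubring.mem_top x, fun _ => ValuationSubring.mem_top _⟩

instance s27za_smulPlace : SMul (s27za_G K F) (Place K F) where
  smul φ v :=
    { toValuationSubring := (φ : RingAut F) • v.toValuationSubring
      algebraMap_mem' := fun a => by
        obtain ⟨b, hb⟩ := s27za_const_inv φ a
        rw [ValuationSubring.mem_pointwise_smul_iff_inv_smul_mem]
        have h : (((φ : RingAut F))⁻¹ • algebraMap K F a : F) = algebraMap K F b := hb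
        rw [h]
        exact v.algebraMap_mem' b
      ne_top' := fun h => v.ne_top' <| by
        have := congrArg (((φ : RingAut F))⁻¹ • ·) h
        simpa [s27za_smul_top] using this
      isPrincipalIdealRing' :=
        IsPrincipalIdealRing.of_surjective
          (s27za_ringEquiv φ v.toValuationSubring : _ ≃+* _)
          (s27za_ringEquiv φ v.toValuationSubring).surjective }

@[simp]
theorem s27za_smul_toValuationSubring (φ : s27za_G K F) (v : Place K F) :
    (φ • v).toValuationSubring = (φ : RingAut F) • v.toValuationSubring := rfl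

instance s27za_mulActionPlace : MulAction (s27za_G K F) (Place K F) where
  one_smul v := by
    ext1
    rw [s27za_smul_toValuationSubring, Subgroup.coe_one, one_smul]
  mul_smul φ ψ v := by
    ext1
    simp only [s27za_smul_toValuationSubring]
    rw [Subgroup.coe_mul, mul_smul]

/-- `ord_{φ P} (φ f) = ord_P f`. -/
theorem s27za_ord_smul (φ : s27za_G K F) (v : Place K F) (f : F) :
    (φ • v).ord ((φ : RingAut F) f) = v.ord f := by
  rcases eq_or_ne f 0 with rfl | hf
  · simp
  obtain ⟨π, hπ⟩ := IsDiscreteValuationRing.exists_irreducible v.toValuationSubring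
  obtain ⟨u, hu⟩ := v.exists_unit_mul_zpow hf hπ
  set n := v.ord f with hn
  set e := s27za_ringEquiv φ v.toValuationSubring with he
  have hπ' : Irreducible (e π) := (MulEquiv.irreducible_iff e).mpr hπ
  have hu' : IsUnit (e (u : v.toValuationSubring)) := u.isUnit.map e
  have hcoeu : ((hu'.unit : (φ • v).toValuationSubring) : F)
      = (φ : RingAut F) ((u : v.toValuationSubring) : F) := by
    rw [IsUnit.unit_spec]
    rfl
  have hcoeπ : ((e π : (φ • v).toValuationSubring) : F) = (φ : RingAut F) (π : F) := rfl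
  have key : (φ : RingAut F) f = ((hu'.unit : (φ • v).toValuationSubring) : F)
      * (((e π : (φ • v).toValuationSubring) : F) ^ n) := by
    rw [hcoeu, hcoeπ, hu, map_mul, map_zpow₀]
  rw [key, (φ • v).ord_unit_smul_zpow hu'.unit hπ' n]

theorem s27za_ord_smul' (φ : s27za_G K F) (w : Place K F) (f : F) :
    w.ord ((φ : RingAut F) f) = (φ⁻¹ • w).ord f := by
  have h := s27za_ord_smul φ (φ⁻¹ • w) f
  rwa [smul_inv_smul] at h

/-! ### divisors -/

instance s27za_distribDivisor : DistribMulAction (s27za_G K F) (Divisor K F) :=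
  Finsupp.comapDistribMulAction

theorem s27za_div_smul_def (φ : s27za_G K F) (D : Divisor K F) :
    φ • D = Finsupp.mapDomain (φ • ·) D := rfl

@[simp]
theorem s27za_smul_single (φ : s27za_G K F) (v : Place K F) (n : ℤ) :
    φ • (Finsupp.single v n : Divisor K F) = Finsupp.single (φ • v) n := by
  rw [s27za_div_smul_def, Finsupp.mapDomain_single]

theorem s27za_smul_apply_smul (φ : s27za_G K F) (D : Divisor K F) (v : Place K F) :
    (φ • D) (φ • v) = D v := by
  rw [s27za_div_smul_def]
  exact Finsupp.mapDomain_apply (MulAction.injective φ) D v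

theorem s27za_smul_apply (φ : s27za_G K F) (D : Divisor K F) (w : Place K F) :
    (φ • D) w = D (φ⁻¹ • w) := by
  have : (φ • D) (φ • (φ⁻¹ • w)) = D (φ⁻¹ • w) := s27za_smul_apply_smul φ D (φ⁻¹ • w)
  rwa [smul_inv_smul] at this

theorem s27za_smul_le_smul (φ : s27za_G K F) {D E : Divisor K F} (h : D ≤ E) :
    φ • D ≤ φ • E := by
  intro w
  rw [s27za_smul_apply, s27za_smul_apply]
  exact h _

theorem s27za_smul_nonneg (φ : s27za_G K F) {D : Divisor K F} (h : 0 ≤ D) : 0 ≤ φ • D := by
  have := s27za_smul_le_smul φ h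
  rwa [smul_zero] at this

/-- the degree is preserved when all places have degree one (algebraically closed constants). -/
theorem s27za_degree_smul (hdeg : ∀ v : Place K F, v.deg = 1) (φ : s27za_G K F)
    (D : Divisor K F) : Divisor.degree (φ • D) = Divisor.degree D := by
  induction D using Finsupp.induction with
  | zero => simp
  | single_add v n D _ _ ih =>
      rw [smul_add, map_add, map_add, ih, s27za_smul_single, Divisor.degree_single,
        Divisor.degree_single, hdeg, hdeg]

/-- `φ • div f = div (φ f)`. -/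
theorem s27za_smul_isPrincipal (φ : s27za_G K F) {D : Divisor K F} {f : F}
    (hD : ∀ v : Place K F, D v = v.ord f) (w : Place K F) :
    (φ • D) w = w.ord ((φ : RingAut F) f) := by
  rw [s27za_smul_apply, hD, s27za_ord_smul']

theorem s27za_smul_mem_principal (φ : s27za_G K F) {D : Divisor K F}
    (hD : D ∈ Divisor.principal (K := K) (F := F)) :
    φ • D ∈ Divisor.principal (K := K) (F := F) := by
  obtain ⟨f, hf, hD⟩ := hD
  exact ⟨(φ : RingAut F) f, by simpa using hf, fun w => s27za_smul_isPrincipal φ hD w⟩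

/-- `f ∈ L(D) ↔ φ f ∈ L(φ • D)`. -/
theorem s27za_mem_L_iff (φ : s27za_G K F) (D : Divisor K F) (f : F) :
    (φ : RingAut F) f ∈ riemannRochSpace (φ • D) ↔ f ∈ riemannRochSpace D := by
  rw [mem_riemannRochSpace_iff, mem_riemannRochSpace_iff]
  constructor
  · intro h v
    rcases h (φ • v) with h0 | h1
    · left
      exact (map_eq_zero_iff _ (RingEquiv.injective _)).1 h0
    · right
      rwa [s27za_smul_apply_smul, s27za_ord_smul] at h1
  · intro h w
    rcases h (φ⁻¹ • w) with h0 | h1
    · left
      rw [h0, map_zero]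
    · right
      rwa [s27za_smul_apply, s27za_ord_smul']

/-! ### `Pic⁰` -/

section Pic0

variable (hdeg : ∀ v : Place K F, v.deg = 1)

/-- the action on degree-zero divisors. -/
def s27za_degZeroHom (φ : s27za_G K F) :
    Divisor.degZero (K := K) (F := F) →+ Divisor.degZero (K := K) (F := F) :=
  ((DistribSMul.toAddMonoidHom (Divisor K F) φ).domRestrict
    (Divisor.degZero (K := K) (F := F))).codRestrict _
    (fun D => by
      show Divisor.degree (φ • (D : Divisor K F)) = 0
      rw [s27za_degree_smul hdeg]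
      exact D.2)

@[simp]
theorem s27za_coe_degZeroHom (φ : s27za_G K F) (D : Divisor.degZero (K := K) (F := F)) :
    (s27za_degZeroHom hdeg φ D : Divisor K F) = φ • (D : Divisor K F) := rfl

/-- the action on `Pic⁰` as an additive endomorphism. -/
def s27za_pic0Hom (φ : s27za_G K F) : Pic0 K F →+ Pic0 K F :=
  QuotientAddGroup.map _ _ (s27za_degZeroHom hdeg φ) (by
    rintro ⟨D, hD0⟩ hD
    simp only [AddSubgroup.mem_addSubgroupOf] at hD ⊢
    exact s27za_smul_mem_principal φ hD)

theorem s27za_pic0Hom_mk (φ : s27za_G K F) (D : Divisor.degZero (K := K) (F := F)) :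
    s27za_pic0Hom hdeg φ (Pic0.mk D) = Pic0.mk (s27za_degZeroHom hdeg φ D) := rfl

theorem s27za_pic0Hom_one (x : Pic0 K F) : s27za_pic0Hom hdeg (1 : s27za_G K F) x = x := by
  obtain ⟨D, rfl⟩ := Pic0.mk_surjective x
  rw [s27za_pic0Hom_mk]
  exact congrArg Pic0.mk (Subtype.ext (by rw [s27za_coe_degZeroHom, one_smul]))

theorem s27za_pic0Hom_mul (φ ψ : s27za_G K F) (x : Pic0 K F) :
    s27za_pic0Hom hdeg (φ * ψ) x = s27za_pic0Hom hdeg φ (s27za_pic0Hom hdeg ψ x) := by
  obtain ⟨D, rfl⟩ := Pic0.mk_surjective x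
  rw [s27za_pic0Hom_mk, s27za_pic0Hom_mk, s27za_pic0Hom_mk]
  exact congrArg Pic0.mk (Subtype.ext (by simp only [s27za_coe_degZeroHom]; rw [mul_smul]))

/-- **the action on `Pic⁰`** as an additive automorphism. -/
def s27za_pic0 (φ : s27za_G K F) : Pic0 K F ≃+ Pic0 K F where
  toFun := s27za_pic0Hom hdeg φ
  invFun := s27za_pic0Hom hdeg φ⁻¹
  left_inv := fun x => by
    rw [← s27za_pic0Hom_mul, inv_mul_cancel, s27za_pic0Hom_one]
  right_inv := fun x => by
    rw [← s27za_pic0Hom_mul, mul_inv_cancel, s27za_pic0Hom_one]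
  map_add' := map_add _

theorem s27za_pic0_apply (φ : s27za_G K F) (x : Pic0 K F) :
    s27za_pic0 hdeg φ x = s27za_pic0Hom hdeg φ x := rfl

theorem s27za_pic0_mk (φ : s27za_G K F) (D : Divisor.degZero (K := K) (F := F)) :
    s27za_pic0 hdeg φ (Pic0.mk D) = Pic0.mk (s27za_degZeroHom hdeg φ D) := rfl

theorem s27za_pic0_one (x : Pic0 K F) : s27za_pic0 hdeg (1 : s27za_G K F) x = x :=
  s27za_pic0Hom_one hdeg x

theorem s27za_pic0_mul (φ ψ : s27za_G K F) (x : Pic0 K F) :
    s27za_pic0 hdeg (φ * ψ) x = s27za_pic0 hdeg φ (s27za_pic0 hdeg ψ x) :=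
  s27za_pic0Hom_mul hdeg φ ψ x

/-- powers go to iterates. -/
theorem s27za_pic0_pow (φ : s27za_G K F) (m : ℕ) (x : Pic0 K F) :
    s27za_pic0 hdeg (φ ^ m) x = (s27za_pic0 hdeg φ)^[m] x := by
  induction m generalizing x with
  | zero => rw [pow_zero, s27za_pic0_one]; rfl
  | succ m ih =>
    rw [pow_succ, s27za_pic0_mul, ih, ← Function.iterate_succ_apply]

/-- the same for places and divisors. -/
theorem s27za_place_pow (φ : s27za_G K F) (m : ℕ) (v : Place K F) :
    (φ ^ m) • v = (fun w => φ • w)^[m] v := by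
  induction m generalizing v with
  | zero => rw [pow_zero, one_smul]; rfl
  | succ m ih =>
    rw [pow_succ, mul_smul, ih, ← Function.iterate_succ_apply]

end Pic0

end Fermat.Agent.S27
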