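/-
S27 / (Z), geometric Frobenius design, leaf (F3) LANG FOR CLASSES (helper7).

`k` algebraically closed of characteristic `p`, `Fb / k` a function field (all places of degree
one, principal divisors exist, functions without zeros and poles are constants),
`ψ ∈ s27za_G k Fb` a `k`-semilinear automorphism acting on `k` by `c ↦ c ^ Q`, `Q = p ^ a`,
`a > 0`, with finite orbits on places.  Then

* `s27zl_exists_invariant` : a `ψ`-invariant class of `Pic⁰` contains a `ψ`-invariant divisor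
  (Hilbert 90 by hand: Dedekind independence of the powers of `ψ`, norms of constants);
* `s27zl_rescale` : if `D` and `D + div f` are `ψ`-invariant then `b f` is `ψ`-fixed for some
  constant `b ≠ 0`.
Prefix `s27zl_`.
-/
import Mathlib
import Fermat.Agent.S27.Zeta.SemiAction
import Fermat.Agent.S27.Zeta.Speiser
import Fermat.Agent.S24.Hurwitz.Places

set_option autoImplicit false

noncomputable section

namespace Fermat.Agent.S27

open AlgebraicCurve Fermat.Agent.S24 Finset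

variable {k Fb : Type*} [Field k] [Field Fb] [Algebra k Fb]

/-! ### periods -/

theorem s27zl_pow_smul_fixed {α : Type*} [MulAction (s27za_G k Fb) α] (ψ : s27za_G k Fb)
    {N : ℕ} {x : α} (h : (ψ ^ N) • x = x) (M : ℕ) : (ψ ^ (N * M)) • x = x := by
  induction M with
  | zero => rw [Nat.mul_zero, pow_zero, one_smul]
  | succ M ih => rw [Nat.mul_succ, pow_add, mul_smul, h, ih]

/-- every divisor has a period when every place has one. -/
theorem s27zl_exists_period_divisor (ψ : s27za_G k Fb)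
    (hfinP : ∀ v : Place k Fb, ∃ N, 0 < N ∧ (ψ ^ N) • v = v) (D : Divisor k Fb) :
    ∃ N, 0 < N ∧ (ψ ^ N) • D = D := by
  induction D using Finsupp.induction with
  | zero => exact ⟨1, one_pos, smul_zero _⟩
  | single_add v n D _ _ ih =>
    obtain ⟨N1, hN1, h1⟩ := hfinP v
    obtain ⟨N2, hN2, h2⟩ := ih
    refine ⟨N1 * N2, Nat.mul_pos hN1 hN2, ?_⟩
    rw [smul_add, s27za_smul_single, s27zl_pow_smul_fixed ψ h1 N2, Nat.mul_comm,
      s27zl_pow_smul_fixed ψ h2 N1]

/-! ### the ring hom underlying `ψ` and its iterates -/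

/-- `ψ` as a ring endomorphism of `Fb`. -/
def s27zl_hom (ψ : s27za_G k Fb) : Fb →+* Fb := ((ψ : RingAut Fb) : Fb ≃+* Fb).toRingHom

@[simp] theorem s27zl_hom_apply (ψ : s27za_G k Fb) (f : Fb) :
    s27zl_hom ψ f = (ψ : RingAut Fb) f := rfl

theorem s27zl_pow_apply (ψ : s27za_G k Fb) (N : ℕ) (f : Fb) :
    ((ψ ^ N : s27za_G k Fb) : RingAut Fb) f = (s27zl_hom ψ)^[N] f := by
  induction N generalizing f with
  | zero => rfl
  | succ N ih =>
    rw [pow_succ, Subgroup.coe_mul, RingAut.mul_apply, ih, ← s27zl_hom_apply,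
      ← Function.iterate_succ_apply]

theorem s27zl_iterate_const (p : ℕ) [Fact p.Prime] [CharP k p] (ψ : s27za_G k Fb) (a : ℕ)
    (hψk : ∀ c : k, (ψ : RingAut Fb) (algebraMap k Fb c) = algebraMap k Fb (c ^ p ^ a))
    (N : ℕ) (c : k) :
    (s27zl_hom ψ)^[N] (algebraMap k Fb c) = algebraMap k Fb ((iterateFrobenius k p a)^[N] c) := by
  induction N with
  | zero => rfl
  | succ N ih =>
    rw [Function.iterate_succ_apply', Function.iterate_succ_apply', ih, s27zl_hom_apply, hψk,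
      iterateFrobenius_def]

/-- the powers of `ψ` are pairwise distinct on the fixed field of `ψ ^ N`. -/
theorem s27zl_dist [IsAlgClosed k] (p : ℕ) [Fact p.Prime] [CharP k p] (ψ : s27za_G k Fb)
    (a : ℕ) (ha : 0 < a)
    (hψk : ∀ c : k, (ψ : RingAut Fb) (algebraMap k Fb c) = algebraMap k Fb (c ^ p ^ a))
    (N : ℕ) (hN : 0 < N) (i j : ℕ) (hi : i < N) (hj : j < N) (hij : i ≠ j) :
    ∃ θ : Fb, (s27zl_hom ψ)^[N] θ = θ ∧ (s27zl_hom ψ)^[i] θ ≠ (s27zl_hom ψ)^[j] θ := by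
  obtain ⟨c, hc, hne⟩ := s27zs_frob_dist (k := k) p a ha N hN i j hi hj hij
  refine ⟨algebraMap k Fb c, ?_, ?_⟩
  · rw [s27zl_iterate_const p ψ a hψk, hc]
  · rw [s27zl_iterate_const p ψ a hψk, s27zl_iterate_const p ψ a hψk]
    exact fun h => hne ((algebraMap k Fb).injective h)

/-! ### the partial norms -/

/-- `g 0 = 1`, `g (j+1) = f * ψ (g j)`: the partial norms `∏_{i<j} ψ^i f`. -/
def s27zl_g (ψ : s27za_G k Fb) (f : Fb) : ℕ → Fb
  | 0 => 1
  | j + 1 => f * (ψ : RingAut Fb) (s27zl_g ψ f j)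

theorem s27zl_g_ne_zero (ψ : s27za_G k Fb) {f : Fb} (hf : f ≠ 0) (j : ℕ) :
    s27zl_g ψ f j ≠ 0 := by
  induction j with
  | zero => exact one_ne_zero
  | succ j ih =>
    show f * (ψ : RingAut Fb) (s27zl_g ψ f j) ≠ 0
    exact mul_ne_zero hf (by simpa using ih)

/-- the divisor of the partial norm: `div (g j) = ψ^j • D - D` when `div f = ψ • D - D`. -/
theorem s27zl_ord_g (ψ : s27za_G k Fb) {f : Fb} (hf : f ≠ 0) (D : Divisor k Fb)
    (hD : ∀ v : Place k Fb, v.ord f = (ψ • D) v - D v) (j : ℕ) (v : Place k Fb) :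
    v.ord (s27zl_g ψ f j) = ((ψ ^ j) • D) v - D v := by
  induction j generalizing v with
  | zero => rw [pow_zero, one_smul, sub_self]; exact v.ord_one
  | succ j ih =>
    show v.ord (f * (ψ : RingAut Fb) (s27zl_g ψ f j)) = _
    rw [v.ord_mul hf (by simpa using s27zl_g_ne_zero ψ hf j), s27za_ord_smul', ih, hD,
      pow_succ', mul_smul, s27za_smul_apply ψ ((ψ ^ j) • D) v, s27za_smul_apply ψ D v]
    ring

/-- scaling `f` by a constant `b` with `ψ b = b ^ Q`: `g_j (b f) = b ^ e_j g_j f`. -/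
theorem s27zl_g_smul' (p : ℕ) (ψ : s27za_G k Fb) (a : ℕ)
    (hψk : ∀ c : k, (ψ : RingAut Fb) (algebraMap k Fb c) = algebraMap k Fb (c ^ p ^ a))
    (j : ℕ) : ∃ e : ℕ, (0 < j → 0 < e) ∧ ∀ (b : k) (f : Fb),
      s27zl_g ψ (algebraMap k Fb b * f) j = algebraMap k Fb (b ^ e) * s27zl_g ψ f j := by
  induction j with
  | zero => exact ⟨0, fun h => absurd h (lt_irrefl 0), fun b f => by simp [s27zl_g]⟩
  | succ j ih =>
    obtain ⟨e, -, he⟩ := ih
    refine ⟨1 + p ^ a * e, fun _ => by omega, fun b f => ?_⟩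
    show algebraMap k Fb b * f * (ψ : RingAut Fb) (s27zl_g ψ (algebraMap k Fb b * f) j) =
      algebraMap k Fb (b ^ (1 + p ^ a * e)) * (f * (ψ : RingAut Fb) (s27zl_g ψ f j))
    rw [he, map_mul, hψk, pow_add, pow_one, map_mul, ← pow_mul, Nat.mul_comm e]
    ring

/-! ### Hilbert 90 by hand -/

/-- if `g N = 1` there is `u ≠ 0` with `f * ψ u = u`. -/
theorem s27zl_hilbert90 [IsAlgClosed k] (p : ℕ) [Fact p.Prime] [CharP k p] (ψ : s27za_G k Fb)
    (a : ℕ) (ha : 0 < a)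
    (hψk : ∀ c : k, (ψ : RingAut Fb) (algebraMap k Fb c) = algebraMap k Fb (c ^ p ^ a))
    {f : Fb} {N : ℕ} (hN : 0 < N) (hg : s27zl_g ψ f N = 1) :
    ∃ u : Fb, u ≠ 0 ∧ f * (ψ : RingAut Fb) u = u := by
  -- some `θ` fixed by `ψ^N` with `∑_{j<N} g_j ψ^j θ ≠ 0`
  have hex : ∃ θ : Fb, (s27zl_hom ψ)^[N] θ = θ ∧
      ∑ j ∈ range N, (s27zl_hom ψ)^[j] θ * s27zl_g ψ f j ≠ 0 := by
    by_contra hcon
    push Not at hcon
    have h0 := s27zs_coeff_zero (s27zl_hom ψ)
      (fun i j hi hj hij => s27zl_dist p ψ a ha hψk N hN i j hi hj hij)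
      (s27zl_g ψ f) hcon 0 hN
    exact one_ne_zero h0
  obtain ⟨θ, hθ, hu⟩ := hex
  refine ⟨_, hu, ?_⟩
  rw [map_sum, Finset.mul_sum]
  have h1 : ∀ j ∈ range N, f * (ψ : RingAut Fb) ((s27zl_hom ψ)^[j] θ * s27zl_g ψ f j) =
      (s27zl_hom ψ)^[j + 1] θ * s27zl_g ψ f (j + 1) := by
    intro j _
    rw [map_mul, Function.iterate_succ_apply', s27zl_hom_apply]
    show _ = _ * (f * (ψ : RingAut Fb) (s27zl_g ψ f j))
    ring
  rw [Finset.sum_congr rfl h1]
  have h2 := sum_range_succ' (fun j => (s27zl_hom ψ)^[j] θ * s27zl_g ψ f j) N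
  have h3 := sum_range_succ (fun j => (s27zl_hom ψ)^[j] θ * s27zl_g ψ f j) N
  have h4 : (s27zl_hom ψ)^[N] θ * s27zl_g ψ f N = (s27zl_hom ψ)^[0] θ * s27zl_g ψ f 0 := by
    rw [hθ, hg]; rfl
  rw [h3, h4] at h2
  exact add_right_cancel h2.symm

/-! ### the two theorems -/

section main

variable [IsAlgClosed k] (p : ℕ) [Fact p.Prime] [CharP k p] [HasPrincipalDivisors k Fb]
  (hdeg : ∀ v : Place k Fb, v.deg = 1)
  (hconst : ∀ f : Fb, f ≠ 0 → (∀ v : Place k Fb, v.ord f = 0) →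
    ∃ c : k, f = algebraMap k Fb c)
  (ψ : s27za_G k Fb) (a : ℕ) (ha : 0 < a)
  (hψk : ∀ c : k, (ψ : RingAut Fb) (algebraMap k Fb c) = algebraMap k Fb (c ^ p ^ a))
  (hfinP : ∀ v : Place k Fb, ∃ N, 0 < N ∧ (ψ ^ N) • v = v)

include hconst ha hψk hfinP in
/-- **Lang for classes**: a `ψ`-invariant class contains a `ψ`-invariant divisor. -/
theorem s27zl_exists_invariant (c : Pic0 k Fb) (hc : s27za_pic0 hdeg ψ c = c) :
    ∃ D : Divisor.degZero (K := k) (F := Fb), Pic0.mk D = c ∧ ψ • (D : Divisor k Fb) = D := by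
  obtain ⟨D1, rfl⟩ := Pic0.mk_surjective c
  rw [s27za_pic0_mk] at hc
  -- `ψ • D1 - D1 = div f`
  have hpr : ((s27za_degZeroHom hdeg ψ D1 : Divisor k Fb) - (D1 : Divisor k Fb)) ∈
      Divisor.principal (K := k) (F := Fb) := by
    have h := (QuotientAddGroup.eq (s := (Divisor.principal (K := k) (F := Fb)).addSubgroupOf
      (Divisor.degZero (K := k) (F := Fb)))).1 hc.symm
    rw [AddSubgroup.mem_addSubgroupOf] at h
    have h' : (-(D1 : Divisor k Fb) + (s27za_degZeroHom hdeg ψ D1 : Divisor k Fb)) ∈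
        Divisor.principal (K := k) (F := Fb) := h
    rwa [neg_add_eq_sub] at h'
  obtain ⟨f, hf0, hf⟩ := hpr
  have hD : ∀ v : Place k Fb, v.ord f = (ψ • (D1 : Divisor k Fb)) v - (D1 : Divisor k Fb) v := by
    intro v
    rw [← hf v, Finsupp.sub_apply, s27za_coe_degZeroHom]
  -- a period `N` of `D1`
  obtain ⟨N, hN, hper⟩ := s27zl_exists_period_divisor ψ hfinP (D1 : Divisor k Fb)
  -- `g N` is a constant
  have hgN : ∀ v : Place k Fb, v.ord (s27zl_g ψ f N) = 0 := fun v => by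
    rw [s27zl_ord_g ψ hf0 _ hD, hper, sub_self]
  obtain ⟨c0, hc0⟩ := hconst _ (s27zl_g_ne_zero ψ hf0 N) hgN
  have hc0ne : c0 ≠ 0 := by
    rintro rfl
    exact s27zl_g_ne_zero ψ hf0 N (by rw [hc0, map_zero])
  -- rescale `f` so that `g N = 1`
  obtain ⟨e, hepos, he⟩ := s27zl_g_smul' p ψ a hψk N
  obtain ⟨b, hb⟩ := IsAlgClosed.exists_pow_nat_eq (c0⁻¹) (hepos hN)
  have hbne : b ≠ 0 := by
    rintro rfl
    rw [zero_pow (hepos hN).ne'] at hb
    exact inv_ne_zero hc0ne hb.symm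
  have hg1 : s27zl_g ψ (algebraMap k Fb b * f) N = 1 := by
    rw [he, hb, hc0, ← map_mul, inv_mul_cancel₀ hc0ne, map_one]
  obtain ⟨u, hu0, hu⟩ := s27zl_hilbert90 p ψ a ha hψk hN hg1
  -- the divisor of `u`
  obtain ⟨E, hE, hEdeg⟩ := HasPrincipalDivisors.exists_divisor (K := k) u hu0
  have hDdeg : Divisor.degree ((D1 : Divisor k Fb) + E) = 0 := by
    rw [map_add, hEdeg, add_zero]
    exact D1.2
  refine ⟨⟨(D1 : Divisor k Fb) + E, hDdeg⟩, ?_, ?_⟩
  · -- same class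
    apply (QuotientAddGroup.eq (s := (Divisor.principal (K := k) (F := Fb)).addSubgroupOf
      (Divisor.degZero (K := k) (F := Fb)))).2
    rw [AddSubgroup.mem_addSubgroupOf]
    show (-((D1 : Divisor k Fb) + E) + (D1 : Divisor k Fb)) ∈
      Divisor.principal (K := k) (F := Fb)
    have : -((D1 : Divisor k Fb) + E) + (D1 : Divisor k Fb) = -E := by abel
    rw [this]
    exact AddSubgroup.neg_mem _ ⟨u, hu0, hE⟩
  · -- invariance
    ext w
    show (ψ • ((D1 : Divisor k Fb) + E)) w = ((D1 : Divisor k Fb) + E) w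
    rw [smul_add, Finsupp.add_apply, Finsupp.add_apply, s27za_smul_isPrincipal ψ hE w, hE w]
    have hbF : algebraMap k Fb b ≠ 0 := by simpa using hbne
    have hψu : (ψ : RingAut Fb) u ≠ 0 := by simpa using hu0
    have h1 : w.ord u = w.ord (algebraMap k Fb b) + w.ord f + w.ord ((ψ : RingAut Fb) u) := by
      conv_lhs => rw [← hu]
      rw [w.ord_mul (mul_ne_zero hbF hf0) hψu, w.ord_mul hbF hf0]
    rw [hw_ord_algebraMap, zero_add, hD w] at h1
    linarith

omit [CharP k p] [HasPrincipalDivisors k Fb] in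
include hconst ha hψk in
/-- **rescaling**: if `D` and `D + div f` are invariant, a constant multiple of `f` is fixed. -/
theorem s27zl_rescale {D A : Divisor k Fb} (hDinv : ψ • D = D) (hAinv : ψ • A = A) {f : Fb}
    (hf : f ≠ 0) (hA : ∀ v : Place k Fb, A v = D v + v.ord f) :
    ∃ b : k, b ≠ 0 ∧ (ψ : RingAut Fb) (algebraMap k Fb b * f) = algebraMap k Fb b * f := by
  -- `ψ f / f` has trivial divisor
  have hψf : (ψ : RingAut Fb) f ≠ 0 := by simpa using hf
  have hord : ∀ v : Place k Fb, v.ord ((ψ : RingAut Fb) f / f) = 0 := by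
    intro v
    rw [div_eq_mul_inv, v.ord_mul hψf (inv_ne_zero hf), v.ord_inv, s27za_ord_smul']
    have h1 := hA (ψ⁻¹ • v)
    have h2 := hA v
    have h3 : A (ψ⁻¹ • v) = A v := by
      conv_rhs => rw [← hAinv]
      rw [s27za_smul_apply]
    have h4 : D (ψ⁻¹ • v) = D v := by
      conv_rhs => rw [← hDinv]
      rw [s27za_smul_apply]
    linarith
  obtain ⟨c0, hc0⟩ := hconst _ (div_ne_zero hψf hf) hord
  have hc0ne : c0 ≠ 0 := by
    rintro rfl
    rw [map_zero] at hc0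
    exact div_ne_zero hψf hf hc0
  -- solve `b ^ (Q - 1) = c0⁻¹`
  have hQ : 1 < p ^ a := Nat.one_lt_pow ha.ne' (Fact.out : p.Prime).one_lt
  obtain ⟨b, hb⟩ := IsAlgClosed.exists_pow_nat_eq (c0⁻¹) (Nat.sub_pos_of_lt hQ)
  have hbne : b ≠ 0 := by
    rintro rfl
    rw [zero_pow (Nat.sub_pos_of_lt hQ).ne'] at hb
    exact inv_ne_zero hc0ne hb.symm
  refine ⟨b, hbne, ?_⟩
  have hψf' : (ψ : RingAut Fb) f = algebraMap k Fb c0 * f := by
    rw [← hc0, div_mul_cancel₀ _ hf]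
  have hbQ : b ^ p ^ a = b * c0⁻¹ := by
    have : p ^ a = (p ^ a - 1) + 1 := by omega
    rw [this, pow_succ, hb, mul_comm]
  rw [map_mul, hψk, hψf', hbQ, map_mul, map_inv₀]
  have : algebraMap k Fb c0 ≠ 0 := by simpa using hc0ne
  field_simp

end main

end Fermat.Agent.S27
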